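import Fermat.Agent.PoitouTate.Field.Big

/-!
# Ramification of characters

On the inertia at a place over `q` outside `S` every character is a multiple of that of a root of `q`.
-/

set_option autoImplicit false
set_option linter.style.haveILetI false
set_option linter.unusedSectionVars false

noncomputable section

open scoped Pointwise

namespace FLTAgent.PoitouTate.Field

open FLTAgent.Lowering.P1 FLTAgent.Lowering.P1.Brauer
open FLTAgent.Lowering.P1.Hasse (powP InOrbit)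

local notation "LL" => AlgebraicClosure ℚ
local notation "GG" => (AlgebraicClosure ℚ ≃ₐ[ℚ] AlgebraicClosure ℚ)
local notation "VS" => ValuationSubring (AlgebraicClosure ℚ)
local notation "Dec" => ValuationSubring.decompositionSubgroup ℚ

local instance (priority := 900) normalLLR : Normal ℚ LL :=
  normal_iff.2 fun x => ⟨integral_coe x, IsAlgClosed.splits _⟩

/-- The normal closure of a field unramified outside `S` is unramified outside `S`. -/
theorem exists_normal_unram {S : Finset Nat.Primes} {L : IntermediateField ℚ LL}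
    (hL : L.IsUnramifiedOutside S) :
    ∃ M : IntermediateField ℚ LL, M.IsUnramifiedOutside S ∧ Normal ℚ M ∧ L ≤ M := by
  haveI := hL.1
  refine ⟨IntermediateField.normalClosure ℚ L LL,
    ⟨normalClosure.is_finiteDimensional ℚ L LL, fun q hq V hV σ hσ => ?_⟩,
    normalClosure.normal ℚ L LL, IntermediateField.le_normalClosure L⟩
  rw [← Subgroup.zpowers_le, ← IntermediateField.le_iff_le]
  refine (IntermediateField.normalClosure_def'' L).trans_le (iSup_le fun g => ?_)
  rintro _ ⟨y, hy, rfl⟩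
  rw [IntermediateField.mem_fixedField_iff]
  intro τ hτ
  have h1 : g⁻¹ * τ * g ∈ (g⁻¹ • V).inertiaSubgroupIn ℚ := by
    have h := Places.conj_mem_inertia V ((Subgroup.zpowers_le.2 hσ) hτ) g⁻¹
    rwa [inv_inv] at h
  have h2 := congrArg g ((IntermediateField.mem_fixingSubgroup_iff _ _).1
    (hL.2 q hq _ (Places.liesOverPrime_smul V g⁻¹ hV) h1) y hy)
  rwa [← AlgEquiv.mul_apply, show g * (g⁻¹ * τ * g) = τ * g by group, AlgEquiv.mul_apply] at h2

variable {p : ℕ} [Fact p.Prime] {S : Finset Nat.Primes} (F : SField p S)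

/-- A prime as a fixed number. -/
def primeU (q : Nat.Primes) : ↥(fixU F.N) :=
  ⟨Units.mk0 ((q : ℕ) : LL) (Nat.cast_ne_zero.2 q.2.ne_zero), fun σ _ => map_natCast σ _⟩

/-- The character of a root of a prime. -/
def kap (q : Nat.Primes) : ↥F.N → ZMod p := kumC (fixN F) (primeU F q)

theorem kap_mem (q : Nat.Primes) : kap F q ∈ Z1 (omRep p) F.N.subtype := kumC_mem _ _

theorem out_of_notMem {q : Nat.Primes} (hq : q ∉ S) : OutS S q :=
  ⟨q.2, fun _ hr e => hq (by rwa [Subtype.ext e] at hr)⟩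

theorem ne_p (hpS : ExtCitation.pPrime p ∈ S) {l : ℕ} (hl : OutS S l) : l ≠ p :=
  fun e => hl.2 _ hpS e.symm

variable (hpS : ExtCitation.pPrime p ∈ S) {q : Nat.Primes} (hq : q ∉ S) {V : VS}
  (hV : V.LiesOverPrime (q : ℕ))

include hpS hq hV

/-- A radical on inertia. -/
theorem inertia_radical {σ : ↥F.N} (hσ : (σ : GG) ∈ V.inertiaSubgroupIn ℚ) {δ : LL} (hδ : δ ≠ 0)
    (hd : InFix V (δ ^ p)) {x : ZMod p} (hx : (σ : GG) δ = zeta p ^ x.val * δ) :
    x = (ordV q V (δ ^ p) : ZMod p) * kap F q σ := by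
  have hl := q.2
  have hout := out_of_notMem hq
  set ρ := root p (primeU F q : LLˣ)
  have hρ : ρ ^ p = ((q : ℕ) : LL) := root_spec _
  have hρ0 : ρ ≠ 0 := root_ne _
  have hρσ : (σ : GG) ρ = zeta p ^ (kap F q σ).val * ρ := kum_spec (fixN F) (primeU F q) hρ σ
  set k := ordV q V (δ ^ p) with hk
  set m := (k : ZMod p).val with hm
  have hfl : InFix V ((q : ℕ) : LL) := fun τ _ => map_natCast τ _
  have hyp : (δ / ρ ^ m) ^ p = δ ^ p / ((q : ℕ) : LL) ^ m := by rw [div_pow, pow_right_comm, hρ]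
  have hy : InFix V (δ / ρ ^ m) := by
    refine (inertia_fix_iff hl hV (ne_p hpS hout) (div_ne_zero hδ (pow_ne_zero _ hρ0)) ?_).2 ?_
    · rw [hyp]; exact hd.div (hfl.pow m)
    · rw [hyp, ordV_div hl hV (pow_ne_zero _ hδ) (pow_ne_zero _ (Nat.cast_ne_zero.2 hl.ne_zero)) hd
        (hfl.pow m), ordV_pow hl hV (Nat.cast_ne_zero.2 hl.ne_zero) hfl, ordV_natCast hl hV,
        mul_one, ← ZMod.intCast_zmod_eq_zero_iff_dvd, Int.cast_sub, Int.cast_natCast, ← hk, hm,
        ZMod.natCast_zmod_val, sub_self]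
  have h1 := hy σ hσ
  rw [map_div₀, map_pow, hx, hρσ, div_eq_div_iff
    (pow_ne_zero _ (mul_ne_zero (pow_ne_zero _ (zeta_ne p)) hρ0)) (pow_ne_zero _ hρ0),
    mul_pow, ← pow_mul] at h1
  have h2 : zeta p ^ x.val = zeta p ^ ((kap F q σ).val * m) := by
    refine mul_right_cancel₀ (mul_ne_zero hδ (pow_ne_zero m hρ0)) ?_
    linear_combination h1
  have h3 : zeta p ^ ((kap F q σ).val * m) = zeta p ^ ((k : ZMod p) * kap F q σ).val := by
    rw [ZMod.val_mul, ← hm, mul_comm, pow_eq_pow_mod _ (zeta_spec p).pow_eq_one]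
  exact zeta_pow_inj p (h2.trans h3)

/-- The character of a fixed number on inertia. -/
theorem kumC_inertia (u : ↥(fixU F.N)) {σ : ↥F.N} (hσ : (σ : GG) ∈ V.inertiaSubgroupIn ℚ) :
    kumC (fixN F) u σ = (ordV q V ((u : LLˣ) : LL) : ZMod p) * kap F q σ := by
  have h := inertia_radical F hpS hq hV hσ (root_ne (p := p) (u : LLˣ))
    (by rw [root_spec]; exact inFix_of_fixed F u.2 (out_of_notMem hq) hV)
    (kum_spec (fixN F) u (root_spec _) σ)
  rwa [root_spec] at h

/-- Some element of inertia moves the root of `q`. -/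
theorem exists_kap_one : ∃ σ : ↥F.N, (σ : GG) ∈ V.inertiaSubgroupIn ℚ ∧ kap F q σ = 1 := by
  have hout := out_of_notMem hq
  obtain ⟨σ, hσ, hne⟩ : ∃ σ : ↥F.N, (σ : GG) ∈ V.inertiaSubgroupIn ℚ ∧ kap F q σ ≠ 0 := by
    by_contra hall
    push Not at hall
    have hρ := root_spec (p := p) (primeU F q : LLˣ)
    have h : InFix V (root p (primeU F q : LLˣ)) := fun σ hσ => by
      have h1 := kum_spec (fixN F) (primeU F q) hρ ⟨σ, inertia_le_N F hout hV hσ⟩
      rw [show kumC (fixN F) (primeU F q) ⟨σ, inertia_le_N F hout hV hσ⟩ = 0 from hall _ hσ] at h1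
      simpa using h1
    have h1 := (inertia_fix_iff q.2 hV (ne_p hpS hout) (root_ne (p := p) _)
      (by rw [hρ]; exact fun τ _ => map_natCast τ _)).1 h
    rw [hρ, show ((primeU F q : LLˣ) : LL) = ((q : ℕ) : LL) from rfl, ordV_natCast q.2 hV] at h1
    exact (Fact.out : p.Prime).not_dvd_one (Int.natCast_dvd_natCast.1 (by exact_mod_cast h1))
  refine ⟨σ ^ ((kap F q σ)⁻¹ : ZMod p).val, by rw [SubgroupClass.coe_pow]; exact pow_mem hσ _, ?_⟩
  have hpow : ∀ n : ℕ, kap F q (σ ^ n) = n * kap F q σ := fun n => by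
    induction n with
    | zero => rw [pow_zero, Z1_one (fixN F) (kap_mem F q), Nat.cast_zero, zero_mul]
    | succ n ih =>
      rw [pow_succ, ((mem_Z1_iff (fixN F)).1 (kap_mem F q)).2, ih, Nat.cast_succ, add_mul, one_mul]
  rw [hpow, ZMod.natCast_zmod_val, inv_mul_cancel₀ hne]

/-- Additive functions on an open subgroup containing the inertia. -/
theorem exists_coeff {U : Subgroup GG} (hUN : U ≤ F.N) {v : GG → ZMod p}
    (hadd : ∀ s ∈ U, ∀ t ∈ U, v (s * t) = v s + v t) (hlev : LevOn U v)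
    (hIU : V.inertiaSubgroupIn ℚ ≤ U) :
    ∃ k : ZMod p, ∀ σ : ↥F.N, (σ : GG) ∈ V.inertiaSubgroupIn ℚ → v σ = k * kap F q σ := by
  obtain ⟨δ, hδ, hk, hfix⟩ := Brauer.exists_kummer (zeta_spec p)
    (fun σ hσ => fixN F σ (hUN hσ)) hadd hlev
  exact ⟨_, fun σ hσ => inertia_radical F hpS hq hV hσ hδ (fun τ hτ => hfix τ (hIU hτ))
    (hk σ (hIU hσ))⟩

/-- The coefficient is the same at conjugate places. -/
theorem coeff_smul {g : GG} (hg : g ∈ F.N) {v : GG → ZMod p} {k : ZMod p}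
    (hk : ∀ σ : ↥F.N, (σ : GG) ∈ V.inertiaSubgroupIn ℚ → v σ = k * kap F q σ)
    (hinv : ∀ σ ∈ V.inertiaSubgroupIn ℚ, v (g * σ * g⁻¹) = v σ) :
    ∀ σ : ↥F.N, (σ : GG) ∈ (g • V).inertiaSubgroupIn ℚ → v σ = k * kap F q σ := fun σ hσ => by
  have h1 : g⁻¹ * σ * g ∈ V.inertiaSubgroupIn ℚ := by
    have h1 := Places.conj_mem_inertia (g • V) hσ g⁻¹
    rwa [inv_smul_smul, inv_inv] at h1
  have h2 : g⁻¹ * σ * g ∈ F.N := mul_mem (mul_mem (inv_mem hg) σ.2) hg
  have e : (σ : GG) = g * (g⁻¹ * σ * g) * g⁻¹ := by group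
  have h3 := (congrArg v e).trans ((hinv _ h1).trans (hk ⟨_, h2⟩ h1))
  rw [h3, ← apply_conj F (kap_mem F q) hg h2]
  exact congrArg (fun x => k * kap F q x) (Subtype.ext e.symm)

end FLTAgent.PoitouTate.Field
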