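import Fermat.Agent.PoitouTate.Field.Pair
import Fermat.Agent.PoitouTate.Field.Ramif

/-!
# A product of characters as a class of level unramified outside `S`

If the second character is ramified outside `S` only where the first one splits, then a multiple of
their product, by a number prime to `p`, is a class whose level is unramified outside `S`.
-/

set_option autoImplicit false
set_option linter.style.haveILetI false
set_option linter.unusedSectionVars false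
set_option maxHeartbeats 1000000

noncomputable section

open scoped Pointwise

namespace FLTAgent.PoitouTate.Field

open FLTAgent.Lowering.P1 FLTAgent.Lowering.P1.Brauer
open FLTAgent.Lowering.P1.Hasse (InOrbit)
open Loc (SameOrbit)

local notation "LL" => AlgebraicClosure ℚ
local notation "GG" => (AlgebraicClosure ℚ ≃ₐ[ℚ] AlgebraicClosure ℚ)
local notation "VS" => ValuationSubring (AlgebraicClosure ℚ)
local notation "Dec" => ValuationSubring.decompositionSubgroup ℚ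

theorem InFix.prod {V : VS} {ι : Type} (s : Finset ι) {f : ι → LL}
    (h : ∀ i ∈ s, InFix V (f i)) : InFix V (∏ i ∈ s, f i) := fun σ hσ => by
  rw [map_prod]
  exact Finset.prod_congr rfl fun i hi => h i hi σ hσ

theorem ordV_prod {l : ℕ} (hl : l.Prime) {V : VS} (hV : V.LiesOverPrime l) {ι : Type} (s : Finset ι)
    {f : ι → LL} (h0 : ∀ i ∈ s, f i ≠ 0) (hf : ∀ i ∈ s, InFix V (f i)) :
    ordV l V (∏ i ∈ s, f i) = ∑ i ∈ s, ordV l V (f i) := by
  classical
  induction s using Finset.induction_on with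
  | empty => simp [ordV_one hl hV]
  | insert i s hi ih =>
    rw [Finset.prod_insert hi, Finset.sum_insert hi, ordV_mul hl hV (h0 i (Finset.mem_insert_self i s))
      (Finset.prod_ne_zero_iff.2 fun j hj => h0 j (Finset.mem_insert_of_mem hj))
      (hf i (Finset.mem_insert_self i s)) (InFix.prod s fun j hj => hf j (Finset.mem_insert_of_mem hj)),
      ih (fun j hj => h0 j (Finset.mem_insert_of_mem hj)) fun j hj => hf j (Finset.mem_insert_of_mem hj)]

/-- Radicals of order a power of `p`. -/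
theorem inFix_of_pow {p : ℕ} [Fact p.Prime] {l : ℕ} (hl : l.Prime) (hlp : l ≠ p) {V : VS}
    (hV : V.LiesOverPrime l) : ∀ (e : ℕ) {x : LL}, x ≠ 0 → InFix V (x ^ p ^ e) →
      ((p : ℤ) ^ e ∣ ordV l V (x ^ p ^ e)) → InFix V x
  | 0, x, _, h, _ => by simpa using h
  | e + 1, x, hx, h, hd => by
    have he : x ^ p ^ (e + 1) = (x ^ p) ^ p ^ e := by rw [← pow_mul, pow_succ']
    rw [he] at h hd
    have h1 : InFix V (x ^ p) := inFix_of_pow hl hlp hV e (pow_ne_zero _ hx) h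
      (dvd_trans ⟨(p : ℤ), by rw [pow_succ]⟩ hd)
    refine (inertia_fix_iff hl hV hlp hx h1).2 ?_
    rw [ordV_pow hl hV (pow_ne_zero _ hx) h1, pow_succ, Nat.cast_pow] at hd
    exact (mul_dvd_mul_iff_left (pow_ne_zero e (by exact_mod_cast (Fact.out : p.Prime).ne_zero))).1 hd

variable {p : ℕ} [Fact p.Prime] {S : Finset Nat.Primes} (F : SField p S)
  (hpS : ExtCitation.pPrime p ∈ S)

theorem ordV_fixed {W : VS} {q : ℕ} (hq : q.Prime) (hW : W.LiesOverPrime q) {x : LL} (hx : x ≠ 0)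
    (hf : InFix W x) {g : GG} (hg : g x = x) : ordV q (g • W) x = ordV q W x := by
  conv_lhs => rw [← hg]
  exact ordV_smul hq hW hx hf

include hpS in
/-- A number whose divisor, modulo `p`, is shifted as the character prescribes. -/
theorem exists_shift (χ : CycChar (galOf F.K) p)
    (hI : ∀ (q : Nat.Primes) (V : VS), q ∉ S → V.LiesOverPrime (q : ℕ) →
      ∀ σ ∈ V.inertiaSubgroupIn ℚ, χ.ψ σ = 0)
    {β : LL} (hβK : β ∈ F.K) (hβ0 : β ≠ 0)
    (hsplit : ∀ (q : Nat.Primes) (V : VS), q ∉ S → V.LiesOverPrime (q : ℕ) →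
      (∃ σ ∈ F.Hw V, χ.ψ σ ≠ 0) → (p : ℤ) ∣ ordV q V β) :
    ∃ (z : LL) (h : ℕ), z ≠ 0 ∧ ¬ p ∣ h ∧
      (∀ (q : Nat.Primes) (V : VS), q ∉ S → V.LiesOverPrime (q : ℕ) → InFix V z) ∧
      ∀ (q : Nat.Primes) (V : VS), q ∉ S → V.LiesOverPrime (q : ℕ) → ∀ σ ∈ F.N,
        ((ordV q V (σ z) - ordV q V z : ℤ) : ZMod p) = -χ.ψ σ * h * (ordV q V β : ZMod p) := by
  classical
  haveI := F.fd
  have hp := (Fact.out : p.Prime)
  obtain ⟨L, hLfd, hL⟩ := exists_field_of_open (χ.openIn.trans (open_top_of_field F.K))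
  haveI := hLfd
  have hIker : ∀ (q : Nat.Primes) (V : VS), q ∉ S → V.LiesOverPrime (q : ℕ) →
      V.inertiaSubgroupIn ℚ ≤ χ.ker := fun q V hq hV σ hσ =>
    ⟨inertia_le_N F (out_of_notMem hq) hV hσ, hI q V hq hV σ hσ⟩
  obtain ⟨S₁, hS₁⟩ := exists_finset_eq_one hβ0
  obtain ⟨RK, hRK, hRKl, hiff⟩ := Hasse.exists_places F.K (S₁.filter fun l => OutS S l)
    fun l hl => (Finset.mem_filter.1 hl).2.1
  set Xs := RK.filter fun X => ∀ σ ∈ F.Hw X, χ.ψ σ = 0 with hXs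
  have hXl : ∀ X : ↥Xs, ∃ q : Nat.Primes, q ∉ S ∧ (X : VS).LiesOverPrime (q : ℕ) := fun X => by
    obtain ⟨l, hl, hV⟩ := hRKl X (Finset.mem_filter.1 X.2).1
    exact ⟨⟨l, (Finset.mem_filter.1 hl).2.1⟩, (Finset.mem_filter.1 hl).2.notMem, hV⟩
  choose qX hqS hqX using hXl
  choose π hπL hπ0 hπlt hπone using fun X : ↥Xs => Hasse.exists_orbit_elem L (qX X).2 (hqX X)
  have hfixπ : ∀ (X : ↥Xs), ∀ t ∈ χ.ker, t (π X) = π X := fun X t ht =>
    (IntermediateField.mem_fixingSubgroup_iff _ _).1 (show t ∈ galOf L by rw [hL]; exact ht) _ (hπL X)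
  have hInker : ∀ {x : LL}, (∀ t ∈ χ.ker, t x = x) → ∀ (q : Nat.Primes) (V : VS), q ∉ S →
      V.LiesOverPrime (q : ℕ) → InFix V x := fun hx q V hq hV σ hσ => hx σ (hIker q V hq hV hσ)
  set m : ↥Xs → ℤ := fun X => ordV (qX X) (X : VS) (π X) with hm
  have hm0 : ∀ X, m X ≠ 0 := fun X h => (hπlt X).ne
    ((val_eq_one_iff (qX X).2 (hqX X) (hπ0 X) (hInker (hfixπ X) _ _ (hqS X) (hqX X))).2 h)
  set M : ℕ := ∏ X, (m X).natAbs with hM
  have hM0 : M ≠ 0 := Finset.prod_ne_zero_iff.2 fun X _ => Int.natAbs_ne_zero.2 (hm0 X)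
  have hdvd : ∀ X, m X ∣ (M : ℤ) := fun X =>
    Int.dvd_natCast.2 (Finset.dvd_prod_of_mem (fun X => (m X).natAbs) (Finset.mem_univ X))
  obtain ⟨e, h, hph, hMe⟩ := Nat.exists_eq_pow_mul_and_not_dvd hM0 p hp.ne_one
  let y : ↥Xs → LL := fun X => ∏ x : ZMod p, (χ.gen ^ x.val) (π X) ^ x.val
  have hyfix : ∀ X, ∀ t ∈ χ.ker, t (y X) = y X := fun X t ht => by
    simp only [y, map_prod, map_pow]
    exact Finset.prod_congr rfl fun x _ => by rw [χ.fixed_pow (hfixπ X) _ t ht]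
  have hy0 : ∀ X, y X ≠ 0 := fun X => Finset.prod_ne_zero_iff.2 fun x _ =>
    pow_ne_zero _ ((map_ne_zero _).2 (hπ0 X))
  let d : ↥Xs → ℤ := fun X => (M : ℤ) / m X * ordV (qX X) (X : VS) β
  set z₀ := ∏ X, y X ^ d X with hz₀
  have hz₀fix : ∀ t ∈ χ.ker, t z₀ = z₀ := fun t ht => by
    simp only [hz₀, map_prod, map_zpow₀]
    exact Finset.prod_congr rfl fun X _ => by rw [hyfix X t ht]
  have hz₀0 : z₀ ≠ 0 := Finset.prod_ne_zero_iff.2 fun X _ => zpow_ne_zero _ (hy0 X)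
  -- the orders
  have hord₀ : ∀ (q : Nat.Primes) (V : VS), q ∉ S → V.LiesOverPrime (q : ℕ) →
      ordV q V z₀ = ∑ X, d X * ∑ x : ZMod p,
        (x.val : ℤ) * ordV q ((χ.gen ^ x.val)⁻¹ • V) (π X) := fun q V hq hV => by
    rw [hz₀, ordV_prod q.2 hV _ (fun X _ => zpow_ne_zero _ (hy0 X))
      fun X _ => (hInker (hyfix X) q V hq hV).zpow _]
    refine Finset.sum_congr rfl fun X _ => ?_
    rw [ordV_zpow q.2 hV (hy0 X) (hInker (hyfix X) q V hq hV), ordV_prod q.2 hV _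
      (fun x _ => pow_ne_zero _ ((map_ne_zero _).2 (hπ0 X)))
      fun x _ => (hInker (χ.fixed_pow (hfixπ X) _) q V hq hV).pow _]
    congr 1
    refine Finset.sum_congr rfl fun x _ => ?_
    rw [ordV_pow q.2 hV ((map_ne_zero _).2 (hπ0 X)) (hInker (χ.fixed_pow (hfixπ X) _) q V hq hV)]
    congr 1
    have hW := Places.liesOverPrime_smul V (χ.gen ^ x.val)⁻¹ hV
    have h1 := ordV_smul q.2 hW (g := χ.gen ^ x.val) (hπ0 X) (hInker (hfixπ X) q _ hq hW)
    rwa [smul_inv_smul] at h1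
  have hsame : ∀ (X : ↥Xs) (q : Nat.Primes) (W : VS), q ∉ S → W.LiesOverPrime (q : ℕ) →
      ¬ SameOrbit χ.ker X W → ordV q W (π X) = 0 := fun X q W hq hW hno =>
    (val_eq_one_iff q.2 hW (hπ0 X) (hInker (hfixπ X) q W hq hW)).1
      (hπone X q W q.2 hW fun hs => hno (by rwa [hL] at hs))
  have hgenN : ∀ x : ZMod p, (χ.gen ^ x.val)⁻¹ ∈ F.N := fun x => inv_mem (χ.pow_mem' _)
  have hψgen : ∀ x : ZMod p, χ.ψ (χ.gen ^ x.val)⁻¹ = -x := fun x => by
    rw [χ.map_inv' (χ.pow_mem' _), χ.ψ_pow, ZMod.natCast_zmod_val]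
  have hout : ∀ (q : Nat.Primes) (V : VS), q ∉ S → V.LiesOverPrime (q : ℕ) →
      ¬ InOrbit F.N Xs V → ordV q V z₀ = 0 := fun q V hq hV hno => by
    rw [hord₀ q V hq hV]
    refine Finset.sum_eq_zero fun X _ => ?_
    rw [Finset.sum_eq_zero fun x _ => ?_, mul_zero]
    rw [hsame X q _ hq (Places.liesOverPrime_smul V _ hV) fun ⟨k, hk, hkX⟩ => hno ⟨X, X.2,
      χ.gen ^ x.val * k, mul_mem (χ.pow_mem' _) hk.1, by rw [mul_smul, hkX, smul_inv_smul]⟩, mul_zero]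
  have hin : ∀ (q : Nat.Primes) (X : ↥Xs) (τ : GG), q ∉ S → τ ∈ F.N →
      (τ • (X : VS)).LiesOverPrime (q : ℕ) →
      ordV q (τ • (X : VS)) z₀ = (M : ℤ) * (χ.ψ τ).val * ordV q (τ • (X : VS)) β := by
    intro q X τ hq hτ hV
    have hXq : (X : VS).LiesOverPrime (q : ℕ) := by
      have h := Places.liesOverPrime_smul (τ • (X : VS)) τ⁻¹ hV
      rwa [inv_smul_smul] at h
    have eq_q : qX X = q := Subtype.ext (Hasse.prime_unique (qX X).2 q.2 (hqX X) hXq)
    rw [hord₀ q _ hq hV, Finset.sum_eq_single X (fun X' _ hne => ?_) (by simp),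
      Finset.sum_eq_single (χ.ψ τ) (fun x _ hne => ?_) (by simp)]
    · have hkk : (χ.gen ^ (χ.ψ τ).val)⁻¹ * τ ∈ χ.ker := ⟨mul_mem (hgenN _) hτ, by
        rw [χ.mul _ (hgenN _) _ hτ, hψgen, neg_add_cancel]⟩
      have h1 := ordV_fixed q.2 hXq (hπ0 X) (hInker (hfixπ X) q _ hq hXq) (hfixπ X _ hkk)
      rw [mul_smul] at h1
      rw [h1, ordV_fixed q.2 hXq hβ0 (inFix_of_mem F hβK (out_of_notMem hq) hXq)
        (fixed_of_mem F hβK τ hτ)]
      have hc := Int.ediv_mul_cancel (hdvd X)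
      simp only [d, hm, eq_q] at hc ⊢
      linear_combination ((χ.ψ τ).val : ℤ) * ordV q (X : VS) β * hc
    · refine mul_eq_zero.2 (Or.inr (hsame X q _ hq (Places.liesOverPrime_smul _ _ hV)
        fun ⟨k, hk, hkX⟩ => hne ?_))
      have h1 : k⁻¹ * ((χ.gen ^ x.val)⁻¹ * τ) ∈ F.Hw (X : VS) := by
        refine Subgroup.mem_inf.2 ⟨mul_mem (inv_mem hk.1) (mul_mem (hgenN _) hτ), ?_⟩
        rw [MulAction.mem_stabilizer_iff, mul_smul, mul_smul, ← hkX, inv_smul_smul]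
      have h2 := (Finset.mem_filter.1 X.2).2 _ h1
      rw [χ.mul _ (inv_mem hk.1) _ (mul_mem (hgenN _) hτ), χ.map_inv' hk.1, hk.2, neg_zero, zero_add,
        χ.mul _ (hgenN _) _ hτ, hψgen, neg_add_eq_zero] at h2
      exact h2
    · rw [Finset.sum_eq_zero fun x _ => ?_, mul_zero]
      refine mul_eq_zero.2 (Or.inr (hsame X' q _ hq (Places.liesOverPrime_smul _ _ hV)
        fun ⟨k, hk, hkX⟩ => hne ?_))
      refine Subtype.ext (hRK.inj _ (Finset.mem_filter.1 X'.2).1 _ (Finset.mem_filter.1 X.2).1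
        ⟨τ⁻¹ * (χ.gen ^ x.val * k), mul_mem (inv_mem hτ) (mul_mem (χ.pow_mem' _) hk.1), ?_⟩)
      rw [mul_smul, mul_smul, hkX, smul_inv_smul, inv_smul_smul]
  obtain ⟨z, hz⟩ := IsAlgClosed.exists_pow_nat_eq z₀ (pow_pos hp.pos e)
  have hz0 : z ≠ 0 := fun e0 => hz₀0 (by rw [← hz, e0, zero_pow (pow_ne_zero _ hp.ne_zero)])
  have hfixz : ∀ (q : Nat.Primes) (V : VS), q ∉ S → V.LiesOverPrime (q : ℕ) → InFix V z :=
    fun q V hq hV => by
      refine inFix_of_pow q.2 (ne_p hpS (out_of_notMem hq)) hV e hz0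
        (by rw [hz]; exact hInker hz₀fix q V hq hV) ?_
      rw [hz]
      by_cases hno : InOrbit F.N Xs V
      · obtain ⟨X, hX, τ, hτ, rfl⟩ := hno
        rw [hin q ⟨X, hX⟩ τ hq hτ hV, hMe, Nat.cast_mul, Nat.cast_pow, mul_assoc, mul_assoc]
        exact dvd_mul_right _ _
      · rw [hout q V hq hV hno]; exact dvd_zero _
  have hpe : ∀ (q : Nat.Primes) (V : VS), q ∉ S → V.LiesOverPrime (q : ℕ) →
      ordV q V z₀ = (p : ℤ) ^ e * ordV q V z := fun q V hq hV => by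
    rw [← hz, ordV_pow q.2 hV hz0 (hfixz q V hq hV), Nat.cast_pow]
  have hordz : ∀ (q : Nat.Primes) (X : ↥Xs) (τ : GG), q ∉ S → τ ∈ F.N →
      (τ • (X : VS)).LiesOverPrime (q : ℕ) →
      ordV q (τ • (X : VS)) z = (h : ℤ) * (χ.ψ τ).val * ordV q (τ • (X : VS)) β :=
    fun q X τ hq hτ hV => by
      have h1 := hin q X τ hq hτ hV
      rw [hpe q _ hq hV, hMe, Nat.cast_mul, Nat.cast_pow, mul_assoc, mul_assoc, ← mul_assoc (h : ℤ)]
        at h1
      exact mul_left_cancel₀ (pow_ne_zero e (by exact_mod_cast hp.ne_zero)) h1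
  refine ⟨z, h, hz0, hph, hfixz, fun q V hq hV σ hσ => ?_⟩
  have hW := Places.liesOverPrime_smul V σ⁻¹ hV
  have hmove : ordV q V (σ z) = ordV q (σ⁻¹ • V) z := by
    have h1 := ordV_smul q.2 hW (g := σ) hz0 (hfixz q _ hq hW)
    rwa [smul_inv_smul] at h1
  rw [hmove]
  by_cases hno : InOrbit F.N Xs V
  · obtain ⟨X, hX, τ, hτ, rfl⟩ := hno
    have hV' : ((σ⁻¹ * τ) • X).LiesOverPrime (q : ℕ) := by rw [mul_smul]; exact hW
    have hXq : X.LiesOverPrime (q : ℕ) := by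
      have h := Places.liesOverPrime_smul (τ • X) τ⁻¹ hV
      rwa [inv_smul_smul] at h
    have hb : ∀ g ∈ F.N, ordV q (g • X) β = ordV q X β := fun g hg =>
      ordV_fixed q.2 hXq hβ0 (inFix_of_mem F hβK (out_of_notMem hq) hXq) (fixed_of_mem F hβK g hg)
    rw [← mul_smul, hordz q ⟨X, hX⟩ (σ⁻¹ * τ) hq (mul_mem (inv_mem hσ) hτ) hV',
      hordz q ⟨X, hX⟩ τ hq hτ hV, hb _ (mul_mem (inv_mem hσ) hτ), hb _ hτ,
      χ.mul _ (inv_mem hσ) _ hτ, χ.map_inv' hσ]
    push_cast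
    rw [ZMod.natCast_zmod_val, ZMod.natCast_zmod_val]
    ring
  · have hno' : ¬ InOrbit F.N Xs (σ⁻¹ • V) := fun ⟨X, hX, τ, hτ, hτX⟩ =>
      hno ⟨X, hX, σ * τ, mul_mem hσ hτ, by rw [mul_smul, hτX, smul_inv_smul]⟩
    have h0 : ∀ W : VS, W.LiesOverPrime (q : ℕ) → ¬ InOrbit F.N Xs W → ordV q W z = 0 :=
      fun W hW hWno => by
        have h1 := hout q W hq hW hWno
        rw [hpe q W hq hW] at h1
        exact (mul_eq_zero.1 h1).resolve_left (pow_ne_zero e (by exact_mod_cast hp.ne_zero))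
    rw [h0 _ hW hno', h0 V hV hno, sub_zero, Int.cast_zero]
    have hdvdβ : (p : ℤ) ∣ ordV q V β := by
      by_cases hRKV : InOrbit (galOf F.K) RK V
      · obtain ⟨X, hX, τ, hτ, rfl⟩ := hRKV
        have hXq : X.LiesOverPrime (q : ℕ) := by
          have h := Places.liesOverPrime_smul (τ • X) τ⁻¹ hV
          rwa [inv_smul_smul] at h
        rw [ordV_fixed q.2 hXq hβ0 (inFix_of_mem F hβK (out_of_notMem hq) hXq)
          (fixed_of_mem F hβK τ hτ)]
        refine hsplit q X hq hXq ?_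
        by_contra hall
        push Not at hall
        exact hno ⟨X, Finset.mem_filter.2 ⟨hX, hall⟩, τ, hτ, rfl⟩
      · have hq₁ : (q : ℕ) ∉ S₁ := fun hq₁ => hRKV ((hiff q V q.2 hV).2
          (Finset.mem_filter.2 ⟨hq₁, out_of_notMem hq⟩))
        rw [(val_eq_one_iff q.2 hV hβ0 (inFix_of_mem F hβK (out_of_notMem hq) hV)).1
          (hS₁ q V q.2 hV hq₁)]
        exact dvd_zero _
    rw [(ZMod.intCast_zmod_eq_zero_iff_dvd _ _).2 hdvdβ, mul_zero]

/-- Finitely many numbers fixed by the inertia outside `S` generate a field unramified there. -/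
theorem unram_adjoin {T : Set LL} (hT : T.Finite)
    (h : ∀ x ∈ T, ∀ (q : Nat.Primes) (V : VS), q ∉ S → V.LiesOverPrime (q : ℕ) → InFix V x) :
    (IntermediateField.adjoin ℚ T).IsUnramifiedOutside S := by
  haveI := hT.to_subtype
  refine ⟨IntermediateField.finiteDimensional_adjoin fun x _ => integral_coe x,
    fun q hq V hV σ hσ => ?_⟩
  rw [← Subgroup.zpowers_le, ← IntermediateField.le_iff_le, IntermediateField.adjoin_le_iff]
  intro x hx
  rw [SetLike.mem_coe, IntermediateField.mem_fixedField_iff]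
  exact fun τ hτ => h x hx q V hq hV τ (Subgroup.zpowers_le.2 hσ hτ)

variable (hp2 : p ≠ 2)

include hpS hp2

/-- The descended class. -/
theorem exists_descent {a b : ↥F.N → ZMod p} (ha : a ∈ Z1S (omRep p) F.N.subtype S)
    (hne : ∃ σ ∈ F.N, extH a σ ≠ 0) (hb : b ∈ Z1 (omRep p) F.N.subtype)
    (hsplit : ∀ (q : Nat.Primes) (V : VS), q ∉ S → V.LiesOverPrime (q : ℕ) →
      res1 (p := p) (F.incl V) a ≠ 0 → ∀ σ : ↥F.N, (σ : GG) ∈ V.inertiaSubgroupIn ℚ → b σ = 0) :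
    ∃ f ∈ Z2S (omRep p) F.N.subtype S, ∃ h : ℕ, ¬ p ∣ h ∧
      ∀ (l : ℕ) (V : VS), l.Prime → V.LiesOverPrime l →
        invL p V (F.Hw V) (res2 (p := p) (F.incl V) f) = (h : ZMod p) * invL p V (F.Hw V)
          (cupM (res1 (p := p) (F.incl V) a) (res1 (p := p) (F.incl V) b)) := by
  classical
  haveI := F.fd
  have hp := (Fact.out : p.Prime)
  obtain ⟨δ, hδ, hk⟩ := exists_kum (fixN F) hb
  have hβK : δ ^ p ∈ F.K := mem_of_galOf_fixed hk.pow_fixed
  have hβ0 : δ ^ p ≠ 0 := pow_ne_zero _ hδ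
  let χ : CycChar (galOf F.K) p := CycChar.ofNe (Z1_add (fixN F) ha.1) (extH_levOn ha.1.1) hne
  have hχ : ∀ σ : ↥F.N, χ.ψ σ = a σ := fun σ => extH_coe a σ
  obtain ⟨z, h, hz0, hph, hzfix, hshift⟩ := exists_shift F hpS χ (fun q V hq hV σ hσ =>
      (hχ ⟨σ, inertia_le_N F (out_of_notMem hq) hV hσ⟩).trans
        (((mem_Z1S_iff F).1 ha).2 q V (out_of_notMem hq) hV _ hσ)) hβK hβ0
    fun q V hq hV hex => by
      obtain ⟨σ, hσ, hσne⟩ := hex
      refine (inertia_fix_iff q.2 hV (ne_p hpS (out_of_notMem hq)) hδ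
        (inFix_of_mem F hβK (out_of_notMem hq) hV)).1 fun τ hτ => ?_
      have h0 := hsplit q V hq hV (fun e => hσne
        ((hχ ⟨σ, (Subgroup.mem_inf.1 hσ).1⟩).trans (congrFun e ⟨σ, hσ⟩)))
        ⟨τ, inertia_le_N F (out_of_notMem hq) hV hτ⟩ hτ
      have h1 := hk ⟨τ, inertia_le_N F (out_of_notMem hq) hV hτ⟩
      rw [h0] at h1
      simpa using h1
  set B := (δ ^ p) ^ h with hBdef
  have hB0 : B ≠ 0 := pow_ne_zero _ hβ0
  have hBK : B ∈ F.K := pow_mem hβK h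
  set v : GG → LL := fun σ => B ^ (χ.ψ σ).val * (σ z / z) with hv
  let w : GG → LL := fun σ => (IsAlgClosed.exists_pow_nat_eq (v σ) hp.pos).choose
  have hwp : ∀ σ, w σ ^ p = v σ := fun σ => (IsAlgClosed.exists_pow_nat_eq (v σ) hp.pos).choose_spec
  have hv0 : ∀ σ, v σ ≠ 0 := fun σ =>
    mul_ne_zero (pow_ne_zero _ hB0) (div_ne_zero ((map_ne_zero _).2 hz0) hz0)
  have hw0 : ∀ σ, w σ ≠ 0 := fun σ e0 => hv0 σ (by rw [← hwp, e0, zero_pow hp.ne_zero])
  have hwfix : ∀ σ ∈ F.N, ∀ (q : Nat.Primes) (V : VS), q ∉ S → V.LiesOverPrime (q : ℕ) →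
      InFix V (w σ) := fun σ hσ q V hq hV => by
    have hout := out_of_notMem hq
    have fB := inFix_of_mem F hBK hout hV
    have fz := hzfix q V hq hV
    have fσz : InFix V (σ z) := by
      have h1 := inFix_smul (g := σ) (hzfix q _ hq (Places.liesOverPrime_smul V σ⁻¹ hV))
      rwa [smul_inv_smul] at h1
    have fv : InFix V (v σ) := (fB.pow _).mul (fσz.div fz)
    refine (inertia_fix_iff q.2 hV (ne_p hpS hout) (hw0 σ) (by rw [hwp]; exact fv)).2 ?_
    rw [hwp, ← ZMod.intCast_zmod_eq_zero_iff_dvd]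
    simp only [hv]
    rw [ordV_mul q.2 hV (pow_ne_zero _ hB0) (div_ne_zero ((map_ne_zero _).2 hz0) hz0) (fB.pow _)
      (fσz.div fz), ordV_div q.2 hV ((map_ne_zero _).2 hz0) hz0 fσz fz, ordV_pow q.2 hV hB0 fB,
      hBdef, ordV_pow q.2 hV hβ0 (inFix_of_mem F hβK hout hV), Int.cast_add, hshift q V hq hV σ hσ]
    push_cast
    rw [ZMod.natCast_zmod_val]
    ring
  have hwlev : LevOn F.N w := by
    have hzlev : LevOn F.N fun σ : GG => σ z := by
      haveI : FiniteDimensional ℚ (IntermediateField.adjoin ℚ ({z} : Set LL)) :=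
        IntermediateField.adjoin.finiteDimensional (integral_coe z)
      exact ⟨_, inferInstance, fun g _ s _ hs => by
        show (g * s) z = g z
        rw [AlgEquiv.mul_apply, (IntermediateField.mem_fixingSubgroup_iff _ _).1 hs z
          (IntermediateField.mem_adjoin_simple_self ℚ z)]⟩
    exact LevOn.map₂ χ.lev hzlev fun x y =>
      (IsAlgClosed.exists_pow_nat_eq (B ^ x.val * (y / z)) hp.pos).choose
  obtain ⟨Ea, hEa, hla⟩ := ha.2
  have hadj : (IntermediateField.adjoin ℚ (insert z (w '' (F.N : Set GG)))).IsUnramifiedOutside S :=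
    unram_adjoin (hwlev.finite.insert z) fun x hx => by
      rcases hx with rfl | ⟨σ, hσ, rfl⟩
      · exact hzfix
      · exact hwfix σ hσ
  obtain ⟨M, hM, hMn, hle⟩ := exists_normal_unram ((hEa.sup F.unram).sup hadj)
  have hMN : ∀ s ∈ M.fixingSubgroup, s ∈ F.N := fun s hs =>
    IntermediateField.fixingSubgroup_antitone ((le_sup_right.trans le_sup_left).trans hle) hs
  have hMfix : ∀ x ∈ insert z (w '' (F.N : Set GG)), ∀ s ∈ M.fixingSubgroup, s x = x :=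
    fun x hx s hs => (IntermediateField.mem_fixingSubgroup_iff _ _).1 hs x
      (hle (le_sup_right (a := Ea ⊔ F.K) (IntermediateField.subset_adjoin ℚ _ hx)))
  have hψs : ∀ g ∈ F.N, ∀ s ∈ M.fixingSubgroup, χ.ψ (g * s) = χ.ψ g := fun g hg s hs => by
    have h1 := hla ⟨g, hg⟩ ⟨s, hMN s hs⟩
      (IntermediateField.fixingSubgroup_antitone ((le_sup_left.trans le_sup_left).trans hle) hs)
    exact (hχ (⟨g, hg⟩ * ⟨s, hMN s hs⟩)).trans (h1.trans (hχ ⟨g, hg⟩).symm)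
  have hws : ∀ g ∈ F.N, ∀ s ∈ M.fixingSubgroup, w (g * s) = w g := fun g hg s hs => by
    have e : v (g * s) = v g := by
      simp only [hv]
      rw [hψs g hg s hs, AlgEquiv.mul_apply, hMfix z (Set.mem_insert _ _) s hs]
    simp only [w, e]
  -- the cocycle
  let c : GG → GG → LL := fun σ τ => χ.sym B σ τ / dlt w σ τ
  have hcp : ∀ σ ∈ F.N, ∀ τ ∈ F.N, c σ τ ^ p = 1 := fun σ hσ τ hτ => by
    have hne1 : dlt w σ τ ^ p ≠ 0 := pow_ne_zero _ (div_ne_zero
      (mul_ne_zero ((map_ne_zero _).2 (hw0 τ)) (hw0 σ)) (hw0 _))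
    simp only [c, div_pow]
    rw [div_eq_one_iff_eq hne1]
    simp only [dlt, div_pow, mul_pow, ← map_pow, hwp]
    simp only [hv, map_mul, map_pow, map_div₀, fixed_of_mem F hBK σ hσ, AlgEquiv.mul_apply,
      CycChar.sym, χ.mul σ hσ τ hτ]
    haveI := χ.neZero
    have h1 : σ z ≠ 0 := (map_ne_zero _).2 hz0
    have h2 : σ (τ z) ≠ 0 := (map_ne_zero _).2 ((map_ne_zero _).2 hz0)
    split_ifs with hcarry
    · have e := ZMod.val_add_val_of_le hcarry
      field_simp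
      rw [← pow_add, ← pow_add]
      congr 1
      omega
    · rw [not_le] at hcarry
      rw [ZMod.val_add_of_lt hcarry, one_pow, pow_add]
      field_simp
  have hcex : ∀ x : ↥F.N × ↥F.N, ∃ r : ZMod p, zeta p ^ r.val = c (x.1 : GG) x.2 := fun x => by
    obtain ⟨i, hi, e⟩ := (zeta_spec p).eq_pow_of_pow_eq_one (hcp x.1 x.1.2 x.2 x.2.2)
    exact ⟨(i : ZMod p), by rw [ZMod.val_natCast_of_lt hi, e]⟩
  choose f₀ hf₀ using hcex
  set f : ↥F.N → ↥F.N → ZMod p := fun g g' => f₀ (g, g')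
  have hf : ∀ g g', zeta p ^ (f g g').val = c (g : GG) g' := fun g g' => hf₀ (g, g')
  have hlev : LevS₂ F.N.subtype S f := ⟨M, hM, fun g g' s t hs ht => zeta_pow_inj p (by
    rw [hf, hf]
    have hs' : (s : GG) ∈ M.fixingSubgroup := hs
    have ht' : (t : GG) ∈ M.fixingSubgroup := ht
    have h3 : (g' : GG)⁻¹ * s * g' * t ∈ M.fixingSubgroup :=
      mul_mem (by simpa using (fix_normal M).conj_mem _ hs' (g' : GG)⁻¹) ht'
    simp only [c, CycChar.sym, dlt, Subgroup.coe_mul, hψs _ g.2 _ hs', hψs _ g'.2 _ ht',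
      hws _ g.2 _ hs', hws _ g'.2 _ ht', AlgEquiv.mul_apply,
      hMfix (w g') (Set.mem_insert_of_mem _ ⟨_, g'.2, rfl⟩) _ hs']
    rw [show (g : GG) * s * (g' * t) = g * g' * ((g' : GG)⁻¹ * s * g' * t) by group,
      hws _ (mul_mem g.2 g'.2) _ h3])⟩
  have hcc : Coc F.N c := (χ.coc_sym hB0 (fixed_of_mem F hBK)).div (coc_dlt hwlev fun σ _ => hw0 σ)
  have hf2 : f ∈ Z2S (omRep p) F.N.subtype S := by
    refine ⟨⟨let ⟨E, hE, hl⟩ := hlev; ⟨E, hE.1, hl⟩, fun g g' g'' => ?_⟩, hlev⟩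
    rw [omRep_apply, F.zeta _ (show F.N.subtype g ∈ galOf F.K from g.2), one_mul]
    have h1 := hcc.assoc g g.2 g' g'.2 g'' g''.2
    rw [← hf, ← hf, show (g : GG) * g' = ((g * g' : ↥F.N) : GG) from rfl,
      show (g' : GG) * g'' = ((g' * g'' : ↥F.N) : GG) from rfl, ← hf, ← hf, map_pow,
      fixN F _ g.2, ← zeta_pow_val_add (zeta_spec p), ← zeta_pow_val_add (zeta_spec p)] at h1
    linear_combination zeta_pow_inj p h1
  refine ⟨f, hf2, h, hph, fun l V hl hV => ?_⟩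
  let Y := Layer.layer hp2
  have hexpC : ∀ σ ∈ F.Hw V, ∀ τ ∈ F.Hw V,
      expCochain (zeta p) (F.Hw V) (res2 (p := p) (F.incl V) f) σ τ = c σ τ := fun σ hσ τ hτ => by
    rw [expC_of_mem _ hσ hτ]
    exact hf _ _
  have hsim : Sim (F.Hw V) (χ.sym B) (expCochain (zeta p) (F.Hw V) (res2 (p := p) (F.incl V) f)) :=
    ⟨w, hwlev.mono inf_le_left, fun σ _ => hw0 σ, fun σ hσ τ hτ => by
      rw [hexpC σ hσ τ hτ]
      exact (div_mul_cancel₀ _ (div_ne_zero (mul_ne_zero ((map_ne_zero _).2 (hw0 τ)) (hw0 σ))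
        (hw0 _))).symm⟩
  have hθ : invL p V (F.Hw V) (cupM (res1 (p := p) (F.incl V) a) (res1 (p := p) (F.incl V) b)) =
      theta Y χ V (δ ^ p) := by
    have h1 := pairV_swap hp2 hl hV (fixH F V) (localSub_Hw F V)
      (⟨_, res1_mem_local F hb V⟩ : ↥(Z1 (omRep p) (F.Hw V).subtype)) ⟨_, res1_mem_local F ha.1 V⟩
    rw [pairV_apply, pairV_apply] at h1
    rw [h1, invL_cup_eq_theta F hp2 ha.1 hb χ rfl hδ hk hl hV, neg_neg]
  rw [hθ, invL_eq hp2, invH_congr Y hl hV targetLocal hp2 (localSub_Hw F V) (coc_local χ hB0 hBK V)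
    (tor_local χ hB0 hBK V) hsim, show χ.sym B = fun σ τ => χ.sym (δ ^ p) σ τ ^ h from
      funext fun σ => funext fun τ => χ.sym_pow _ _ σ τ]
  exact invH_pow Y hl hV targetLocal hp2 (localSub_Hw F V) (coc_local χ hβ0 hβK V)
    (tor_local χ hβ0 hβK V) h

end FLTAgent.PoitouTate.Field
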