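import Fermat.Agent.PoitouTate.Field.Pair

/-!
# A product of two characters with invariants at two given places only

For a character which is not zero at two places over `S` the large system is chosen so that the
character splits at enough new places to make its products fill the families of sum zero.
-/

set_option autoImplicit false
set_option linter.style.haveILetI false
set_option linter.unusedSectionVars false
set_option maxHeartbeats 1000000

noncomputable section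

open scoped Pointwise

namespace FLTAgent.PoitouTate.Field

open FLTAgent.Lowering.P1 FLTAgent.Lowering.P1.Brauer
open FLTAgent.Lowering.P1.Hasse (InOrbit Gen)

local notation "LL" => AlgebraicClosure ℚ
local notation "GG" => (AlgebraicClosure ℚ ≃ₐ[ℚ] AlgebraicClosure ℚ)
local notation "VS" => ValuationSubring (AlgebraicClosure ℚ)
local notation "Dec" => ValuationSubring.decompositionSubgroup ℚ

variable {p : ℕ} [Fact p.Prime] (hp2 : p ≠ 2) {S : Finset Nat.Primes} (F : SField p S)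

include hp2 in
/-- The unramified characters form a line. -/
theorem unr_span {l : ℕ} (hl : l.Prime) (hlp : l ≠ p) {V : VS} (hV : V.LiesOverPrime l)
    {a b : ↥(Z1 (omRep p) (F.Hw V).subtype)} (ha : a ∈ unr V (F.Hw V)) (hb : b ∈ unr V (F.Hw V))
    (hb0 : b ≠ 0) : ∃ c : ZMod p, c • b = a := by
  haveI := finite_local F hl hV
  by_contra hne
  push Not at hne
  have hli : LinearIndependent (ZMod p) ![b, a] := (LinearIndependent.pair_iff' hb0).2 hne
  have hspan : Submodule.span (ZMod p) (Set.range ![b, a]) = ⊤ :=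
    hli.span_eq_top_of_card_eq_finrank (by rw [finrank_local F hl hV, if_neg hlp, Fintype.card_fin])
  have htop : unr (p := p) V (F.Hw V) = ⊤ := by
    rw [eq_top_iff, ← hspan, Submodule.span_le, Matrix.range_cons_cons_empty]
    rintro x (rfl | rfl) <;> assumption
  exact hb0 (pairV_nondeg hp2 hl hV (fixH F V) (localSub_Hw F V) b fun c =>
    pairV_unr hp2 hl hV (fixH F V) (localSub_Hw F V) hb (htop ▸ Submodule.mem_top))

/-- A global character as a local one, unramified. -/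
theorem resV_mem_unr {a : ↥F.N → ZMod p} (ha : a ∈ Z1S (omRep p) F.N.subtype S) {q : Nat.Primes}
    (hq : q ∉ S) {V : VS} (hV : V.LiesOverPrime (q : ℕ)) :
    resV F V ⟨a, ha.1⟩ ∈ unr V (F.Hw V) := fun σ hσ =>
  ((mem_Z1S_iff F).1 ha).2 q V ⟨q.2, fun _ hr e => hq (by rwa [Subtype.ext e] at hr)⟩ hV
    (F.incl V σ) hσ

variable {R : Finset VS} (hR : SPlaces F R) (hpS : ExtCitation.pPrime p ∈ S)

include hp2 hR hpS

/-- A character which is not zero at two given places. -/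
theorem exists_both {w₀ w₁ : VS} (h₀ : w₀ ∈ R) (h₁ : w₁ ∈ R) :
    ∃ a : ↥(Z1S (omRep p) F.N.subtype S),
      locR F R a ⟨w₀, h₀⟩ ≠ 0 ∧ locR F R a ⟨w₁, h₁⟩ ≠ 0 := by
  classical
  have key : ∀ w : ↥R, ∃ a, locR F R a w ≠ 0 := fun w => by
    obtain ⟨hl, hV⟩ := (hR.places.lies w w.2).choose_spec
    by_contra hall
    push Not at hall
    haveI := finite_local F hl hV
    have hpos : 0 < Module.finrank (ZMod p) ↥(Z1 (omRep p) (F.Hw (w : VS)).subtype) := by
      rw [finrank_local F hl hV]; omega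
    haveI := Module.finrank_pos_iff.1 hpos
    obtain ⟨r, hr⟩ := exists_ne (0 : ↥(Z1 (omRep p) (F.Hw (w : VS)).subtype))
    obtain ⟨b, hb⟩ := middle_of hp2 hR hpS (Pi.single w r) fun a => by
      rw [pairR_single, hall a]
      refine invL_B2 hp2 hl hV (localSub_Hw F (w : VS)) ?_
      convert Submodule.zero_mem _ using 1
      funext x y
      exact zero_mul _
    have h := congrFun hb w
    rw [hall b, Pi.single_eq_same] at h
    exact hr h.symm
  obtain ⟨a, ha⟩ := key ⟨w₀, h₀⟩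
  obtain ⟨b, hb⟩ := key ⟨w₁, h₁⟩
  by_cases ha' : locR F R a ⟨w₁, h₁⟩ = 0
  · by_cases hb' : locR F R b ⟨w₀, h₀⟩ = 0
    · refine ⟨a + b, ?_, ?_⟩
      · rwa [map_add, Pi.add_apply, hb', add_zero]
      · rwa [map_add, Pi.add_apply, ha', zero_add]
    · exact ⟨b, hb', hb⟩
  · exact ⟨a, ha, ha'⟩

/-- The pair of characters. -/
theorem exists_pair {w₀ w₁ : VS} (h₀ : w₀ ∈ R) (h₁ : w₁ ∈ R) (hne : w₀ ≠ w₁) :
    ∃ (S' : Finset Nat.Primes) (χ b : ↥F.N → ZMod p), S ⊆ S' ∧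
      χ ∈ Z1S (omRep p) F.N.subtype S ∧ (∃ σ ∈ F.N, extH χ σ ≠ 0) ∧
      b ∈ Z1S (omRep p) F.N.subtype S' ∧
      (∀ (q : Nat.Primes) (V : VS), q ∉ S → V.LiesOverPrime (q : ℕ) →
        res1 (p := p) (F.incl V) χ ≠ 0 → ∀ σ : ↥F.N, (σ : GG) ∈ V.inertiaSubgroupIn ℚ → b σ = 0) ∧
      invL p w₀ (F.Hw w₀) (cupM (res1 (p := p) (F.incl w₀) χ) (res1 (p := p) (F.incl w₀) b)) = 1 ∧
      invL p w₁ (F.Hw w₁) (cupM (res1 (p := p) (F.incl w₁) χ) (res1 (p := p) (F.incl w₁) b)) = -1 ∧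
      ∀ w ∈ R, w ≠ w₀ → w ≠ w₁ →
        invL p w (F.Hw w) (cupM (res1 (p := p) (F.incl w) χ) (res1 (p := p) (F.incl w) b)) = 0 := by
  classical
  have hp3 := three_lt (p := p) hp2
  obtain ⟨⟨χ, hχS⟩, hχ₀, hχ₁⟩ := exists_both hp2 F hR hpS h₀ h₁
  obtain ⟨σχ, hσχ⟩ : ∃ σ, χ σ ≠ 0 := by
    by_contra hall
    push Not at hall
    exact hχ₀ (Subtype.ext (funext fun σ => hall _))
  obtain ⟨S₁, R₁, -, hB⟩ := exists_big F hR hpS hp3 ∅
  set F₁ := mono F hB.sub
  haveI := hB.finite F hpS hp3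
  haveI := Fintype.ofFinite ↥(Z1S (omRep p) F.N.subtype S₁)
  -- a place where the character splits and another one does not
  have hdet : ∀ a : ↥(Z1S (omRep p) F.N.subtype S₁), ∃ q : Nat.Primes, q ∉ S₁ ∧
      ((∀ c : ZMod p, a.1 ≠ c • χ) → ∃ V : VS, V.LiesOverPrime (q : ℕ) ∧
        res1 (p := p) (F.incl V) χ = 0 ∧ res1 (p := p) (F.incl V) a.1 ≠ 0) := fun a => by
    by_cases hex : ∃ σ : ↥F.N, χ σ = 0 ∧ a.1 σ ≠ 0
    · obtain ⟨σ, hσ0, hσa⟩ := hex
      obtain ⟨q, hq, V, hV, x, hxχ, hxa⟩ := exists_frob F hχS.1 a.2.1 σ S₁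
      refine ⟨q, hq, fun _ => ⟨V, hV, ?_, fun h => hσa (hxa.symm.trans (congrFun h x))⟩⟩
      have hqS : q ∉ S := fun h => hq (hB.sub h)
      have hne0 : resV F V ⟨a.1, a.2.1⟩ ≠ 0 := fun h =>
        hσa (hxa.symm.trans (congrFun (congrArg Subtype.val h) x))
      obtain ⟨c, hc⟩ := unr_span hp2 F q.2 (fun e => hqS (by
        rw [show q = ExtCitation.pPrime p from Subtype.ext e]; exact hpS)) hV
        (resV_mem_unr F hχS hqS hV) (resV_mem_unr F₁ a.2 hq hV) hne0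
      have hx := congrFun (congrArg Subtype.val hc) x
      have hc0 : c = 0 := (mul_eq_zero.1 (show c * a.1 (F.incl V x) = 0 from
        hx.trans (hxχ.trans hσ0))).resolve_right fun h => hσa (hxa.symm.trans h)
      rw [hc0, zero_smul] at hc
      exact (congrArg Subtype.val hc).symm
    · obtain ⟨q, hq, -⟩ := exists_frob F hχS.1 a.2.1 σχ S₁
      refine ⟨q, hq, fun hno => absurd (funext fun σ => ?_) (hno (a.1 σχ / χ σχ))⟩
      push Not at hex
      have hadd := ((mem_Z1_iff (fixN F)).1 hχS.1).2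
      have hadd' := ((mem_Z1_iff (fixN F)).1 a.2.1).2
      have hpowχ : ∀ n : ℕ, χ (σχ ^ n) = n * χ σχ ∧ a.1 (σχ ^ n) = n * a.1 σχ := fun n => by
        induction n with
        | zero => simp [Z1_one (fixN F) hχS.1, Z1_one (fixN F) a.2.1]
        | succ n ih => rw [pow_succ, hadd, hadd', ih.1, ih.2, Nat.cast_succ, add_mul, add_mul,
            one_mul, one_mul]; exact ⟨rfl, rfl⟩
      set n := (-(χ σ / χ σχ)).val
      have h0 := hex (σ * σχ ^ n) (by
        rw [hadd, (hpowχ n).1, ZMod.natCast_zmod_val, neg_mul, div_mul_cancel₀ _ hσχ, add_neg_cancel])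
      rw [hadd', (hpowχ n).2, ZMod.natCast_zmod_val] at h0
      rw [Pi.smul_apply, smul_eq_mul]
      field_simp at h0 ⊢
      linear_combination h0
  choose d hdS₁ hd using hdet
  obtain ⟨R₂, hR₁₂, hR₂⟩ := exists_add F₁ hB.places (Finset.univ.image d) fun q hq => by
    obtain ⟨a, -, rfl⟩ := Finset.mem_image.1 hq
    exact hdS₁ a
  set S₂ := S₁ ∪ Finset.univ.image d
  have hB₂ : Big F hR S₂ R₂ := ⟨hB.sub.trans Finset.subset_union_left, hB.subR.trans hR₁₂, hR₂,
    hB.gen.mono hR₁₂, fun a ha hz => inj_mono F Finset.subset_union_left hB.sub hR₁₂ hR₂ hB.inj ha hz⟩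
  set F₂ := mono F hB₂.sub
  set B := pairR F₂ hp2 hB₂.places.places.lies with hBdef
  haveI := finite_locW F₂ hB₂.places.places.lies
  let Φ : ↥(Z1S (omRep p) F.N.subtype S₂) →ₗ[ZMod p] ↥R₂ → ZMod p := LinearMap.pi fun w =>
    (pairV hp2 (hB₂.places.places.lies w w.2).choose_spec.1
      (hB₂.places.places.lies w w.2).choose_spec.2 (fixH F (w : VS)) (localSub_Hw F (w : VS))
      (resV F (w : VS) ⟨χ, hχS.1⟩)).comp ((LinearMap.proj w).comp (locR F₂ R₂))
  set c : ↥R₂ → ZMod p := fun w => if (w : VS) = w₀ then 1 else if (w : VS) = w₁ then -1 else 0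
    with hc
  have hcmem : c ∈ LinearMap.range Φ := by
    rw [← Subspace.forall_mem_dualAnnihilator_apply_eq_zero_iff]
    intro φ hφ
    rw [Submodule.mem_dualAnnihilator] at hφ
    set lam : ↥R₂ → ZMod p := fun w => φ (Pi.single w 1)
    have happ : ∀ x : ↥R₂ → ZMod p, φ x = ∑ w, x w * lam w := fun x => by
      conv_lhs => rw [pi_eq_sum_univ' x]
      simp only [map_sum, map_smul, smul_eq_mul, lam]
    set X : LocW F₂ R₂ := fun w => lam w • resV F (w : VS) ⟨χ, hχS.1⟩ with hX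
    have hXperp : X ∈ B.orthogonal (LinearMap.range (locR F₂ R₂)) := by
      rintro _ ⟨b, rfl⟩
      refine pairR_isRefl F₂ hp2 _ _ _ ?_
      have h := hφ _ ⟨b, rfl⟩
      rw [happ] at h
      rw [pairR_apply, ← h]
      refine Finset.sum_congr rfl fun w _ => ?_
      show pairV hp2 (hB₂.places.places.lies w w.2).choose_spec.1
        (hB₂.places.places.lies w w.2).choose_spec.2 (fixH F (w : VS)) (localSub_Hw F (w : VS))
        (lam w • resV F (w : VS) ⟨χ, hχS.1⟩) (locR F₂ R₂ b w) = _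
      rw [map_smul, LinearMap.smul_apply, smul_eq_mul, mul_comm]
      rfl
    rw [range_eq_orthogonal hp2 hB₂ hpS] at hXperp
    obtain ⟨a, ha⟩ := hXperp
    have haw : ∀ w : ↥R₂, res1 (p := p) (F.incl (w : VS)) a.1 =
        lam w • res1 (p := p) (F.incl (w : VS)) χ := fun w => congrArg Subtype.val (congrFun ha w)
    have ha₁ : a.1 ∈ Z1S (omRep p) F.N.subtype S₁ := by
      refine mem_Z1S_of_unr (R := R₁) (hR := hB.places) (F := F₁) (R' := R₂)
        ⟨Finset.subset_union_left, hR₁₂, hR₂, hB₂.gen, hB₂.inj⟩ a.2 fun w hw hwR σ hσ => ?_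
      have h := congrFun (haw ⟨w, hw⟩) σ
      rw [show a.1 (F₁.incl w σ) = lam ⟨w, hw⟩ * χ (F.incl w σ) from h]
      obtain ⟨l, hl, hV⟩ := hR₂.places.lies w hw
      have hout : OutS S₁ l := (inOrbit_iff F₁ hB.places hl hV).1 fun ⟨U, hU, hsame⟩ =>
        hwR (hR₂.places.inj U (hR₁₂ hU) w hw hsame ▸ hU)
      rw [((mem_Z1S_iff F).1 hχS).2 l w (hout.mono hB.sub) hV (F.incl w σ) hσ, mul_zero]
    obtain ⟨k, hk⟩ : ∃ k : ZMod p, a.1 = k • χ := by
      by_contra hno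
      push Not at hno
      obtain ⟨V, hV, hχV, haV⟩ := hd ⟨a.1, ha₁⟩ hno
      obtain ⟨W, hW, g, hg, rfl⟩ := (hR₂.iff _ V (d _).2 hV).2
        ⟨_, Finset.mem_union_right _ (Finset.mem_image_of_mem d (Finset.mem_univ _)), rfl⟩
      have hχW : res1 (p := p) (F.incl W) χ = 0 := by
        have h := res_zero_smul F hχS.1 hχV (inv_mem hg)
        rwa [inv_smul_smul] at h
      exact haV (res_zero_smul F a.2.1 (by rw [haw ⟨W, hW⟩, hχW, smul_zero]) hg)
    have hlam : ∀ w : VS, ∀ (hw : w ∈ R) (hw₂ : w ∈ R₂),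
        locR F R ⟨χ, hχS⟩ ⟨w, hw⟩ ≠ 0 → lam ⟨w, hw₂⟩ = k := fun w hw hw₂ hne' => by
      have h := haw ⟨w, hw₂⟩
      rw [hk, map_smul] at h
      by_contra hne''
      refine hne' (Subtype.ext ?_)
      have h2 : (lam ⟨w, hw₂⟩ - k) • res1 (p := p) (F.incl w) χ = 0 := by rw [sub_smul, ← h, sub_self]
      exact (smul_eq_zero.1 h2).resolve_left (sub_ne_zero.2 hne'')
    rw [happ, Finset.sum_eq_add (⟨w₀, hB₂.subR h₀⟩ : ↥R₂) ⟨w₁, hB₂.subR h₁⟩
      (fun e => hne (congrArg Subtype.val e))]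
    · simp only [hc, if_pos rfl, if_neg hne.symm]
      rw [hlam w₀ h₀ _ hχ₀, hlam w₁ h₁ _ hχ₁]
      simp
    · intro w _ hw
      simp only [hc, if_neg (fun e => hw.1 (Subtype.ext e)), if_neg (fun e => hw.2 (Subtype.ext e)),
        zero_mul]
    · exact fun h => absurd (Finset.mem_univ _) h
    · exact fun h => absurd (Finset.mem_univ _) h
  obtain ⟨b, hb⟩ := hcmem
  have hval : ∀ (w : VS) (hw : w ∈ R₂), invL p w (F.Hw w)
      (cupM (res1 (p := p) (F.incl w) χ) (res1 (p := p) (F.incl w) b.1)) = c ⟨w, hw⟩ :=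
    fun w hw => congrFun hb ⟨w, hw⟩
  refine ⟨S₂, χ, b.1, hB₂.sub, hχS, ⟨σχ, σχ.2, by rwa [extH_coe]⟩, b.2, fun q V hq hV hne' σ hσ => ?_,
    ?_, ?_, fun w hw hw0 hw1 => ?_⟩
  · by_cases hq₂ : q ∈ S₂
    swap
    · exact ((mem_Z1S_iff F₂).1 b.2).2 q V ⟨q.2, fun _ hr e => hq₂ (by rwa [Subtype.ext e] at hr)⟩
        hV σ hσ
    obtain ⟨W, hW, g, hg, rfl⟩ := (hR₂.iff _ V q.2 hV).2 ⟨q, hq₂, rfl⟩
    have hWq : W.LiesOverPrime (q : ℕ) := by
      have h := Places.liesOverPrime_smul (g • W) g⁻¹ hV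
      rwa [inv_smul_smul] at h
    have hWR : W ∉ R := fun h => hq (by
      obtain ⟨q', hq', e⟩ := (hR.iff _ W q.2 hWq).1 (Hasse.inOrbit_of_mem h)
      rwa [← Subtype.ext e])
    have hlp : (q : ℕ) ≠ p := fun e => hq (by
      rw [show q = ExtCitation.pPrime p from Subtype.ext e]; exact hpS)
    have hχW : resV F W ⟨χ, hχS.1⟩ ≠ 0 := fun h => hne'
      (res_zero_smul F hχS.1 (congrArg Subtype.val h) hg)
    have hbW : resV F W ⟨b.1, b.2.1⟩ ∈ unr W (F.Hw W) := by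
      refine mem_unr_of_perp hp2 F q.2 hlp hWq fun x hx => ?_
      obtain ⟨r, rfl⟩ := unr_span hp2 F q.2 hlp hWq hx (resV_mem_unr F hχS hq hWq) hχW
      rw [map_smul, LinearMap.smul_apply, pairV_apply]
      have h := hval W hW
      have h' : invL p W (F.Hw W)
          (cupM (resV F W ⟨χ, hχS.1⟩).1 (resV F W ⟨b.1, b.2.1⟩).1) = c ⟨W, hW⟩ := h
      rw [h']
      simp only [hc, if_neg (fun e : W = w₀ => hWR (e ▸ h₀)),
        if_neg (fun e : W = w₁ => hWR (e ▸ h₁)), smul_zero]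
    have h1 : g⁻¹ * σ * g ∈ W.inertiaSubgroupIn ℚ := by
      have h1 := Places.conj_mem_inertia (g • W) hσ g⁻¹
      rwa [inv_smul_smul, inv_inv] at h1
    have h2 : g⁻¹ * σ * g ∈ F.N := mul_mem (mul_mem (inv_mem hg) σ.2) hg
    have h3 := apply_conj F b.2.1 hg h2
    rw [show b.1 ⟨g⁻¹ * σ * g, h2⟩ = 0 from hbW
      ⟨g⁻¹ * σ * g, Subgroup.mem_inf.2 ⟨h2, Places.inertia_le_decomposition W h1⟩⟩ h1] at h3
    exact (congrArg b.1 (Subtype.ext (show (σ : GG) = g * (g⁻¹ * σ * g) * g⁻¹ by group))).trans h3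
  · rw [hval w₀ (hB₂.subR h₀)]; simp [hc]
  · rw [hval w₁ (hB₂.subR h₁)]; simp [hc, hne.symm]
  · rw [hval w (hB₂.subR hw)]; simp [hc, hw0, hw1]

end FLTAgent.PoitouTate.Field
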