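import Fermat.Agent.PoitouTate.Field.ShaTwo
import Fermat.Agent.PoitouTate.Field.Split
import Fermat.Agent.PoitouTate.Field.Descent

/-!
# Trivial coefficients over a field: the target
-/

set_option autoImplicit false
set_option linter.style.haveILetI false
set_option linter.unusedSectionVars false

noncomputable section

open scoped Pointwise

namespace FLTAgent.PoitouTate.Field

open FLTAgent.Lowering.P1 FLTAgent.Lowering.P1.Brauer

local notation "LL" => AlgebraicClosure ℚ
local notation "GG" => (AlgebraicClosure ℚ ≃ₐ[ℚ] AlgebraicClosure ℚ)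
local notation "VS" => ValuationSubring (AlgebraicClosure ℚ)

variable {p : ℕ} [Fact p.Prime] {S : Finset Nat.Primes} (hp2 : p ≠ 2)
  (hpS : ExtCitation.pPrime p ∈ S) (F : SField p S) {R : Finset VS} (hR : SPlaces F R)

include hp2 hpS hR

/-- A class with invariants `1`, `-1` at two places and zero at the others. -/
theorem exists_class {w₀ w₁ : VS} (h₀ : w₀ ∈ R) (h₁ : w₁ ∈ R) (hne : w₀ ≠ w₁) :
    ∃ f ∈ Z2S (omRep p) F.N.subtype S,
      invL p w₀ (F.Hw w₀) (res2 (p := p) (F.incl w₀) f) = 1 ∧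
      invL p w₁ (F.Hw w₁) (res2 (p := p) (F.incl w₁) f) = -1 ∧
      ∀ w ∈ R, w ≠ w₀ → w ≠ w₁ → invL p w (F.Hw w) (res2 (p := p) (F.incl w) f) = 0 := by
  obtain ⟨S', χ, b, -, hχ, hχne, hb, hsplit, e₀, e₁, e⟩ := exists_pair hp2 F hR hpS h₀ h₁ hne
  obtain ⟨f, hf, h, hph, hinv⟩ := exists_descent F hpS hp2 hχ hχne hb.1 hsplit
  have hh : (h : ZMod p) ≠ 0 := fun h0 => hph ((ZMod.natCast_eq_zero_iff _ _).1 h0)
  have key : ∀ w ∈ R, invL p w (F.Hw w) (res2 (p := p) (F.incl w) ((h : ZMod p)⁻¹ • f)) =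
      invL p w (F.Hw w) (cupM (res1 (p := p) (F.incl w) χ) (res1 (p := p) (F.incl w) b)) :=
    fun w hw => by
      obtain ⟨l, hl, hV⟩ := hR.places.lies w hw
      have hres : res2 (p := p) (F.incl w) f ∈ Z2 (omRep p) (F.Hw w).subtype :=
        res2_mem_Z2 (F.incl w) hf.1
      rw [map_smul, invL_smul hp2 hl hV (localSub_Hw F w) _ hres, hinv l w hl hV, ← mul_assoc,
        inv_mul_cancel₀ hh, one_mul]
  refine ⟨_, Submodule.smul_mem _ _ hf, (key w₀ h₀).trans e₀, (key w₁ h₁).trans e₁,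
    fun w hw hw0 hw1 => (key w hw).trans (e w hw hw0 hw1)⟩

/-- All the facts. -/
theorem fieldFacts : FieldFacts F R where
  finiteGlobal := haveI := finite_global F hR hpS (three_lt hp2); Module.Finite.of_finite
  finiteLocal w hw :=
    haveI := finite_local F (hR.places.lies w hw).choose_spec.1 (hR.places.lies w hw).choose_spec.2
    Module.Finite.of_finite
  localNondeg w hw a ha h := by
    obtain ⟨l, hl, hV⟩ := hR.places.lies w hw
    refine congrArg Subtype.val (pairV_nondeg hp2 hl hV (fixH F w) (localSub_Hw F w) ⟨a, ha⟩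
      fun c => ?_)
    rw [pairV_apply, ← cup_eq (fixH F w)]
    exact h c.1 c.2
  middle r hr h := by
    obtain ⟨b, hb⟩ := middle_of hp2 hR hpS (fun w => ⟨r w, hr w⟩) fun a => by
      rw [pairR_apply]
      refine Eq.trans (Finset.sum_congr rfl fun w _ => ?_) (h a.1 a.2)
      rw [cup_eq (fixH F (w : VS))]
      rfl
    exact ⟨b.1, b.2, fun w => congrArg Subtype.val (congrFun hb w)⟩
  sha_finite := (sha_bound F hpS hR hp2).1
  sha_le := (sha_bound F hpS hR hp2).2
  exists_class w₀ h₀ w₁ h₁ _ _ hne := exists_class hp2 hpS F hR h₀ h₁ hne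

end FLTAgent.PoitouTate.Field

namespace FLTAgent.PoitouTate

theorem targetField : TargetField :=
  fun _ _ hp2 _ hpS F _ hR => Field.fieldFacts hp2 hpS F hR

end FLTAgent.PoitouTate
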