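import Fermat.Agent.PoitouTate.Field.Global
import Fermat.Agent.Lowering.P1.Brauer.Hasse.Degree
import Fermat.Agent.Frobenius.Global

/-!
# Large systems of places

After enlarging the system, the divisors away from it are principal and a character vanishing at all
its places vanishes.
-/

set_option autoImplicit false
set_option linter.style.haveILetI false
set_option linter.unusedSectionVars false

noncomputable section

open scoped Pointwise NumberField

namespace FLTAgent.PoitouTate.Field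

open FLTAgent.Lowering.P1 FLTAgent.Lowering.P1.Brauer
open FLTAgent.Lowering.P1.Hasse (powP InOrbit IsPlaces Gen unitsAway)

local notation "LL" => AlgebraicClosure ℚ
local notation "GG" => (AlgebraicClosure ℚ ≃ₐ[ℚ] AlgebraicClosure ℚ)
local notation "VS" => ValuationSubring (AlgebraicClosure ℚ)
local notation "Dec" => ValuationSubring.decompositionSubgroup ℚ

variable {p : ℕ} [Fact p.Prime] {S S' : Finset Nat.Primes} (F : SField p S)

theorem zeta_mem : ∃ ζ ∈ F.K, IsPrimitiveRoot ζ p :=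
  haveI := F.fd
  ⟨zeta p, mem_of_galOf_fixed (fixN F), zeta_spec p⟩

local instance (priority := 2000) algSubF (K : IntermediateField ℚ (AlgebraicClosure ℚ)) :
    Algebra ℚ K := K.algebra'

theorem finrank_even (hp3 : 2 < p) :
    2 * (Module.finrank ℚ F.K / 2) = Module.finrank ℚ F.K ∧ 2 ≤ Module.finrank ℚ F.K := by
  haveI := F.fd
  haveI : NumberField F.K := ⟨⟩
  obtain ⟨ζ, hζK, hζ⟩ := zeta_mem F
  have hζ' : IsPrimitiveRoot (⟨ζ, hζK⟩ : F.K) p :=
    IsPrimitiveRoot.of_map_of_injective (f := F.K.val) hζ Subtype.val_injective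
  have h1 := NumberField.InfinitePlace.IsPrimitiveRoot.nrRealPlaces_eq_zero_of_two_lt hp3 hζ'
  have h2 := NumberField.InfinitePlace.card_add_two_mul_card_eq_rank F.K
  have h3 : 0 < Module.finrank ℚ F.K := Module.finrank_pos
  rw [h1] at h2
  omega

theorem Z1S_mono (h : S ⊆ S') :
    Z1S (omRep p) F.N.subtype S ≤ Z1S (omRep p) F.N.subtype S' := fun _ ⟨ha, L, hL, hlev⟩ =>
  ⟨ha, L, hL.mono h, hlev⟩

section Rank

variable {R : Finset VS} (hR : SPlaces F R) (hpS : ExtCitation.pPrime p ∈ S) (hgen : Gen F.K R)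

include hR hpS hgen

theorem card_Z1S (hp3 : 2 < p) : Nat.card ↥(Z1S (omRep p) F.N.subtype S) =
    p ^ (Module.finrank ℚ F.K / 2 + R.card) := by
  haveI := F.fd
  set A := unitsAway F.K F.K R
  let φ : ↥A →* Multiplicative ↥(Z1S (omRep p) F.N.subtype S) :=
    { toFun := fun u => Multiplicative.ofAdd
        ⟨kumC (fixN F) ⟨(u : LLˣ), units_le_fixU F hR u.2⟩, kumC_mem_Z1S F hR hpS _ u.2⟩
      map_one' := Multiplicative.toAdd.injective (Subtype.ext (congrArg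
        (fun a : Multiplicative ↥(Z1 (omRep p) F.N.subtype) => (a.toAdd : ↥F.N → ZMod p))
        (map_one (kum (p := p) (fixN F)))))
      map_mul' := fun u v => Multiplicative.toAdd.injective (Subtype.ext (congrArg
        (fun a : Multiplicative ↥(Z1 (omRep p) F.N.subtype) => (a.toAdd : ↥F.N → ZMod p))
        (map_mul (kum (p := p) (fixN F)) ⟨(u : LLˣ), units_le_fixU F hR u.2⟩
          ⟨(v : LLˣ), units_le_fixU F hR v.2⟩))) }
  have hsurj : Function.Surjective φ := fun a => by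
    obtain ⟨u, hu, h⟩ := exists_unit_kum F hR hpS hgen a.toAdd.2
    exact ⟨⟨u, hu⟩, Multiplicative.toAdd.injective (Subtype.ext h)⟩
  have hker : φ.ker = (A.map (powP LLˣ p)).subgroupOf A := by
    ext u
    rw [MonoidHom.mem_ker, Subgroup.mem_subgroupOf]
    constructor
    · intro h
      obtain ⟨z, hz, hzu⟩ := (kumC_eq_zero_iff (p := p) (fixN F)
        ⟨(u : LLˣ), units_le_fixU F hR u.2⟩).1 (congrArg
          (fun a : Multiplicative ↥(Z1S (omRep p) F.N.subtype S) => (a.toAdd : ↥F.N → ZMod p)) h)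
      refine ⟨z, ⟨mem_of_galOf_fixed hz, fun l V hl hV hn => ?_⟩, hzu⟩
      refine (pow_eq_one_iff_left (Fact.out : p.Prime).ne_zero).1 ?_
      rw [← map_pow, show (z : LL) ^ p = ((u : LLˣ) : LL) by rw [← hzu]; rfl]
      exact u.2.2 l V hl hV hn
    · rintro ⟨z, hz, hzu⟩
      exact Multiplicative.toAdd.injective (Subtype.ext ((kumC_eq_zero_iff (p := p) (fixN F)
        ⟨(u : LLˣ), units_le_fixU F hR u.2⟩).2 ⟨z, units_le_fixU F hR hz, hzu⟩))
  have hidx : φ.ker.index = Nat.card ↥(Z1S (omRep p) F.N.subtype S) := by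
    rw [Subgroup.index_ker, MonoidHom.range_eq_top.2 hsurj]
    exact (Nat.card_congr Subgroup.topEquiv.toEquiv).trans
      (Nat.card_congr Multiplicative.toAdd)
  rw [← hidx, hker]
  refine (Hasse.powRank_unitsAway_self hp3 (zeta_mem F) hR.places).trans ?_
  rw [Hasse.card_inf_kerPow (zeta_mem F) fun _ hu =>
    Hasse.mem_unitsAway_of_pow_eq_one (zeta_mem F) le_rfl R hu, ← pow_succ]
  congr 1
  have := finrank_even F hp3
  omega

theorem finrank_Z1S (hp3 : 2 < p) : Module.finrank (ZMod p) ↥(Z1S (omRep p) F.N.subtype S) =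
    Module.finrank ℚ F.K / 2 + R.card := by
  have h := card_Z1S F hR hpS hgen hp3
  haveI : Finite ↥(Z1S (omRep p) F.N.subtype S) :=
    Nat.finite_of_card_ne_zero (by rw [h]; exact pow_ne_zero _ (NeZero.ne p))
  refine Nat.pow_right_injective (Fact.out : p.Prime).two_le ?_
  beta_reduce
  rw [← h, Module.natCard_eq_pow_finrank (K := ZMod p), Nat.card_zmod]

end Rank

/-- A system of places over finitely many more primes. -/
theorem exists_add {R : Finset VS} (hR : SPlaces F R) (T : Finset Nat.Primes)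
    (hT : ∀ q ∈ T, q ∉ S) :
    ∃ R' : Finset VS, R ⊆ R' ∧ SPlaces (mono F (Finset.subset_union_left (s₂ := T))) R' := by
  classical
  haveI := F.fd
  obtain ⟨RT, hRT, hRTl, hiff⟩ := Hasse.exists_places F.K
    (T.image fun q : Nat.Primes => (q : ℕ)) (fun l hl => by
      obtain ⟨q, -, rfl⟩ := Finset.mem_image.1 hl
      exact q.2)
  have horb : ∀ (l : ℕ) (V : VS), l.Prime → V.LiesOverPrime l →
      (InOrbit F.N (R ∪ RT) V ↔ ∃ q ∈ S ∪ T, (q : ℕ) = l) := by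
    intro l V hl hV
    constructor
    · rintro ⟨W, hW, h⟩
      rcases Finset.mem_union.1 hW with hW | hW
      · obtain ⟨q, hq, e⟩ := (hR.iff l V hl hV).1 ⟨W, hW, h⟩
        exact ⟨q, Finset.mem_union_left _ hq, e⟩
      · obtain ⟨q, hq, e⟩ := Finset.mem_image.1 ((hiff l V hl hV).1 ⟨W, hW, h⟩)
        exact ⟨q, Finset.mem_union_right _ hq, e⟩
    · rintro ⟨q, hq, e⟩
      rcases Finset.mem_union.1 hq with hq | hq
      · obtain ⟨W, hW, h⟩ := (hR.iff l V hl hV).2 ⟨q, hq, e⟩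
        exact ⟨W, Finset.mem_union_left _ hW, h⟩
      · obtain ⟨W, hW, h⟩ := (hiff l V hl hV).2 (Finset.mem_image.2 ⟨q, hq, e⟩)
        exact ⟨W, Finset.mem_union_right _ hW, h⟩
  have hlies : ∀ W ∈ R ∪ RT, ∃ l : ℕ, l.Prime ∧ W.LiesOverPrime l := fun W hW => by
    rcases Finset.mem_union.1 hW with hW | hW
    · exact hR.places.lies W hW
    · exact hRT.lies W hW
  have hcross : ∀ V ∈ R, ∀ W ∈ RT, ¬ Loc.SameOrbit F.N V W := fun V hV W hW h => by
    obtain ⟨l, hl, hWl⟩ := hRT.lies W hW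
    obtain ⟨q, hq, e⟩ := (hR.iff l W hl hWl).1 ⟨V, hV, h⟩
    obtain ⟨q', hq', e'⟩ := Finset.mem_image.1 ((hiff l W hl hWl).1 (Hasse.inOrbit_of_mem hW))
    exact hT _ hq' (by rwa [Subtype.ext (e'.trans e.symm)])
  refine ⟨R ∪ RT, Finset.subset_union_left, ⟨hlies, fun V hV W hW h => ?_⟩, horb⟩
  rcases Finset.mem_union.1 hV with hV | hV <;> rcases Finset.mem_union.1 hW with hW | hW
  · exact hR.places.inj V hV W hW h
  · exact (hcross V hV W hW h).elim
  · exact (hcross W hW V hV (Hasse.sameOrbit_symm h)).elim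
  · exact hRT.inj V hV W hW h

/-- Enlargement by finitely many primes with principal divisors away from the result. -/
theorem exists_bigger {R : Finset VS} (hR : SPlaces F R) (T₀ : Finset Nat.Primes) :
    ∃ (S' : Finset Nat.Primes) (h : S ⊆ S') (R' : Finset VS), T₀ ⊆ S' ∧ R ⊆ R' ∧
      SPlaces (mono F h) R' ∧ Gen F.K R' := by
  classical
  haveI := F.fd
  obtain ⟨S₀, hS₀⟩ := Hasse.exists_gen F.K
  set T : Finset Nat.Primes := ((S₀.subtype Nat.Prime : Finset Nat.Primes) ∪ T₀) \ S with hT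
  obtain ⟨R', hRR', hR'⟩ := exists_add F hR T fun q hq => (Finset.mem_sdiff.1 hq).2
  refine ⟨S ∪ T, Finset.subset_union_left, R', fun q hq => ?_, hRR', hR', fun l V hl hV hn => ?_⟩
  · by_cases h : q ∈ S
    · exact Finset.mem_union_left _ h
    · exact Finset.mem_union_right _ (Finset.mem_sdiff.2 ⟨Finset.mem_union_right _ hq, h⟩)
  · have hout : ∀ (q : ℕ) (W : VS), q.Prime → W.LiesOverPrime q →
        ¬ InOrbit (galOf F.K) R' W → q ∉ S₀ := fun q W hq hW hnW hqS => by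
      refine hnW ((hR'.iff q W hq hW).2 ⟨⟨q, hq⟩, ?_, rfl⟩)
      by_cases h : (⟨q, hq⟩ : Nat.Primes) ∈ S
      · exact Finset.mem_union_left _ h
      · exact Finset.mem_union_right _ (Finset.mem_sdiff.2
          ⟨Finset.mem_union_left _ (Finset.mem_subtype.2 hqS), h⟩)
    obtain ⟨a, haK, ha0, -, hu, hone⟩ := hS₀ l V hl hV (hout l V hl hV hn)
    exact ⟨a, haK, ha0, hu, fun q W hq hW hnW hne => hone q W hq hW (hout q W hq hW hnW) hne⟩

theorem res1_mem_local {a : ↥F.N → ZMod p} (ha : a ∈ Z1 (omRep p) F.N.subtype) (V : VS) :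
    res1 (p := p) (F.incl V) a ∈ Z1 (omRep p) (F.Hw V).subtype :=
  res1_mem_Z1 (F.incl V) ha

theorem apply_conj {a : ↥F.N → ZMod p} (ha : a ∈ Z1 (omRep p) F.N.subtype) {g σ : GG} (hσ : σ ∈ F.N)
    (hg : g ∈ F.N) : a ⟨σ * g * σ⁻¹, mul_mem (mul_mem hσ hg) (inv_mem hσ)⟩ = a ⟨g, hg⟩ := by
  have h := ((mem_Z1_iff (fixN F)).1 ha).2
  have h1 := h ⟨σ * g * σ⁻¹, mul_mem (mul_mem hσ hg) (inv_mem hσ)⟩ ⟨σ, hσ⟩
  have h2 : a ⟨σ * g, mul_mem hσ hg⟩ = a ⟨σ, hσ⟩ + a ⟨g, hg⟩ := h ⟨σ, hσ⟩ ⟨g, hg⟩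
  rw [show (⟨σ * g * σ⁻¹, _⟩ : ↥F.N) * ⟨σ, hσ⟩ = ⟨σ * g, mul_mem hσ hg⟩ from
    Subtype.ext (inv_mul_cancel_right _ _), h2, add_comm] at h1
  exact (add_right_cancel h1).symm

theorem res_zero_smul {a : ↥F.N → ZMod p} (ha : a ∈ Z1 (omRep p) F.N.subtype) {V : VS}
    (h : res1 (p := p) (F.incl V) a = 0) {σ : GG} (hσ : σ ∈ F.N) :
    res1 (p := p) (F.incl (σ • V)) a = 0 := by
  funext g
  obtain ⟨hgN, hgD⟩ := Subgroup.mem_inf.1 g.2
  have h1 : σ⁻¹ * g * σ ∈ F.N := mul_mem (mul_mem (inv_mem hσ) hgN) hσ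
  have h2 : σ⁻¹ * g * σ ∈ Dec V := by
    rw [MulAction.mem_stabilizer_iff, mul_smul, mul_smul, MulAction.mem_stabilizer_iff.1 hgD,
      inv_smul_smul]
  have h3 := apply_conj F ha hσ h1
  rw [show a ⟨σ⁻¹ * g * σ, h1⟩ = 0 from congrFun h ⟨σ⁻¹ * g * σ, Subgroup.mem_inf.2 ⟨h1, h2⟩⟩] at h3
  show a (F.incl (σ • V) g) = 0
  exact (congrArg a (Subtype.ext (show (g : GG) = σ * (σ⁻¹ * g * σ) * σ⁻¹ by group))).trans h3

/-- A finite set of places at which a character vanishes controls their orbits. -/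
theorem res_zero_of_places {R : Finset VS} {a : ↥F.N → ZMod p} (ha : a ∈ Z1 (omRep p) F.N.subtype)
    (h : ∀ w ∈ R, res1 (p := p) (F.incl w) a = 0) {V : VS} (hV : InOrbit F.N R V) :
    res1 (p := p) (F.incl V) a = 0 := by
  obtain ⟨W, hW, σ, hσ, rfl⟩ := hV
  exact res_zero_smul F ha (h W hW) hσ

/-- Vanishing at the new places, a character is unramified outside the old ones. -/
theorem mem_Z1S_of_res (h : S ⊆ S') {a : ↥F.N → ZMod p}
    (ha : a ∈ Z1S (omRep p) F.N.subtype S')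
    (hz : ∀ q ∈ S', q ∉ S → ∀ V : VS, V.LiesOverPrime (q : ℕ) → res1 (p := p) (F.incl V) a = 0) :
    a ∈ Z1S (omRep p) F.N.subtype S := by
  refine (mem_Z1S_iff F).2 ⟨ha.1, fun l V hl hV σ hσ => ?_⟩
  by_cases hlS : (⟨l, hl.1⟩ : Nat.Primes) ∈ S'
  · exact congrFun (hz _ hlS hl.notMem V hV) ⟨σ, inertia_le_Hw F hl hV hσ⟩
  · exact ((mem_Z1S_iff (mono F h)).1 ha).2 l V
      ⟨hl.1, fun q hq e => hlS (by subst e; exact hq)⟩ hV σ hσ

/-- A Frobenius inside the group of the field on which two characters take given values. -/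
theorem exists_frob {a b : ↥F.N → ZMod p} (ha : a ∈ Z1 (omRep p) F.N.subtype)
    (hb : b ∈ Z1 (omRep p) F.N.subtype) (σ : ↥F.N) (S₁ : Finset Nat.Primes) :
    ∃ q : Nat.Primes, q ∉ S₁ ∧ ∃ V : VS, V.LiesOverPrime (q : ℕ) ∧ ∃ x : ↥(F.Hw V),
      a (F.incl V x) = a σ ∧ b (F.incl V x) = b σ := by
  classical
  haveI := F.fd
  obtain ⟨Ea, hEa, hla⟩ := ha.1
  obtain ⟨Eb, hEb, hlb⟩ := hb.1
  obtain ⟨l, V, τ, k, hl, hlS, hV, hτ, hk⟩ := Frobenius.exists_frobenius_pow_eqOn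
    (Ea ⊔ Eb ⊔ F.K) (σ : GG) (S₁.image fun q : Nat.Primes => (q : ℕ))
  have hfix : (σ : GG)⁻¹ * τ ^ k ∈ (Ea ⊔ Eb ⊔ F.K).fixingSubgroup :=
    (IntermediateField.mem_fixingSubgroup_iff _ _).2 fun x hx => by
      rw [AlgEquiv.mul_apply, ← hk x hx]
      exact (σ : GG).symm_apply_apply x
  have hN : (σ : GG)⁻¹ * τ ^ k ∈ F.N := IntermediateField.fixingSubgroup_antitone le_sup_right hfix
  have hτN : τ ^ k ∈ F.N := by simpa using mul_mem σ.2 hN
  refine ⟨⟨l, hl⟩, fun h => hlS (Finset.mem_image.2 ⟨_, h, rfl⟩), V, hV,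
    ⟨τ ^ k, Subgroup.mem_inf.2 ⟨hτN, pow_mem hτ.mem_decompositionSubgroup k⟩⟩, ?_, ?_⟩
  · have h1 := hla σ ⟨_, hN⟩ (IntermediateField.fixingSubgroup_antitone
      (le_sup_left.trans le_sup_left) hfix)
    exact (congrArg a (Subtype.ext (mul_inv_cancel_left (σ : GG) (τ ^ k)).symm)).trans h1
  · have h1 := hlb σ ⟨_, hN⟩ (IntermediateField.fixingSubgroup_antitone
      (le_sup_right.trans le_sup_left) hfix)
    exact (congrArg b (Subtype.ext (mul_inv_cancel_left (σ : GG) (τ ^ k)).symm)).trans h1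

/-- A large system of places. -/
structure Big {R : Finset VS} (hR : SPlaces F R) (S' : Finset Nat.Primes) (R' : Finset VS) :
    Prop where
  sub : S ⊆ S'
  subR : R ⊆ R'
  places : SPlaces (mono F sub) R'
  gen : Gen F.K R'
  inj : ∀ a ∈ Z1S (omRep p) F.N.subtype S', (∀ w ∈ R', res1 (p := p) (F.incl w) a = 0) → a = 0

theorem Big.finite {R : Finset VS} {hR : SPlaces F R} {R' : Finset VS}
    (hB : Big F hR S' R') (hpS : ExtCitation.pPrime p ∈ S) (hp3 : 2 < p) :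
    Finite ↥(Z1S (omRep p) F.N.subtype S') :=
  Nat.finite_of_card_ne_zero (ne_of_eq_of_ne
    (card_Z1S (mono F hB.sub) hB.places (hB.sub hpS) hB.gen hp3) (pow_ne_zero _ (NeZero.ne p)))

/-- Injectivity passes to larger systems. -/
theorem inj_mono {S₁ : Finset Nat.Primes} {R₁ R' : Finset VS} (h : S₁ ⊆ S') (hS : S ⊆ S₁)
    (hR₁ : R₁ ⊆ R') (hR' : SPlaces (mono F (hS.trans h)) R')
    (hinj : ∀ a ∈ Z1S (omRep p) F.N.subtype S₁, (∀ w ∈ R₁, res1 (p := p) (F.incl w) a = 0) → a = 0)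
    {a : ↥F.N → ZMod p} (ha : a ∈ Z1S (omRep p) F.N.subtype S')
    (hz : ∀ w ∈ R', res1 (p := p) (F.incl w) a = 0) : a = 0 :=
  hinj a (mem_Z1S_of_res (mono F hS) h ha fun q hq _ V hV =>
    res_zero_of_places F ha.1 hz ((hR'.iff _ V q.2 hV).2 ⟨q, hq, rfl⟩))
    fun w hw => hz w (hR₁ hw)

theorem exists_big {R : Finset VS} (hR : SPlaces F R) (hpS : ExtCitation.pPrime p ∈ S) (hp3 : 2 < p)
    (T₀ : Finset Nat.Primes) : ∃ S' R', T₀ ⊆ S' ∧ Big F hR S' R' := by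
  classical
  obtain ⟨S₁, h₁, R₁, hT₁, hRR₁, hR₁, hgen₁⟩ := exists_bigger F hR T₀
  haveI : Finite ↥(Z1S (omRep p) F.N.subtype S₁) := Nat.finite_of_card_ne_zero (ne_of_eq_of_ne
    (card_Z1S (mono F h₁) hR₁ (h₁ hpS) hgen₁ hp3) (pow_ne_zero _ (NeZero.ne p)))
  have hdet : ∀ a : ↥(Z1S (omRep p) F.N.subtype S₁), ∃ q : Nat.Primes, a ≠ 0 →
      ∃ V : VS, V.LiesOverPrime (q : ℕ) ∧ res1 (p := p) (F.incl V) a.1 ≠ 0 := fun a => by
    by_cases ha : a = 0
    · exact ⟨ExtCitation.pPrime p, fun h => absurd ha h⟩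
    · obtain ⟨σ, hσ⟩ : ∃ σ, a.1 σ ≠ 0 := by
        by_contra hall
        push Not at hall
        exact ha (Subtype.ext (funext hall))
      obtain ⟨q, -, V, hV, x, hx, -⟩ := exists_frob F a.2.1 a.2.1 σ S₁
      exact ⟨q, fun _ => ⟨V, hV, fun h => hσ (hx.symm.trans (congrFun h x))⟩⟩
  choose d hd using hdet
  haveI := Fintype.ofFinite ↥(Z1S (omRep p) F.N.subtype S₁)
  obtain ⟨S₂, h₂, R₂, hT₂, hRR₂, hR₂, hgen₂⟩ :=
    exists_bigger (mono F h₁) hR₁ (Finset.univ.image d)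
  refine ⟨S₂, R₂, hT₁.trans h₂, ⟨h₁.trans h₂, hRR₁.trans hRR₂, hR₂, hgen₂, fun a ha hz => ?_⟩⟩
  have hres : ∀ q ∈ S₂, ∀ V : VS, V.LiesOverPrime (q : ℕ) → res1 (p := p) (F.incl V) a = 0 :=
    fun q hq V hV => res_zero_of_places F ha.1 hz ((hR₂.iff _ V q.2 hV).2 ⟨q, hq, rfl⟩)
  have ha₁ : a ∈ Z1S (omRep p) F.N.subtype S₁ :=
    mem_Z1S_of_res (mono F h₁) h₂ ha fun q hq _ => hres q hq
  by_contra hne
  obtain ⟨V, hV, hnz⟩ := hd ⟨a, ha₁⟩ fun h => hne (congrArg Subtype.val h)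
  exact hnz (hres _ (hT₂ (Finset.mem_image_of_mem d (Finset.mem_univ _))) V hV)

theorem finite_global {R : Finset VS} (hR : SPlaces F R) (hpS : ExtCitation.pPrime p ∈ S)
    (hp3 : 2 < p) : Finite ↥(Z1S (omRep p) F.N.subtype S) := by
  obtain ⟨S', R', -, hB⟩ := exists_big F hR hpS hp3 ∅
  haveI := hB.finite F hpS hp3
  exact Finite.of_injective _ (Submodule.inclusion_injective (Z1S_mono F hB.sub))

end FLTAgent.PoitouTate.Field
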