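import Fermat.Agent.Lowering.P1.Brauer.Hasse.Lower

/-!
# Orders at unramified places

The value of a number fixed by the inertia at a place over `l` is an integral power of that of `l`.
-/

set_option autoImplicit false
set_option linter.style.haveILetI false
set_option linter.unusedSectionVars false

noncomputable section

open scoped Pointwise

namespace FLTAgent.PoitouTate.Field

open FLTAgent.Lowering.P1

local notation "LL" => AlgebraicClosure ℚ
local notation "GG" => (AlgebraicClosure ℚ ≃ₐ[ℚ] AlgebraicClosure ℚ)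
local notation "VS" => ValuationSubring (AlgebraicClosure ℚ)

/-- The numbers fixed by the inertia at `V`. -/
def InFix (V : VS) (x : LL) : Prop := ∀ σ ∈ V.inertiaSubgroupIn ℚ, σ x = x

theorem InFix.mul {V : VS} {x y : LL} (hx : InFix V x) (hy : InFix V y) : InFix V (x * y) :=
  fun σ hσ => by rw [map_mul, hx σ hσ, hy σ hσ]

theorem InFix.inv {V : VS} {x : LL} (hx : InFix V x) : InFix V x⁻¹ :=
  fun σ hσ => by rw [map_inv₀, hx σ hσ]

theorem InFix.div {V : VS} {x y : LL} (hx : InFix V x) (hy : InFix V y) : InFix V (x / y) := by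
  rw [div_eq_mul_inv]; exact hx.mul hy.inv

theorem InFix.zpow {V : VS} {x : LL} (hx : InFix V x) (n : ℤ) : InFix V (x ^ n) :=
  fun σ hσ => by rw [map_zpow₀, hx σ hσ]

theorem InFix.pow {V : VS} {x : LL} (hx : InFix V x) (n : ℕ) : InFix V (x ^ n) :=
  fun σ hσ => by rw [map_pow, hx σ hσ]

/-- The order of a number at a place over `l`. -/
def ordV (l : ℕ) (V : VS) (x : LL) : ℤ :=
  letI := Classical.propDecidable (∃ k : ℤ, V.valuation x = V.valuation (l : LL) ^ k)
  if h : ∃ k : ℤ, V.valuation x = V.valuation (l : LL) ^ k then h.choose else 0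

variable {l : ℕ} (hl : l.Prime) {V : VS} (hV : V.LiesOverPrime l)

include hl hV

theorem ordV_eq {x : LL} {k : ℤ} (h : V.valuation x = V.valuation (l : LL) ^ k) :
    ordV l V x = k := by
  have hex : ∃ k : ℤ, V.valuation x = V.valuation (l : LL) ^ k := ⟨k, h⟩
  rw [ordV, dif_pos hex]
  exact Mazur.zpow_valuation_injective V hl hV (hex.choose_spec.symm.trans h)

theorem ordV_spec {x : LL} (hx : x ≠ 0) (hfix : InFix V x) :
    V.valuation x = V.valuation (l : LL) ^ ordV l V x := by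
  obtain ⟨k, hk⟩ := Mazur.exists_zpow_valuation V hl hV hx hfix
  rwa [ordV_eq hl hV hk]

theorem ordV_one : ordV l V 1 = 0 := ordV_eq hl hV (by rw [map_one, zpow_zero])

theorem ordV_natCast : ordV l V (l : LL) = 1 := ordV_eq hl hV (zpow_one _).symm

theorem ordV_mul {x y : LL} (hx : x ≠ 0) (hy : y ≠ 0) (fx : InFix V x) (fy : InFix V y) :
    ordV l V (x * y) = ordV l V x + ordV l V y := by
  refine ordV_eq hl hV ?_
  rw [map_mul, ordV_spec hl hV hx fx, ordV_spec hl hV hy fy,
    zpow_add₀ (Mazur.valuation_natCast_ne_zero V hl)]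

theorem ordV_inv {x : LL} (hx : x ≠ 0) (fx : InFix V x) : ordV l V x⁻¹ = -ordV l V x := by
  refine ordV_eq hl hV ?_
  rw [map_inv₀, ordV_spec hl hV hx fx, zpow_neg]

theorem ordV_div {x y : LL} (hx : x ≠ 0) (hy : y ≠ 0) (fx : InFix V x) (fy : InFix V y) :
    ordV l V (x / y) = ordV l V x - ordV l V y := by
  rw [div_eq_mul_inv, ordV_mul hl hV hx (inv_ne_zero hy) fx fy.inv, ordV_inv hl hV hy fy,
    ← sub_eq_add_neg]

theorem ordV_zpow {x : LL} (hx : x ≠ 0) (fx : InFix V x) (n : ℤ) :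
    ordV l V (x ^ n) = n * ordV l V x := by
  refine ordV_eq hl hV ?_
  rw [map_zpow₀, ordV_spec hl hV hx fx, ← zpow_mul, mul_comm]

theorem ordV_pow {x : LL} (hx : x ≠ 0) (fx : InFix V x) (n : ℕ) :
    ordV l V (x ^ n) = n * ordV l V x := by
  rw [← zpow_natCast, ordV_zpow hl hV hx fx]

theorem val_eq_one_iff {x : LL} (hx : x ≠ 0) (fx : InFix V x) :
    V.valuation x = 1 ↔ ordV l V x = 0 := by
  refine ⟨fun h => ordV_eq hl hV (by rw [h, zpow_zero]), fun h => ?_⟩
  rw [ordV_spec hl hV hx fx, h, zpow_zero]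

omit hl hV in
theorem inFix_smul {g : GG} {x : LL} (fx : InFix V x) : InFix (g • V) (g x) := fun σ hσ => by
  have h := fx _ (show g⁻¹ * σ * g ∈ V.inertiaSubgroupIn ℚ by
    have h1 := Places.conj_mem_inertia (g • V) hσ g⁻¹
    rwa [inv_smul_smul, inv_inv] at h1)
  have h2 := congrArg g h
  rwa [← AlgEquiv.mul_apply, show g * (g⁻¹ * σ * g) = σ * g by group, AlgEquiv.mul_apply] at h2

theorem ordV_smul {g : GG} {x : LL} (hx : x ≠ 0) (fx : InFix V x) :
    ordV l (g • V) (g x) = ordV l V x := by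
  refine ordV_eq hl (Places.liesOverPrime_smul V g hV) ?_
  have h0 : (l : LL) ^ ordV l V x = (l : LL) ^ ordV l V x := rfl
  have h1 := (Hasse.smul_val_eq_iff g V x ((l : LL) ^ ordV l V x)).2
    (by rw [map_zpow₀]; exact ordV_spec hl hV hx fx)
  rwa [map_zpow₀ g, map_natCast, map_zpow₀] at h1

/-- Inertia fixes a radical exactly when the order is divisible. -/
theorem inertia_fix_iff {p : ℕ} [hp : Fact p.Prime] (hlp : l ≠ p) {δ : LL} (hδ : δ ≠ 0)
    (hd : InFix V (δ ^ p)) : InFix V δ ↔ (p : ℤ) ∣ ordV l V (δ ^ p) := by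
  refine ⟨fun h => ⟨ordV l V δ, ordV_pow hl hV hδ h p⟩, fun ⟨k, hk⟩ σ hσ => ?_⟩
  have hl0 : (l : LL) ≠ 0 := Nat.cast_ne_zero.2 hl.ne_zero
  set y := δ / (l : LL) ^ k with hy
  have hfix : InFix V ((l : LL) ^ k) := fun τ _ => by rw [map_zpow₀, map_natCast]
  have h1 : V.valuation y = 1 := by
    refine (pow_eq_one_iff_left hp.out.ne_zero).1 ?_
    rw [← map_pow, hy, div_pow, map_div₀, ordV_spec hl hV (pow_ne_zero p hδ) hd, hk, map_pow,
      map_zpow₀, ← zpow_natCast, ← zpow_mul, mul_comm]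
    exact div_self (zpow_ne_zero _ (Mazur.valuation_natCast_ne_zero V hl))
  have h2 := Hasse.inertia_fix (p := p) hl hlp hV h1 hσ (by
    rw [hy, div_pow, map_div₀, hd σ hσ, hfix.pow p σ hσ])
  rw [hy, map_div₀, hfix σ hσ] at h2
  exact (div_left_inj' (zpow_ne_zero _ hl0)).1 h2

end FLTAgent.PoitouTate.Field
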