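import Fermat.Agent.PoitouTate.Field.Kummer
import Fermat.Agent.PoitouTate.Field.Ord

/-!
# Characters of the group of the field unramified outside `S`

They are the Kummer characters of the numbers whose orders away from `S` are divisible by `p`.
-/

set_option autoImplicit false
set_option linter.style.haveILetI false
set_option linter.unusedSectionVars false

noncomputable section

open scoped Pointwise

namespace FLTAgent.PoitouTate.Field

open FLTAgent.Lowering.P1 FLTAgent.Lowering.P1.Brauer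
open FLTAgent.Lowering.P1.Hasse (powP InOrbit IsPlaces Gen unitsAway mem_unitsAway)
open Loc (SameOrbit)

local notation "LL" => AlgebraicClosure ℚ
local notation "GG" => (AlgebraicClosure ℚ ≃ₐ[ℚ] AlgebraicClosure ℚ)
local notation "VS" => ValuationSubring (AlgebraicClosure ℚ)
local notation "Dec" => ValuationSubring.decompositionSubgroup ℚ

/-- A prime outside `S`. -/
def OutS (S : Finset Nat.Primes) (l : ℕ) : Prop := l.Prime ∧ ∀ q ∈ S, (q : ℕ) ≠ l

theorem OutS.notMem {S : Finset Nat.Primes} {l : ℕ} (h : OutS S l) : (⟨l, h.1⟩ : Nat.Primes) ∉ S :=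
  fun hh => h.2 _ hh rfl

theorem OutS.mono {S S' : Finset Nat.Primes} (hS : S ⊆ S') {l : ℕ} (h : OutS S' l) : OutS S l :=
  ⟨h.1, fun q hq => h.2 q (hS hq)⟩

variable {p : ℕ} [Fact p.Prime] {S : Finset Nat.Primes}

/-- The same field over a larger set. -/
@[reducible] def mono (F : SField p S) {S' : Finset Nat.Primes} (h : S ⊆ S') : SField p S' where
  K := F.K
  fd := F.fd
  normal := F.normal
  unram := F.unram.mono h
  zeta := F.zeta

variable (F : SField p S)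

theorem fixN : FixZ p F.N := (fixZ_iff p).2 F.zeta

theorem fixH (V : VS) : FixZ p (F.Hw V) := fixZ_of_le p (fixN F) inf_le_left

theorem inertia_le_N {l : ℕ} (h : OutS S l) {V : VS} (hV : V.LiesOverPrime l) :
    V.inertiaSubgroupIn ℚ ≤ F.N :=
  F.unram.2 ⟨l, h.1⟩ h.notMem V hV

theorem inertia_le_Hw {l : ℕ} (h : OutS S l) {V : VS} (hV : V.LiesOverPrime l) :
    V.inertiaSubgroupIn ℚ ≤ F.Hw V :=
  le_inf (inertia_le_N F h hV) (Places.inertia_le_decomposition V)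

theorem localSub_Hw (V : VS) : LocalSub V (F.Hw V) :=
  haveI := F.fd
  localSub_galOf F.K

theorem fixed_of_mem {x : LL} (hx : x ∈ F.K) : ∀ σ ∈ F.N, σ x = x := fun _ hσ =>
  (IntermediateField.mem_fixingSubgroup_iff _ _).1 hσ x hx

theorem inFix_of_fixed {x : LL} (hx : ∀ σ ∈ F.N, σ x = x) {l : ℕ} (h : OutS S l) {V : VS}
    (hV : V.LiesOverPrime l) : InFix V x :=
  fun σ hσ => hx σ (inertia_le_N F h hV hσ)

theorem inFix_of_mem {x : LL} (hx : x ∈ F.K) {l : ℕ} (h : OutS S l) {V : VS}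
    (hV : V.LiesOverPrime l) : InFix V x := inFix_of_fixed F (fixed_of_mem F hx) h hV

/-- The open normal subgroup of the conjugates on which a character vanishes. -/
theorem exists_level {a : ↥F.N → ZMod p} (ha : a ∈ Z1 (omRep p) F.N.subtype)
    (hI : ∀ (l : ℕ) (V : VS), OutS S l → V.LiesOverPrime l → ∀ σ : ↥F.N,
      (σ : GG) ∈ V.inertiaSubgroupIn ℚ → a σ = 0) :
    ∃ L : IntermediateField ℚ LL, L.IsUnramifiedOutside S ∧
      ∀ σ : ↥F.N, (σ : GG) ∈ L.fixingSubgroup → a σ = 0 := by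
  haveI := F.fd
  obtain ⟨⟨E₀, hE₀, hlev⟩, hadd⟩ := (mem_Z1_iff (fixN F)).1 ha
  obtain ⟨E, hEf, hEn, hle⟩ := exists_normal_le (E₀ ⊔ F.K)
  have hN : ∀ (g σ : GG), σ ∈ F.N → g * σ * g⁻¹ ∈ F.N := fun g σ hσ =>
    (F.instNormal).conj_mem σ hσ g
  let A : Subgroup GG :=
    { carrier := {σ | ∃ h : σ ∈ F.N, ∀ g, a ⟨g * σ * g⁻¹, hN g σ h⟩ = 0}
      one_mem' := ⟨one_mem _, fun g => by
        refine Eq.trans ?_ (Z1_one (fixN F) ha)
        exact congrArg a (Subtype.ext (show g * 1 * g⁻¹ = 1 by group))⟩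
      mul_mem' := fun {x y} ⟨hx, hx'⟩ ⟨hy, hy'⟩ => ⟨mul_mem hx hy, fun g => by
        have h := hadd ⟨g * x * g⁻¹, hN g x hx⟩ ⟨g * y * g⁻¹, hN g y hy⟩
        rw [hx' g, hy' g, add_zero] at h
        convert h using 2
        exact Subtype.ext (show g * (x * y) * g⁻¹ = g * x * g⁻¹ * (g * y * g⁻¹) by group)⟩
      inv_mem' := fun {x} ⟨hx, hx'⟩ => ⟨inv_mem hx, fun g => by
        have h := hadd ⟨g * x * g⁻¹, hN g x hx⟩ ⟨g * x⁻¹ * g⁻¹, hN g _ (inv_mem hx)⟩
        rw [hx' g, zero_add] at h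
        refine h.symm.trans (Eq.trans ?_ (Z1_one (fixN F) ha))
        exact congrArg a (Subtype.ext (show g * x * g⁻¹ * (g * x⁻¹ * g⁻¹) = 1 by group))⟩ }
  have hA : OpenIn A ⊤ := ⟨E, hEf, fun σ hσ => by
    have h1 : σ ∈ E.fixingSubgroup := (Subgroup.mem_inf.1 hσ).2
    refine ⟨IntermediateField.fixingSubgroup_antitone (le_sup_right.trans hle) h1, fun g => ?_⟩
    have h2 : g * σ * g⁻¹ ∈ E.fixingSubgroup := (fix_normal E).conj_mem σ h1 g
    have h3 := hlev 1 ⟨g * σ * g⁻¹, hN g σ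
      (IntermediateField.fixingSubgroup_antitone (le_sup_right.trans hle) h1)⟩
      (IntermediateField.fixingSubgroup_antitone (le_sup_left.trans hle) h2)
    rwa [one_mul, Z1_one (fixN F) ha] at h3⟩
  obtain ⟨L, hL, hLA⟩ := exists_field_of_open hA
  refine ⟨L, ⟨hL, fun q hq V hV σ hσ => ?_⟩, fun σ hσ => ?_⟩
  · show σ ∈ galOf L
    rw [hLA]
    have hout : OutS S q := ⟨q.2, fun r hr e => hq (by rwa [Subtype.ext e] at hr)⟩
    refine ⟨inertia_le_N F hout hV hσ, fun g => ?_⟩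
    exact hI q (g • V) hout (Places.liesOverPrime_smul V g hV) ⟨_, hN g σ (inertia_le_N F hout hV hσ)⟩
      (Places.conj_mem_inertia V hσ g)
  · have h : (σ : GG) ∈ A := hLA ▸ hσ
    obtain ⟨h1, h2⟩ := h
    have := h2 1
    simpa using this

theorem mem_Z1S_iff {a : ↥F.N → ZMod p} :
    a ∈ Z1S (omRep p) F.N.subtype S ↔ a ∈ Z1 (omRep p) F.N.subtype ∧
      ∀ (l : ℕ) (V : VS), OutS S l → V.LiesOverPrime l → ∀ σ : ↥F.N,
        (σ : GG) ∈ V.inertiaSubgroupIn ℚ → a σ = 0 := by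
  constructor
  · rintro ⟨ha, L, hL, hlev⟩
    refine ⟨ha, fun l V hl hV σ hσ => ?_⟩
    have h := hlev 1 σ (hL.2 ⟨l, hl.1⟩ hl.notMem V hV hσ)
    rwa [one_mul, Z1_one (fixN F) ha] at h
  · rintro ⟨ha, hI⟩
    obtain ⟨L, hL, h0⟩ := exists_level F ha hI
    refine ⟨ha, L, hL, fun g s hs => ?_⟩
    rw [((mem_Z1_iff (fixN F)).1 ha).2, h0 s hs, add_zero]

theorem mem_Z1S_iff_dvd (hpS : ExtCitation.pPrime p ∈ S) {a : ↥F.N → ZMod p}
    (ha : a ∈ Z1 (omRep p) F.N.subtype) {δ : LL} (hδ : δ ≠ 0) (hk : IsKum a δ) :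
    a ∈ Z1S (omRep p) F.N.subtype S ↔ ∀ (l : ℕ) (V : VS), OutS S l → V.LiesOverPrime l →
      (p : ℤ) ∣ ordV l V (δ ^ p) := by
  rw [mem_Z1S_iff, and_iff_right ha]
  refine forall₂_congr fun l V => forall₂_congr fun hl hV => ?_
  have hlp : l ≠ p := fun e => hl.2 _ hpS e.symm
  rw [← inertia_fix_iff hl.1 hV hlp hδ (inFix_of_fixed F hk.pow_fixed hl hV)]
  constructor
  · intro h σ hσ
    rw [hk ⟨σ, inertia_le_N F hl hV hσ⟩, h _ hσ]
    simp
  · intro h σ hσ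
    refine zeta_pow_inj p ?_
    rw [ZMod.val_zero, pow_zero]
    exact mul_right_cancel₀ hδ (((hk σ).symm.trans (h _ hσ)).trans (one_mul δ).symm)

variable {R : Finset VS} (hR : SPlaces F R)

include hR

theorem inOrbit_iff {l : ℕ} {V : VS} (hl : l.Prime) (hV : V.LiesOverPrime l) :
    ¬ InOrbit (galOf F.K) R V ↔ OutS S l := by
  rw [show galOf F.K = F.N from rfl, hR.iff l V hl hV]
  exact ⟨fun h => ⟨hl, fun q hq e => h ⟨q, hq, e⟩⟩, fun h ⟨q, hq, e⟩ => h.2 q hq e⟩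

theorem lies_in_S {V : VS} (hV : V ∈ R) : ∃ q ∈ S, V.LiesOverPrime (q : ℕ) := by
  obtain ⟨l, hl, hVl⟩ := hR.places.lies V hV
  obtain ⟨q, hq, e⟩ := (hR.iff l V hl hVl).1 (Hasse.inOrbit_of_mem hV)
  exact ⟨q, hq, e ▸ hVl⟩

/-- The units away from `R` are the numbers of order zero outside `S`. -/
theorem mem_units_iff {u : LLˣ} :
    u ∈ unitsAway F.K F.K R ↔ (u : LL) ∈ F.K ∧
      ∀ (l : ℕ) (V : VS), OutS S l → V.LiesOverPrime l → ordV l V (u : LL) = 0 := by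
  rw [mem_unitsAway]
  refine and_congr_right fun hu => ⟨fun h l V hl hV => ?_, fun h l V hl hV hn => ?_⟩
  · exact (val_eq_one_iff hl.1 hV u.ne_zero (inFix_of_mem F hu hl hV)).1
      (h l V hl.1 hV ((inOrbit_iff F hR hl.1 hV).2 hl))
  · exact (val_eq_one_iff hl hV u.ne_zero (inFix_of_mem F hu ((inOrbit_iff F hR hl hV).1 hn) hV)).2
      (h l V ((inOrbit_iff F hR hl hV).1 hn) hV)

theorem units_le_fixU : unitsAway F.K F.K R ≤ fixU F.N := fun _ hu => fixed_of_mem F hu.1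

theorem kumC_mem_Z1S (hpS : ExtCitation.pPrime p ∈ S) (u : ↥(fixU F.N))
    (hu : (u : LLˣ) ∈ unitsAway F.K F.K R) :
    kumC (fixN F) u ∈ Z1S (omRep p) F.N.subtype S := by
  rw [mem_Z1S_iff_dvd F hpS (kumC_mem _ u) (root_ne (p := p) (u : LLˣ))
    (kum_spec (fixN F) u (root_spec _))]
  intro l V hl hV
  rw [root_spec, ((mem_units_iff F hR).1 hu).2 l V hl hV]
  exact dvd_zero _

/-- A uniformiser at one place which is a unit at the others outside `S`. -/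
theorem exists_gen_one (hgen : Gen F.K R) {l : ℕ} (hl : OutS S l) {V : VS}
    (hV : V.LiesOverPrime l) :
    ∃ a ∈ F.K, a ≠ 0 ∧ ordV l V a = 1 ∧ ∀ (q : ℕ) (W : VS), OutS S q → W.LiesOverPrime q →
      ¬ SameOrbit F.N V W → ordV q W a = 0 := by
  obtain ⟨a, haK, ha0, hu, hone⟩ := hgen l V hl.1 hV ((inOrbit_iff F hR hl.1 hV).2 hl)
  have hl0 : (l : LL) ≠ 0 := Nat.cast_ne_zero.2 hl.1.ne_zero
  have hfa := inFix_of_mem F haK hl hV
  obtain ⟨k, hk⟩ := hu (l : LL) (Loc.le_localField F.K V (natCast_mem F.K l)) hl0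
  rw [ordV_spec hl.1 hV ha0 hfa, ← zpow_mul] at hk
  have h1 : ordV l V a * k = 1 :=
    (Mazur.zpow_valuation_injective V hl.1 hV ((zpow_one _).trans hk)).symm
  have ho : ∀ (q : ℕ) (W : VS), OutS S q → W.LiesOverPrime q → ¬ SameOrbit F.N V W →
      ordV q W a = 0 := fun q W hq hW hne =>
    (val_eq_one_iff hq.1 hW ha0 (inFix_of_mem F haK hq hW)).1
      (hone q W hq.1 hW ((inOrbit_iff F hR hq.1 hW).2 hq) hne)
  rcases Int.eq_one_or_neg_one_of_mul_eq_one h1 with h | h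
  · exact ⟨a, haK, ha0, h, ho⟩
  · refine ⟨a⁻¹, inv_mem haK, inv_ne_zero ha0, ?_, fun q W hq hW hne => ?_⟩
    · rw [ordV_inv hl.1 hV ha0 hfa, h, neg_neg]
    · rw [ordV_inv hq.1 hW ha0 (inFix_of_mem F haK hq hW), ho q W hq hW hne, neg_zero]

/-- Orders outside `S` of a number of the field are those of a product of uniformisers. -/
theorem exists_root_adjust (hgen : Gen F.K R) {d : LL} (hd : d ∈ F.K) (hd0 : d ≠ 0)
    (hdvd : ∀ (l : ℕ) (V : VS), OutS S l → V.LiesOverPrime l → (p : ℤ) ∣ ordV l V d) :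
    ∃ z ∈ F.K, z ≠ 0 ∧ ∀ (l : ℕ) (V : VS), OutS S l → V.LiesOverPrime l →
      ordV l V (d / z ^ p) = 0 := by
  classical
  haveI := F.fd
  obtain ⟨S₁, hS₁⟩ := exists_finset_eq_one hd0
  obtain ⟨RT, hRT, hRTl, hiff⟩ := Hasse.exists_places F.K
    (S₁.filter fun l => OutS S l) fun l hl => (Finset.mem_filter.1 hl).2.1
  choose lv hlv hVl using hRTl
  have hout : ∀ (V : VS) (h : V ∈ RT), OutS S (lv V h) := fun V h =>
    (Finset.mem_filter.1 (hlv V h)).2
  choose g hgK hg0 hg1 hgone using fun V : ↥RT =>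
    exists_gen_one F hR hgen (hout V V.2) (hVl V V.2)
  let e : ↥RT → ℤ := fun V => ordV (lv V V.2) (V : VS) d / p
  set z := ∏ V, g V ^ e V
  have hz : z ∈ F.K := prod_mem fun V _ => zpow_mem (hgK V) _
  have hz0 : z ≠ 0 := Finset.prod_ne_zero_iff.2 fun V _ => zpow_ne_zero _ (hg0 V)
  refine ⟨z, hz, hz0, fun l V hl hV => ?_⟩
  have hfix : ∀ {x : LL}, x ∈ F.K → InFix V x := fun hx => inFix_of_mem F hx hl hV
  have key : ∀ s : Finset ↥RT, ordV l V (∏ W ∈ s, g W ^ e W) =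
      ∑ W ∈ s, e W * ordV l V (g W) := by
    intro s
    induction s using Finset.induction_on with
    | empty => simp [ordV_one hl.1 hV]
    | insert W s hW ih =>
      rw [Finset.prod_insert hW, Finset.sum_insert hW, ordV_mul hl.1 hV (zpow_ne_zero _ (hg0 W))
        (Finset.prod_ne_zero_iff.2 fun U _ => zpow_ne_zero _ (hg0 U)) (hfix (zpow_mem (hgK W) _))
        (hfix (prod_mem fun U _ => zpow_mem (hgK U) _)),
        ordV_zpow hl.1 hV (hg0 W) (hfix (hgK W)), ih]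
  rw [ordV_div hl.1 hV hd0 (pow_ne_zero _ hz0) (hfix hd) (hfix (pow_mem hz p)),
    ordV_pow hl.1 hV hz0 (hfix hz), key]
  by_cases hin : InOrbit F.N RT V
  · obtain ⟨W, hW, σ, hσ, rfl⟩ := hin
    have hWl : W.LiesOverPrime l := by
      have h := Places.liesOverPrime_smul (σ • W) σ⁻¹ hV
      rwa [inv_smul_smul] at h
    have hlw : lv W hW = l := Hasse.prime_unique (hout W hW).1 hl.1 (hVl W hW) hWl
    have hs : ∀ {x : LL}, x ∈ F.K → x ≠ 0 → ordV l (σ • W) x = ordV l W x := fun {x} hx hx0 => by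
      conv_lhs => rw [← fixed_of_mem F hx σ hσ]
      exact ordV_smul hl.1 hWl hx0 (inFix_of_mem F hx hl hWl)
    rw [hs hd hd0, Finset.sum_eq_single (⟨W, hW⟩ : ↥RT) (fun U _ hU => ?_) (by simp),
      hs (hgK _) (hg0 _)]
    · show _ - (p : ℤ) * (ordV (lv W hW) W d / p * ordV l W (g ⟨W, hW⟩)) = 0
      rw [← hlw, hg1 ⟨W, hW⟩, mul_one, hlw, Int.mul_ediv_cancel' (hdvd l W hl hWl), sub_self]
    · rw [hgone U l (σ • W) hl hV (fun h => hU (Subtype.ext (hRT.inj _ U.2 W hW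
        (Hasse.sameOrbit_trans h (Hasse.sameOrbit_symm ⟨σ, hσ, rfl⟩))))), mul_zero]
  · rw [Finset.sum_eq_zero fun W _ => by
        rw [hgone W l V hl hV fun h => hin ⟨W, W.2, h⟩, mul_zero],
      mul_zero, sub_zero]
    have hlS : l ∉ S₁ := fun h => hin ((hiff l V hl.1 hV).2 (Finset.mem_filter.2 ⟨h, hl⟩))
    exact (val_eq_one_iff hl.1 hV hd0 (hfix hd)).1 (hS₁ l V hl.1 hV hlS)

/-- Every character unramified outside `S` is that of a unit away from `R`. -/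
theorem exists_unit_kum (hpS : ExtCitation.pPrime p ∈ S) (hgen : Gen F.K R) {a : ↥F.N → ZMod p}
    (ha : a ∈ Z1S (omRep p) F.N.subtype S) :
    ∃ u : ↥(fixU F.N), (u : LLˣ) ∈ unitsAway F.K F.K R ∧ kumC (fixN F) u = a := by
  haveI := F.fd
  obtain ⟨δ, hδ, hk⟩ := exists_kum (fixN F) ha.1
  have hd : δ ^ p ∈ F.K := mem_of_galOf_fixed hk.pow_fixed
  obtain ⟨z, hz, hz0, hord⟩ := exists_root_adjust F hR hgen hd (pow_ne_zero _ hδ)
    ((mem_Z1S_iff_dvd F hpS ha.1 hδ hk).1 ha)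
  have hmem : δ ^ p / z ^ p ∈ F.K := div_mem hd (pow_mem hz p)
  refine ⟨⟨Units.mk0 _ (div_ne_zero (pow_ne_zero p hδ) (pow_ne_zero p hz0)),
    fun σ hσ => fixed_of_mem F hmem σ hσ⟩, (mem_units_iff F hR).2 ⟨hmem, hord⟩,
    (kum_spec _ _ (δ := δ / z) (by simp [div_pow])).unique (div_ne_zero hδ hz0) fun σ => ?_⟩
  rw [map_div₀, hk σ, fixed_of_mem F hz σ σ.2, mul_div_assoc]

end FLTAgent.PoitouTate.Field
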