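import Fermat.Agent.PoitouTate.Targets
import Fermat.Agent.PoitouTate.Inv
import Fermat.Agent.Lowering.P1.Brauer.LocalBr

/-!
# Kummer characters of a subgroup fixing the roots of unity

A character of such a subgroup is the Kummer character of a fixed number, unique up to powers.
-/

set_option autoImplicit false
set_option linter.style.haveILetI false
set_option linter.unusedSectionVars false

noncomputable section

open scoped Pointwise

namespace FLTAgent.PoitouTate.Field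

open FLTAgent.Lowering.P1 FLTAgent.Lowering.P1.Brauer
open FLTAgent.Lowering.P1.Hasse (powP)

local notation "LL" => AlgebraicClosure ℚ
local notation "GG" => (AlgebraicClosure ℚ ≃ₐ[ℚ] AlgebraicClosure ℚ)

variable (p : ℕ) [Fact p.Prime]

theorem zeta_ne : zeta p ≠ 0 := (zeta_spec p).ne_zero (NeZero.ne p)

/-- The subgroup fixes the roots of unity. -/
def FixZ (H : Subgroup GG) : Prop := ∀ σ ∈ H, σ (zeta p) = zeta p

theorem zeta_pow_inj {x y : ZMod p} (h : zeta p ^ x.val = zeta p ^ y.val) : x = y :=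
  ZMod.val_injective p ((zeta_spec p).pow_inj (ZMod.val_lt _) (ZMod.val_lt _) h)

theorem fixZ_iff {H : Subgroup GG} : FixZ p H ↔ ∀ σ ∈ H, om p σ = 1 := by
  refine forall₂_congr fun σ _ => ⟨fun h => ?_, fun h => by
    rw [apply_zeta, h, ZMod.val_one, pow_one]⟩
  refine zeta_pow_inj p ?_
  rw [← apply_zeta, h, ZMod.val_one, pow_one]

theorem fixZ_of_le {H H' : Subgroup GG} (h : FixZ p H) (hle : H' ≤ H) : FixZ p H' :=
  fun σ hσ => h σ (hle hσ)

variable {p}

/-- The extension by zero. -/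
def extH {H : Subgroup GG} (a : ↥H → ZMod p) (σ : GG) : ZMod p :=
  letI := Classical.decPred (· ∈ H)
  if h : σ ∈ H then a ⟨σ, h⟩ else 0

theorem extH_mem {H : Subgroup GG} (a : ↥H → ZMod p) {σ : GG} (h : σ ∈ H) :
    extH a σ = a ⟨σ, h⟩ := by simp [extH, h]

theorem extH_coe {H : Subgroup GG} (a : ↥H → ZMod p) (σ : ↥H) : extH a σ = a σ :=
  extH_mem a σ.2

variable {H : Subgroup GG}

theorem mem_Z1_iff (hH : FixZ p H) {a : ↥H → ZMod p} :
    a ∈ Z1 (omRep p) H.subtype ↔ LevC H.subtype a ∧ ∀ g h, a (g * h) = a g + a h := by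
  show (_ ∧ _) ↔ _
  refine and_congr_right fun _ => forall_congr' fun g => forall_congr' fun h => ?_
  rw [omRep_apply, (fixZ_iff p).1 hH _ (show H.subtype g ∈ H from g.2), one_mul]

theorem Z1_add (hH : FixZ p H) {a : ↥H → ZMod p} (ha : a ∈ Z1 (omRep p) H.subtype) :
    ∀ σ ∈ H, ∀ τ ∈ H, extH a (σ * τ) = extH a σ + extH a τ := fun σ hσ τ hτ => by
  rw [extH_mem a hσ, extH_mem a hτ, extH_mem a (mul_mem hσ hτ)]
  exact ((mem_Z1_iff hH).1 ha).2 ⟨σ, hσ⟩ ⟨τ, hτ⟩

theorem Z1_one (hH : FixZ p H) {a : ↥H → ZMod p} (ha : a ∈ Z1 (omRep p) H.subtype) : a 1 = 0 := by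
  have h := ((mem_Z1_iff hH).1 ha).2 1 1
  rwa [one_mul, left_eq_add] at h

theorem extH_levOn {a : ↥H → ZMod p} (ha : LevC H.subtype a) : LevOn H (extH a) := by
  obtain ⟨F, hF, h⟩ := ha
  exact ⟨F, hF, fun g hg s hs hsF => by
    rw [extH_mem a hg, extH_mem a (mul_mem hg hs)]; exact h ⟨g, hg⟩ ⟨s, hs⟩ hsF⟩

/-- `δ` is a radical for the character. -/
def IsKum (a : ↥H → ZMod p) (δ : LL) : Prop :=
  ∀ σ : ↥H, (σ : GG) δ = zeta p ^ (a σ).val * δ

theorem IsKum.ext {a : ↥H → ZMod p} {δ : LL} (h : IsKum a δ) :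
    ∀ σ ∈ H, σ δ = zeta p ^ (extH a σ).val * δ := fun σ hσ => by
  rw [extH_mem a hσ]; exact h ⟨σ, hσ⟩

theorem IsKum.unique {a b : ↥H → ZMod p} {δ : LL} (hδ : δ ≠ 0) (ha : IsKum a δ) (hb : IsKum b δ) :
    a = b := funext fun σ => zeta_pow_inj p (mul_right_cancel₀ hδ ((ha σ).symm.trans (hb σ)))

theorem IsKum.mul {a b : ↥H → ZMod p} {δ ε : LL} (ha : IsKum a δ) (hb : IsKum b ε) :
    IsKum (a + b) (δ * ε) := fun σ => by
  rw [map_mul, ha σ, hb σ, Pi.add_apply, zeta_pow_val_add (zeta_spec p)]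
  ring

theorem IsKum.pow_fixed {a : ↥H → ZMod p} {δ : LL} (ha : IsKum a δ) :
    ∀ σ ∈ H, σ (δ ^ p) = δ ^ p := fun σ hσ => by
  rw [map_pow, ha ⟨σ, hσ⟩, mul_pow, ← pow_mul, mul_comm _ p, pow_mul, (zeta_spec p).pow_eq_one,
    one_pow, one_mul]

theorem IsKum.pow_eq {a : ↥H → ZMod p} {δ ε : LL} (ha : IsKum a δ) (hε : ε ^ p = δ ^ p)
    (hH : FixZ p H) : IsKum a ε := by
  rcases eq_or_ne δ 0 with rfl | hδ
  · rw [zero_pow (NeZero.ne p), pow_eq_zero_iff (NeZero.ne p)] at hε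
    subst hε
    exact fun σ => by simp
  obtain ⟨i, -, hi⟩ := (zeta_spec p).eq_pow_of_pow_eq_one (show (ε / δ) ^ p = 1 by
    rw [div_pow, hε, div_self (pow_ne_zero p hδ)])
  intro σ
  rw [eq_div_iff hδ] at hi
  rw [← hi, map_mul, map_pow, hH σ σ.2, ha σ]
  ring

theorem exists_kum (hH : FixZ p H) {a : ↥H → ZMod p} (ha : a ∈ Z1 (omRep p) H.subtype) :
    ∃ δ : LL, δ ≠ 0 ∧ IsKum a δ := by
  obtain ⟨δ, hδ, h, -⟩ := exists_kummer (zeta_spec p) hH (Z1_add hH ha) (extH_levOn ha.1)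
  exact ⟨δ, hδ, fun σ => by rw [h σ σ.2, extH_coe]⟩

theorem exists_char (hH : FixZ p H) {δ : LL} (hδ : δ ≠ 0) (hd : ∀ σ ∈ H, σ (δ ^ p) = δ ^ p) :
    ∃ a ∈ Z1 (omRep p) H.subtype, IsKum a δ := by
  obtain ⟨ψ, δ', hψ, ⟨F, hF, hlev⟩, hδ'0, hδ', hψδ⟩ :=
    exists_kummer_char (zeta_spec p) hH (pow_ne_zero p hδ) hd
  have h : IsKum (fun σ : ↥H => ψ σ) δ' := fun σ => hψδ σ σ.2
  exact ⟨_, (mem_Z1_iff hH).2 ⟨⟨F, hF, fun g s hs => hlev g g.2 s s.2 hs⟩,
    fun g h => hψ g g.2 h h.2⟩, h.pow_eq hδ'.symm hH⟩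

/-- The numbers fixed by a subgroup. -/
def fixU (H : Subgroup GG) : Subgroup LLˣ where
  carrier := {u | ∀ σ ∈ H, σ (u : LL) = u}
  one_mem' := fun σ _ => by simp
  mul_mem' := fun {a b} ha hb σ hσ => by rw [Units.val_mul, map_mul, ha σ hσ, hb σ hσ]
  inv_mem' := fun {a} ha σ hσ => by rw [Units.val_inv_eq_inv_val, map_inv₀, ha σ hσ]

theorem mem_fixU {u : LLˣ} : u ∈ fixU H ↔ ∀ σ ∈ H, σ (u : LL) = u := Iff.rfl

/-- A root of order `p`. -/
def root (p : ℕ) [Fact p.Prime] (u : LLˣ) : LL :=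
  (IsAlgClosed.exists_pow_nat_eq (u : LL) (Fact.out : p.Prime).pos).choose

theorem root_spec (u : LLˣ) : root p u ^ p = u :=
  (IsAlgClosed.exists_pow_nat_eq (u : LL) (Fact.out : p.Prime).pos).choose_spec

theorem root_ne (u : LLˣ) : root p u ≠ 0 := fun h =>
  u.ne_zero (by rw [← root_spec (p := p) u, h, zero_pow (NeZero.ne p)])

/-- The Kummer map. -/
def kum (hH : FixZ p H) : ↥(fixU H) →* Multiplicative ↥(Z1 (omRep p) H.subtype) where
  toFun u := Multiplicative.ofAdd ⟨_, (exists_char hH (root_ne (p := p) (u : LLˣ))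
    (by rw [root_spec]; exact u.2)).choose_spec.1⟩
  map_one' := by
    refine Multiplicative.toAdd.injective (Subtype.ext ?_)
    refine (exists_char hH (root_ne (p := p) ((1 : ↥(fixU H)) : LLˣ))
      (by rw [root_spec]; exact (1 : ↥(fixU H)).2)).choose_spec.2.pow_eq
      (ε := 1) ?_ hH |>.unique one_ne_zero fun σ => ?_
    · rw [root_spec]; simp
    · simp
  map_mul' u v := by
    refine Multiplicative.toAdd.injective (Subtype.ext ?_)
    have h := (exists_char hH (root_ne (p := p) (u : LLˣ))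
      (by rw [root_spec]; exact u.2)).choose_spec.2.mul (exists_char hH (root_ne (p := p) (v : LLˣ))
      (by rw [root_spec]; exact v.2)).choose_spec.2
    refine ((exists_char hH (root_ne (p := p) ((u * v : ↥(fixU H)) : LLˣ))
      (by rw [root_spec]; exact (u * v).2)).choose_spec.2.pow_eq ?_ hH).unique
      (mul_ne_zero (root_ne _) (root_ne _)) h
    rw [mul_pow, root_spec, root_spec, root_spec]
    simp

/-- The character of a number. -/
def kumC (hH : FixZ p H) (u : ↥(fixU H)) : ↥H → ZMod p :=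
  ((kum hH u).toAdd : ↥(Z1 (omRep p) H.subtype))

theorem kumC_mem (hH : FixZ p H) (u : ↥(fixU H)) : kumC hH u ∈ Z1 (omRep p) H.subtype :=
  ((kum hH u).toAdd : ↥(Z1 (omRep p) H.subtype)).2

theorem kum_spec (hH : FixZ p H) (u : ↥(fixU H)) {δ : LL} (hδ : δ ^ p = ((u : LLˣ) : LL)) :
    IsKum (kumC hH u) δ :=
  (exists_char hH (root_ne (p := p) (u : LLˣ))
    (by rw [root_spec]; exact u.2)).choose_spec.2.pow_eq (by rw [hδ, root_spec]) hH

theorem kum_surjective (hH : FixZ p H) : Function.Surjective (kum (p := p) hH) := fun a => by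
  obtain ⟨δ, hδ, h⟩ := exists_kum hH a.toAdd.2
  refine ⟨⟨Units.mk0 (δ ^ p) (pow_ne_zero p hδ), h.pow_fixed⟩, ?_⟩
  exact Multiplicative.toAdd.injective (Subtype.ext
    ((kum_spec hH ⟨Units.mk0 (δ ^ p) _, h.pow_fixed⟩ rfl).unique hδ h))

theorem kum_ker (hH : FixZ p H) :
    (kum (p := p) hH).ker = ((fixU H).map (powP LLˣ p)).subgroupOf (fixU H) := by
  ext u
  rw [MonoidHom.mem_ker, Subgroup.mem_subgroupOf]
  constructor
  · intro h
    have h0 : kumC hH u = 0 := by simp [kumC, h]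
    have hk := kum_spec hH u (root_spec (p := p) (u : LLˣ))
    rw [h0] at hk
    exact ⟨Units.mk0 _ (root_ne (p := p) (u : LLˣ)), fun σ hσ => by
      simpa using hk ⟨σ, hσ⟩, Units.ext (by simp [root_spec])⟩
  · rintro ⟨z, hz, hzu⟩
    refine Multiplicative.toAdd.injective (Subtype.ext ?_)
    refine (kum_spec hH u (δ := (z : LL)) ?_).unique z.ne_zero fun σ => ?_
    · rw [← hzu]; simp
    · simpa using hz σ σ.2

theorem kumC_eq_zero_iff (hH : FixZ p H) (u : ↥(fixU H)) :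
    kumC hH u = 0 ↔ (u : LLˣ) ∈ (fixU H).map (powP LLˣ p) := by
  rw [← Subgroup.mem_subgroupOf, ← kum_ker hH, MonoidHom.mem_ker]
  refine ⟨fun h => Multiplicative.toAdd.injective (Subtype.ext h), fun h => ?_⟩
  simp [kumC, h]

/-- The number of characters. -/
theorem card_Z1 (hH : FixZ p H) :
    Nat.card ↥(Z1 (omRep p) H.subtype) =
      ((fixU H).map (powP LLˣ p)).relIndex (fixU H) := by
  rw [Subgroup.relIndex, ← kum_ker hH, Subgroup.index_ker,
    MonoidHom.range_eq_top.2 (kum_surjective hH)]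
  exact ((Nat.card_congr Multiplicative.ofAdd).trans
    (Nat.card_congr Subgroup.topEquiv.symm.toEquiv))

end FLTAgent.PoitouTate.Field
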