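import Fermat.Agent.PoitouTate.Field.Global
import Fermat.Agent.PoitouTate.Detect

/-!
# The pairing of the characters at one place

It is perfect, and at a place away from `p` the unramified characters are their own annihilator.
-/

set_option autoImplicit false
set_option linter.style.haveILetI false
set_option linter.unusedSectionVars false

noncomputable section

open scoped Pointwise

namespace FLTAgent.PoitouTate.Field

open FLTAgent.Lowering.P1 FLTAgent.Lowering.P1.Brauer
open FLTAgent.Lowering.P1.Hasse (powP)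
open Loc (fieldUnits)

local notation "LL" => AlgebraicClosure ℚ
local notation "GG" => (AlgebraicClosure ℚ ≃ₐ[ℚ] AlgebraicClosure ℚ)
local notation "VS" => ValuationSubring (AlgebraicClosure ℚ)
local notation "Dec" => ValuationSubring.decompositionSubgroup ℚ

variable (p : ℕ) [Fact p.Prime]

/-- The trivial representation. -/
def trivRep : Representation (ZMod p) GG (ZMod p) := 1

/-- The pairing of the cyclotomic line with the trivial one. -/
def mulPair : DualPair (omRep p) (trivRep p) where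
  e := LinearMap.mul (ZMod p) (ZMod p)
  equivariant g a b := by
    show (omRep p g a) * b = om p g * (a * b)
    rw [omRep_apply, mul_assoc]
  left a h := by simpa using h 1
  right b h := by simpa using h 1

theorem trivRep_apply (g : GG) (x : ZMod p) : trivRep p g x = x := rfl

theorem smooth_triv : Smooth (trivRep p) := ⟨⊥, inferInstance, fun _ _ => rfl⟩

variable {p}

/-- The product of two characters as a two cochain. -/
def cupM {H : Subgroup GG} (a b : ↥H → ZMod p) (g h : ↥H) : ZMod p := a g * b h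

variable {H : Subgroup GG}

theorem cup_eq (hH : FixZ p H) (a b : ↥H → ZMod p) :
    cup H.subtype (LinearMap.mul (ZMod p) (ZMod p)) (omRep p) a b = cupM a b := by
  funext g h
  show a g * omRep p (g : GG) (b h) = _
  rw [omRep_apply, (fixZ_iff p).1 hH _ g.2, one_mul]
  rfl

theorem cup_mulPair (a b : ↥H → ZMod p) :
    cup H.subtype (mulPair p).e (trivRep p) a b = cupM a b := rfl

theorem mem_Z1_triv (hH : FixZ p H) {a : ↥H → ZMod p} :
    a ∈ Z1 (trivRep p) H.subtype ↔ a ∈ Z1 (omRep p) H.subtype :=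
  Iff.trans Iff.rfl (mem_Z1_iff hH).symm

theorem cupM_mem (hH : FixZ p H) {a b : ↥H → ZMod p} (ha : a ∈ Z1 (omRep p) H.subtype)
    (hb : b ∈ Z1 (omRep p) H.subtype) : cupM a b ∈ Z2 (omRep p) H.subtype :=
  cup_mem_Z2 (mulPair p) (smooth_triv p) ha ((mem_Z1_triv hH).2 hb)

variable (hp2 : p ≠ 2) {l : ℕ} {V : VS} (hl : l.Prime) (hV : V.LiesOverPrime l)
  (hH : FixZ p H) (hloc : LocalSub V H)

/-- The pairing. -/
def pairV : ↥(Z1 (omRep p) H.subtype) →ₗ[ZMod p] ↥(Z1 (omRep p) H.subtype) →ₗ[ZMod p] ZMod p :=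
  LinearMap.mk₂ (ZMod p) (fun a b => invLin hp2 hl hV hloc ⟨_, cupM_mem hH a.2 b.2⟩)
    (fun a a' b => by
      rw [← map_add]
      exact congrArg _ (Subtype.ext (funext fun g => funext fun h => by simp [cupM, add_mul])))
    (fun r a b => by
      rw [← map_smul]
      exact congrArg _ (Subtype.ext (funext fun g => funext fun h => by simp [cupM, mul_assoc])))
    (fun a b b' => by
      rw [← map_add]
      exact congrArg _ (Subtype.ext (funext fun g => funext fun h => by simp [cupM, mul_add])))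
    fun r a b => by
      rw [← map_smul]
      exact congrArg _ (Subtype.ext (funext fun g => funext fun h => by simp [cupM, mul_left_comm]))

theorem pairV_apply (a b : ↥(Z1 (omRep p) H.subtype)) :
    pairV hp2 hl hV hH hloc a b = invL p V H (cupM a.1 b.1) := rfl

theorem pairV_swap (a b : ↥(Z1 (omRep p) H.subtype)) :
    pairV hp2 hl hV hH hloc b a = -pairV hp2 hl hV hH hloc a b := by
  have h := invL_swap (mulPair p) hp2 hl hV hloc smooth_om (smooth_triv p) a.2
    ((mem_Z1_triv hH).2 b.2)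
  rw [cup_mulPair] at h
  refine Eq.trans (congrArg (invL p V H) ?_) h
  funext g h
  show b.1 g * a.1 h = (omRep p (g : GG) (a.1 h)) * b.1 g
  rw [omRep_apply, (fixZ_iff p).1 hH _ g.2, one_mul, mul_comm]

/-- The pairing is perfect. -/
theorem pairV_nondeg (a : ↥(Z1 (omRep p) H.subtype))
    (h : ∀ b, pairV hp2 hl hV hH hloc a b = 0) : a = 0 := by
  by_contra ha
  have hne : ∃ σ ∈ H, extH a.1 σ ≠ 0 := by
    by_contra hall
    push Not at hall
    exact ha (Subtype.ext (funext fun σ => by rw [← extH_coe a.1 σ]; exact hall σ σ.2))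
  let χ := CycChar.ofNe (Z1_add hH a.2) (extH_levOn a.2.1) hne
  obtain ⟨b₀, hb₀, hb₀H, hnot, -⟩ := normIndex_of_local targetLocal hl hV (zeta_spec p) hH hloc χ
  obtain ⟨δ, hδ⟩ := IsAlgClosed.exists_pow_nat_eq b₀ (Fact.out : p.Prime).pos
  have hδ0 : δ ≠ 0 := fun e => hb₀ (by rw [← hδ, e, zero_pow (NeZero.ne p)])
  obtain ⟨b, hb, hk⟩ := exists_char hH hδ0 (by rw [hδ]; exact hb₀H)
  have h0 : invL p V H (cupM b a.1) = 0 := by
    rw [← pairV_apply hp2 hl hV hH hloc ⟨b, hb⟩ a, pairV_swap, h, neg_zero]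
  have h1 := cob_expC (mem_B2_of_invL_eq_zero hl hV hp2 hloc (cupM_mem hH hb a.2) h0)
  have h2 := cob_cup_mul_symR (φ := extH b) (zeta_spec p) (Z1_add hH a.2) (extH_levOn a.2.1) hδ0
    hk.ext
  rw [hδ] at h2
  refine hnot (χ.norm_of_cob_sym ((h2.mul h1.inv).congr fun σ hσ τ hτ => ?_))
  rw [expC_of_mem _ hσ hτ, χ.sym_eq]
  show symR p (extH a.1) b₀ σ τ = _
  simp only [cupM, extH_mem b hσ, extH_mem a.1 hτ]
  rw [mul_right_comm, mul_inv_cancel₀ (pow_ne_zero _ (zeta_ne p)), one_mul]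

theorem pairV_nondeg_right (b : ↥(Z1 (omRep p) H.subtype))
    (h : ∀ a, pairV hp2 hl hV hH hloc a b = 0) : b = 0 :=
  pairV_nondeg hp2 hl hV hH hloc b fun a => by rw [pairV_swap, h, neg_zero]

variable (V) in
/-- The characters trivial on inertia. -/
def unr (H : Subgroup GG) : Submodule (ZMod p) ↥(Z1 (omRep p) H.subtype) where
  carrier := {a | ∀ σ : ↥H, (σ : GG) ∈ V.inertiaSubgroupIn ℚ → a.1 σ = 0}
  zero_mem' := fun σ _ => rfl
  add_mem' := fun {a b} ha hb σ hσ => by
    show a.1 σ + b.1 σ = 0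
    rw [ha σ hσ, hb σ hσ, add_zero]
  smul_mem' := fun r a ha σ hσ => by
    show r * a.1 σ = 0
    rw [ha σ hσ, mul_zero]

theorem pairV_unr {a b : ↥(Z1 (omRep p) H.subtype)} (ha : a ∈ unr V H) (hb : b ∈ unr V H) :
    pairV hp2 hl hV hH hloc a b = 0 := by
  refine invL_B2 hp2 hl hV hloc (mem_B2_of_cob ?_)
  have hc := cupM_mem hH a.2 b.2
  refine cob_of_unramified (p := p) targetLocal hl hV hloc (coc_expC hc) (fun σ hσ τ hτ => ?_)
    (fun σ hσ => ?_) fun g hg h hh σ hσ => ?_
  · rw [expC_of_mem _ hσ hτ, ← pow_mul, mul_comm, pow_mul, (zeta_spec p).pow_eq_one, one_pow]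
  · rw [expC_of_mem _ (one_mem H) (one_mem H), map_pow, hH σ (Subgroup.mem_inf.1 hσ).1]
  · obtain ⟨hσH, hσI⟩ := Subgroup.mem_inf.1 hσ
    have key : ∀ {c : ↥(Z1 (omRep p) H.subtype)}, c ∈ unr V H → ∀ x : ↥H,
        c.1 (x * ⟨σ, hσH⟩) = c.1 x := fun {c} hc x => by
      rw [((mem_Z1_iff hH).1 c.2).2, hc ⟨σ, hσH⟩ hσI, add_zero]
    rw [expC_of_mem _ (mul_mem hg hσH) hh, expC_of_mem _ hg hh, expC_of_mem _ hg (mul_mem hh hσH)]
    refine ⟨congrArg (fun x : ZMod p => zeta p ^ x.val) ?_,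
      congrArg (fun x : ZMod p => zeta p ^ x.val) ?_⟩
    · exact congrArg (· * b.1 ⟨h, hh⟩) (key ha ⟨g, hg⟩)
    · exact congrArg (a.1 ⟨g, hg⟩ * ·) (key hb ⟨h, hh⟩)

variable {S : Finset Nat.Primes} (F : SField p S)

theorem fieldUnits_eq (V : VS) : fixU (F.Hw V) = fieldUnits F.K V :=
  SetLike.ext fun _ => Loc.mem_localField.symm

theorem card_local {l : ℕ} (hl : l.Prime) {V : VS} (hV : V.LiesOverPrime l) :
    Nat.card ↥(Z1 (omRep p) (F.Hw V).subtype) =
      p ^ (2 + if l = p then F.N.relIndex (Dec V) else 0) := by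
  haveI := F.fd
  rw [card_Z1 (fixH F V), fieldUnits_eq]
  exact Loc.relIndex_pow_fieldUnits hl hV p F.K
    ⟨zeta p, mem_of_galOf_fixed (fixN F), zeta_spec p⟩

theorem finite_local {l : ℕ} (hl : l.Prime) {V : VS} (hV : V.LiesOverPrime l) :
    Finite ↥(Z1 (omRep p) (F.Hw V).subtype) :=
  Nat.finite_of_card_ne_zero (by rw [card_local F hl hV]; exact pow_ne_zero _ (NeZero.ne p))

theorem finrank_local {l : ℕ} (hl : l.Prime) {V : VS} (hV : V.LiesOverPrime l) :
    Module.finrank (ZMod p) ↥(Z1 (omRep p) (F.Hw V).subtype) =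
      2 + if l = p then F.N.relIndex (Dec V) else 0 := by
  haveI := finite_local F hl hV
  refine Nat.pow_right_injective (Fact.out : p.Prime).two_le ?_
  beta_reduce
  rw [← card_local F hl hV, Module.natCard_eq_pow_finrank (K := ZMod p), Nat.card_zmod]

/-- An unramified character which is not zero. -/
theorem exists_unr_ne_zero {l : ℕ} (hl : l.Prime) {V : VS} (hV : V.LiesOverPrime l) :
    ∃ a ∈ unr V (F.Hw V), a ≠ (0 : ↥(Z1 (omRep p) (F.Hw V).subtype)) := by
  haveI := F.fd
  obtain ⟨χ, ⟨E, hE, hlev⟩, hadd, hI, hsurj⟩ := targetLocal.unramified p F.K F.fd l V hl hV 1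
  set e := ZMod.ringEquivCongr (pow_one p)
  refine ⟨⟨fun σ => e (χ σ), (mem_Z1_iff (fixH F V)).2
    ⟨⟨E, hE, fun g s hs => congrArg e (hlev (g : GG) s hs)⟩,
      fun g h => by
        show e (χ ((g : GG) * h)) = _
        rw [hadd g g.2 h h.2, map_add]⟩⟩, fun σ hσ => ?_, fun h0 => ?_⟩
  · show e (χ σ) = 0
    rw [hI σ ⟨(Subgroup.mem_inf.1 σ.2).1, hσ⟩, map_zero]
  · obtain ⟨σ, hσ, h1⟩ := hsurj 1
    have h2 : e (χ σ) = 0 := congrFun (congrArg Subtype.val h0) ⟨σ, hσ⟩
    rw [h1, map_one] at h2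
    exact one_ne_zero h2

/-- Away from `p` the unramified characters are their own annihilator. -/
theorem mem_unr_of_perp {l : ℕ} (hl : l.Prime) (hlp : l ≠ p) {V : VS} (hV : V.LiesOverPrime l)
    {b : ↥(Z1 (omRep p) (F.Hw V).subtype)}
    (h : ∀ a ∈ unr V (F.Hw V),
      pairV hp2 hl hV (fixH F V) (localSub_Hw F V) a b = 0) : b ∈ unr V (F.Hw V) := by
  haveI := finite_local F hl hV
  set B := pairV hp2 hl hV (fixH F V) (localSub_Hw F V)
  obtain ⟨a, ha, ha0⟩ := exists_unr_ne_zero F hl hV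
  by_contra hb
  refine ha0 (pairV_nondeg hp2 hl hV (fixH F V) (localSub_Hw F V) a fun c => ?_)
  have h2 : Module.finrank (ZMod p) ↥(Z1 (omRep p) (F.Hw V).subtype) = 2 := by
    rw [finrank_local F hl hV, if_neg hlp]
  have hli : LinearIndependent (ZMod p) ![a, b] :=
    (LinearIndependent.pair_iff' ha0).2 fun r e => hb (e ▸ Submodule.smul_mem _ r ha)
  have hspan : Submodule.span (ZMod p) (Set.range ![a, b]) = ⊤ :=
    hli.span_eq_top_of_card_eq_finrank (by rw [h2, Fintype.card_fin])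
  have hker : Submodule.span (ZMod p) (Set.range ![a, b]) ≤ LinearMap.ker (B a) := by
    rw [Submodule.span_le, Matrix.range_cons_cons_empty]
    rintro x (rfl | rfl)
    · exact pairV_unr hp2 hl hV (fixH F V) (localSub_Hw F V) ha ha
    · exact h a ha
  exact (hspan ▸ hker) (Submodule.mem_top (x := c))

end FLTAgent.PoitouTate.Field
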