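import Fermat.Agent.PoitouTate.Field.Local
import Fermat.Agent.PoitouTate.Field.Big

/-!
# The image of the global characters in the local ones

It is isotropic by reciprocity, and its own annihilator for a large system of places.
-/

set_option autoImplicit false
set_option linter.style.haveILetI false
set_option linter.unusedSectionVars false
set_option maxHeartbeats 1000000

noncomputable section

open scoped Pointwise

namespace FLTAgent.PoitouTate.Field

open FLTAgent.Lowering.P1 FLTAgent.Lowering.P1.Brauer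
open FLTAgent.Lowering.P1.Hasse (InOrbit IsPlaces Gen)

local notation "LL" => AlgebraicClosure ℚ
local notation "GG" => (AlgebraicClosure ℚ ≃ₐ[ℚ] AlgebraicClosure ℚ)
local notation "VS" => ValuationSubring (AlgebraicClosure ℚ)
local notation "Dec" => ValuationSubring.decompositionSubgroup ℚ

variable {p : ℕ} [Fact p.Prime] {S : Finset Nat.Primes} (F : SField p S)

/-- The restriction of a character to a place. -/
def resV (V : VS) : ↥(Z1 (omRep p) F.N.subtype) →ₗ[ZMod p] ↥(Z1 (omRep p) (F.Hw V).subtype) :=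
  ((res1 (p := p) (F.incl V)).comp (Z1 (omRep p) F.N.subtype).subtype).codRestrict _
    fun a => res1_mem_local F a.2 V

/-- The local characters at a finite set of places. -/
abbrev LocW (R : Finset VS) : Type := (w : ↥R) → ↥(Z1 (omRep p) (F.Hw (w : VS)).subtype)

/-- The restrictions to a finite set of places. -/
def locR (R : Finset VS) : ↥(Z1S (omRep p) F.N.subtype S) →ₗ[ZMod p] LocW F R :=
  LinearMap.pi fun w => (resV F (w : VS)).comp (Submodule.inclusion inf_le_left)

theorem locR_apply (R : Finset VS) (a : ↥(Z1S (omRep p) F.N.subtype S)) (w : ↥R) :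
    (locR F R a w).1 = res1 (p := p) (F.incl (w : VS)) a.1 := rfl

variable (hp2 : p ≠ 2)

include hp2 in
theorem three_lt : 2 < p := lt_of_le_of_ne (Fact.out : p.Prime).two_le (Ne.symm hp2)

/-- The sum of the local pairings. -/
def pairR {R : Finset VS} (hR : Loc.OverPrimes R) : LinearMap.BilinForm (ZMod p) (LocW F R) :=
  ∑ w : ↥R, (pairV hp2 (hR w w.2).choose_spec.1 (hR w w.2).choose_spec.2
    (fixH F (w : VS)) (localSub_Hw F (w : VS))).compl₁₂ (LinearMap.proj w) (LinearMap.proj w)

variable {R : Finset VS} (hlies : Loc.OverPrimes R)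

theorem pairR_apply (x y : LocW F R) :
    pairR F hp2 hlies x y = ∑ w : ↥R, invL p w (F.Hw w) (cupM (x w).1 (y w).1) := by
  simp only [pairR, LinearMap.sum_apply, LinearMap.compl₁₂_apply, LinearMap.proj_apply]
  rfl

theorem pairR_swap (x y : LocW F R) : pairR F hp2 hlies y x = -pairR F hp2 hlies x y := by
  rw [pairR_apply, pairR_apply, ← Finset.sum_neg_distrib]
  exact Finset.sum_congr rfl fun w _ => pairV_swap hp2 (hlies w w.2).choose_spec.1
    (hlies w w.2).choose_spec.2 (fixH F (w : VS)) (localSub_Hw F (w : VS)) (x w) (y w)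

theorem pairR_single [DecidableEq ↥R] (x : LocW F R) (w : ↥R)
    (c : ↥(Z1 (omRep p) (F.Hw (w : VS)).subtype)) :
    pairR F hp2 hlies x (Pi.single w c) = invL p w (F.Hw w) (cupM (x w).1 c.1) := by
  rw [pairR_apply, Finset.sum_eq_single w (fun v _ hv => ?_)
    (fun h => absurd (Finset.mem_univ w) h), Pi.single_eq_same]
  rw [Pi.single_eq_of_ne hv, ← pairV_apply hp2 (hlies v v.2).choose_spec.1
    (hlies v v.2).choose_spec.2 (fixH F (v : VS)) (localSub_Hw F (v : VS)), map_zero]

theorem pairR_isRefl : (pairR F hp2 hlies).IsRefl := fun x y h => by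
  rw [pairR_swap, h, neg_zero]

theorem pairR_nondeg : (pairR F hp2 hlies).Nondegenerate := by
  classical
  have hl : LinearMap.SeparatingLeft (pairR F hp2 hlies) := fun x h => funext fun w =>
    pairV_nondeg hp2 (hlies w w.2).choose_spec.1 (hlies w w.2).choose_spec.2 (fixH F (w : VS))
      (localSub_Hw F (w : VS)) (x w) fun c => by
        rw [pairV_apply, ← pairR_single F hp2 hlies, h]
  exact ⟨hl, fun y h => hl y fun x => by rw [pairR_swap, h, neg_zero]⟩

include hlies in
theorem finite_locW : FiniteDimensional (ZMod p) (LocW F R) := by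
  haveI : ∀ w : ↥R, Finite ↥(Z1 (omRep p) (F.Hw (w : VS)).subtype) := fun w =>
    finite_local F (hlies w w.2).choose_spec.1 (hlies w w.2).choose_spec.2
  exact Module.Finite.of_finite

variable {F}

theorem finrank_locW (hR : SPlaces F R) (hpS : ExtCitation.pPrime p ∈ S) :
    Module.finrank (ZMod p) (LocW F R) = 2 * R.card + Module.finrank ℚ F.K := by
  classical
  haveI := F.fd
  haveI : ∀ w : ↥R, Finite ↥(Z1 (omRep p) (F.Hw (w : VS)).subtype) := fun w =>
    finite_local F (hR.places.lies w w.2).choose_spec.1 (hR.places.lies w w.2).choose_spec.2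
  rw [Module.finrank_pi_fintype, Finset.sum_congr rfl fun w : ↥R => fun _ =>
    (finrank_local F (hR.places.lies w w.2).choose_spec.1 (hR.places.lies w w.2).choose_spec.2 :
      Module.finrank (ZMod p) ↥(Z1 (omRep p) (F.Hw (w : VS)).subtype) = _), Finset.sum_add_distrib,
    Finset.sum_const, Finset.card_univ, Fintype.card_coe, smul_eq_mul, mul_comm R.card]
  congr 1
  rw [← Hasse.sum_local_degree F.K hR.places (Fact.out : p.Prime) (fun V hV =>
      (hR.iff p V Fact.out hV).2 ⟨_, hpS, rfl⟩)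
      (Rl := R.filter fun V => V.LiesOverPrime p) (fun V => Finset.mem_filter),
    Finset.sum_filter, ← Finset.sum_coe_sort R]
  refine Finset.sum_congr rfl fun w _ => ?_
  obtain ⟨hl, hV⟩ := (hR.places.lies w w.2).choose_spec
  by_cases h : (w : VS).LiesOverPrime p
  · rw [if_pos h, if_pos (Hasse.prime_unique hl Fact.out hV h)]
    rfl
  · rw [if_neg h, if_neg fun (e : (hR.places.lies w w.2).choose = p) => h (e ▸ hV)]

variable (F) in
/-- The cup product is inverse to the symbol. -/
theorem cob_cup_sym {a b : ↥F.N → ZMod p} (ha : a ∈ Z1 (omRep p) F.N.subtype)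
    (χ : CycChar (galOf F.K) p) (hχ : χ.ψ = extH a) {δ : LL} (hδ : δ ≠ 0) (hk : IsKum b δ)
    (V : VS) : Cob (F.Hw V) (fun σ τ => expCochain (zeta p) (F.Hw V)
      (cupM (res1 (p := p) (F.incl V) b) (res1 (p := p) (F.incl V) a)) σ τ *
        χ.sym (δ ^ p) σ τ) := by
  refine (cob_cup_mul_symR (φ := extH b) (zeta_spec p)
    (fun σ hσ τ hτ => Z1_add (fixN F) ha σ (Subgroup.mem_inf.1 hσ).1 τ (Subgroup.mem_inf.1 hτ).1)
    ((extH_levOn ha.1).mono inf_le_left) hδ
    fun σ hσ => hk.ext σ (Subgroup.mem_inf.1 hσ).1).congr fun σ hσ τ hτ => ?_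
  rw [expC_of_mem _ hσ hτ, χ.sym_eq, hχ, extH_mem b (Subgroup.mem_inf.1 hσ).1,
    extH_mem a (Subgroup.mem_inf.1 hτ).1]
  rfl

variable (F) in
include hp2 in
theorem invL_cup_eq_theta {a b : ↥F.N → ZMod p} (ha : a ∈ Z1 (omRep p) F.N.subtype)
    (hb : b ∈ Z1 (omRep p) F.N.subtype) (χ : CycChar (galOf F.K) p) (hχ : χ.ψ = extH a)
    {δ : LL} (hδ : δ ≠ 0) (hk : IsKum b δ) {l : ℕ} {V : VS} (hl : l.Prime)
    (hV : V.LiesOverPrime l) : invL p V (F.Hw V)
      (cupM (res1 (p := p) (F.incl V) b) (res1 (p := p) (F.incl V) a)) =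
        -theta (Layer.layer hp2) χ V (δ ^ p) := by
  haveI := F.fd
  have hd0 : δ ^ p ≠ 0 := pow_ne_zero _ hδ
  have hdK : δ ^ p ∈ F.K := mem_of_galOf_fixed hk.pow_fixed
  have hc := cupM_mem (fixH F V) (res1_mem_local F hb V) (res1_mem_local F ha V)
  have h := invH_of_cob (Layer.layer hp2) hl hV (localSub_Hw F V) (cob_cup_sym F ha χ hχ hδ hk V)
  rw [invH_mul (Layer.layer hp2) hl hV targetLocal hp2 (localSub_Hw F V) (coc_expC hc) (expC_pow _)
    (coc_local χ hd0 hdK V) (tor_local χ hd0 hdK V)] at h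
  rw [invL_eq hp2]
  exact eq_neg_of_add_eq_zero_left h

variable (F) in
include hp2 in
/-- Off the system the products of global characters are trivial, and the invariants add up. -/
theorem sum_pair_eq_zero (hR : SPlaces F R) {a b : ↥F.N → ZMod p}
    (ha : a ∈ Z1S (omRep p) F.N.subtype S) (hb : b ∈ Z1S (omRep p) F.N.subtype S) :
    ∑ w ∈ R, invL p w (F.Hw w)
      (cupM (res1 (p := p) (F.incl w) b) (res1 (p := p) (F.incl w) a)) = 0 := by
  classical
  haveI := F.fd
  have hp3 := three_lt (p := p) hp2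
  by_cases hne : ∃ σ ∈ F.N, extH a σ ≠ 0
  swap
  · push Not at hne
    refine Finset.sum_eq_zero fun w hw => ?_
    obtain ⟨l, hl, hV⟩ := hR.places.lies w hw
    refine invL_B2 hp2 hl hV (localSub_Hw F w) ?_
    convert Submodule.zero_mem _ using 1
    funext g h
    show _ * a (F.incl w h) = 0
    rw [← extH_coe a, hne _ (F.incl w h).2, mul_zero]
  let Y : CycloLayer p := Layer.layer hp2
  let χ : CycChar (galOf F.K) p := CycChar.ofNe (Z1_add (fixN F) ha.1) (extH_levOn ha.1.1) hne
  obtain ⟨δ, hδ, hk⟩ := exists_kum (fixN F) hb.1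
  have hd0 : δ ^ p ≠ 0 := pow_ne_zero _ hδ
  have hdK : δ ^ p ∈ F.K := mem_of_galOf_fixed hk.pow_fixed
  obtain ⟨K', -, hK'⟩ := exists_field_of_open (χ.openIn.trans (open_top_of_field F.K))
  have hrel : ∀ V : VS, Cob (F.Hw V) (fun σ τ => expCochain (zeta p) (F.Hw V)
      (cupM (res1 (p := p) (F.incl V) b) (res1 (p := p) (F.incl V) a)) σ τ *
        χ.sym (δ ^ p) σ τ) := cob_cup_sym F ha.1 χ rfl hδ hk
  have htheta : ∀ {l : ℕ} {V : VS}, l.Prime → V.LiesOverPrime l → invL p V (F.Hw V)
      (cupM (res1 (p := p) (F.incl V) b) (res1 (p := p) (F.incl V) a)) =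
        -theta Y χ V (δ ^ p) := fun hl hV => invL_cup_eq_theta F hp2 ha.1 hb.1 χ rfl hδ hk hl hV
  rw [Finset.sum_congr rfl fun w hw => htheta (hR.places.lies w hw).choose_spec.1
    (hR.places.lies w hw).choose_spec.2, Finset.sum_neg_distrib, neg_eq_zero]
  refine theta_sum targetLocal hp3 Y χ Hasse.targetNormTheorem hK' hdK hd0 R hR.places.lies
    (fun V hV W hW σ hσ e => hR.places.inj V hV W hW ⟨σ, hσ, e⟩) fun l V hl hV hn => ?_
  by_contra hno
  have hout : OutS S l := (inOrbit_iff F hR hl hV).1 fun ⟨W, hW, σ, hσ, e⟩ =>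
    hno ⟨σ⁻¹, inv_mem hσ, by rwa [← e, inv_smul_smul]⟩
  refine hn ((isNormOn_iff_cob χ hK' hd0 hdK V).2 ?_)
  have hu : ∀ {c : ↥F.N → ZMod p} (hc : c ∈ Z1S (omRep p) F.N.subtype S),
      (⟨_, res1_mem_local F hc.1 V⟩ : ↥(Z1 (omRep p) (F.Hw V).subtype)) ∈ unr V (F.Hw V) :=
    fun {c} hc σ hσ => ((mem_Z1S_iff F).1 hc).2 l V hout hV (F.incl V σ) hσ
  have hc := cupM_mem (fixH F V) (res1_mem_local F hb.1 V) (res1_mem_local F ha.1 V)
  have h0 := cob_expC (mem_B2_of_invL_eq_zero hl hV hp2 (localSub_Hw F V) hc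
    (pairV_unr hp2 hl hV (fixH F V) (localSub_Hw F V) (hu hb) (hu ha)))
  refine ((hrel V).mul h0.inv).congr fun σ hσ τ hτ => ?_
  rw [mul_right_comm, mul_inv_cancel₀, one_mul]
  rw [expC_of_mem _ hσ hτ]
  exact pow_ne_zero _ (zeta_ne p)

theorem locR_isotropic (hR : SPlaces F R) {x y : LocW F R} (hx : x ∈ LinearMap.range (locR F R))
    (hy : y ∈ LinearMap.range (locR F R)) : pairR F hp2 hR.places.lies x y = 0 := by
  obtain ⟨b, rfl⟩ := hx
  obtain ⟨a, rfl⟩ := hy
  rw [pairR_apply]
  exact (Finset.sum_coe_sort R fun w => invL p w (F.Hw w)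
    (cupM (res1 (p := p) (F.incl w) b.1) (res1 (p := p) (F.incl w) a.1))).trans
      (sum_pair_eq_zero F hp2 hR a.2 b.2)

include hp2 in
/-- The image has at most half the dimension. -/
theorem finrank_range_le (hR : SPlaces F R) (hpS : ExtCitation.pPrime p ∈ S) :
    Module.finrank (ZMod p) ↥(LinearMap.range (locR F R)) ≤
      R.card + Module.finrank ℚ F.K / 2 := by
  haveI := finite_locW F hR.places.lies
  set B := pairR F hp2 hR.places.lies
  have h1 := Submodule.finrank_mono (show LinearMap.range (locR F R) ≤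
    B.orthogonal (LinearMap.range (locR F R)) from fun x hx n hn =>
      locR_isotropic hp2 hR hn hx)
  rw [LinearMap.BilinForm.finrank_orthogonal (pairR_nondeg F hp2 _), finrank_locW hR hpS] at h1
  have h2 := (finrank_even F (three_lt hp2)).1
  omega

variable {S' : Finset Nat.Primes} {R' : Finset VS}

/-- For a large system the image is its own annihilator. -/
theorem range_eq_orthogonal {hR : SPlaces F R} (hB : Big F hR S' R')
    (hpS : ExtCitation.pPrime p ∈ S) :
    (pairR (mono F hB.sub) hp2 hB.places.places.lies).orthogonal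
        (LinearMap.range (locR (mono F hB.sub) R')) =
      LinearMap.range (locR (mono F hB.sub) R') := by
  have hp3 := three_lt (p := p) hp2
  haveI := finite_locW (mono F hB.sub) hB.places.places.lies
  have hinj : Function.Injective (locR (mono F hB.sub) R') :=
    (injective_iff_map_eq_zero (locR (mono F hB.sub) R')).2 fun a ha => Subtype.ext
      (hB.inj a.1 a.2 fun w hw => congrArg Subtype.val (congrFun ha ⟨w, hw⟩))
  refine (Submodule.eq_of_le_of_finrank_le (show LinearMap.range (locR (mono F hB.sub) R') ≤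
    (pairR (mono F hB.sub) hp2 hB.places.places.lies).orthogonal
      (LinearMap.range (locR (mono F hB.sub) R')) from fun x hx n hn =>
    locR_isotropic hp2 hB.places hn hx) ?_).symm
  rw [LinearMap.BilinForm.finrank_orthogonal (pairR_nondeg _ hp2 _),
    finrank_locW hB.places (hB.sub hpS), LinearMap.finrank_range_of_inj hinj]
  have h1 := finrank_Z1S (mono F hB.sub) hB.places (hB.sub hpS) hB.gen hp3
  have h2 := (finrank_even (mono F hB.sub) hp3).1
  omega

/-- Unramified at the new places means unramified outside the old set. -/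
theorem mem_Z1S_of_unr {hR : SPlaces F R} (hB : Big F hR S' R') {a : ↥F.N → ZMod p}
    (ha : a ∈ Z1S (omRep p) F.N.subtype S')
    (hT : ∀ w ∈ R', w ∉ R → ∀ σ : ↥(F.Hw w), (σ : GG) ∈ w.inertiaSubgroupIn ℚ →
      a (F.incl w σ) = 0) : a ∈ Z1S (omRep p) F.N.subtype S := by
  refine (mem_Z1S_iff F).2 ⟨ha.1, fun l V hl hV σ hσ => ?_⟩
  by_cases hlS : (⟨l, hl.1⟩ : Nat.Primes) ∈ S'
  · obtain ⟨W, hW, g, hg, rfl⟩ := (hB.places.iff l V hl.1 hV).2 ⟨_, hlS, rfl⟩
    have hWR : W ∉ R := fun h => (inOrbit_iff F hR hl.1 hV).2 hl ⟨W, h, g, hg, rfl⟩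
    have h1 : g⁻¹ * σ * g ∈ W.inertiaSubgroupIn ℚ := by
      have h1 := Places.conj_mem_inertia (g • W) hσ g⁻¹
      rwa [inv_smul_smul, inv_inv] at h1
    have h2 : g⁻¹ * σ * g ∈ F.N := mul_mem (mul_mem (inv_mem hg) σ.2) hg
    have h3 := apply_conj F ha.1 hg h2
    rw [show a ⟨g⁻¹ * σ * g, h2⟩ = 0 from hT W hW hWR
      ⟨g⁻¹ * σ * g, Subgroup.mem_inf.2 ⟨h2, Places.inertia_le_decomposition W h1⟩⟩ h1] at h3
    exact (congrArg a (Subtype.ext (show (σ : GG) = g * (g⁻¹ * σ * g) * g⁻¹ by group))).trans h3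
  · exact ((mem_Z1S_iff (mono F hB.sub)).1 ha).2 l V
      ⟨hl.1, fun q hq e => hlS (by subst e; exact hq)⟩ hV σ hσ

include hp2 in
/-- A family orthogonal to the global characters is global. -/
theorem middle_of (hR : SPlaces F R) (hpS : ExtCitation.pPrime p ∈ S) (r : LocW F R)
    (hr : ∀ a, pairR F hp2 hR.places.lies (locR F R a) r = 0) : ∃ b, locR F R b = r := by
  classical
  obtain ⟨S', R', -, hB⟩ := exists_big F hR hpS (three_lt hp2) ∅
  set F' := mono F hB.sub
  haveI := finite_locW F' hB.places.places.lies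
  set B := pairR F' hp2 hB.places.places.lies with hBdef
  let M : Submodule (ZMod p) (LocW F' R') :=
    ⨅ w : ↥R', ⨅ _ : (w : VS) ∉ R, (unr (w : VS) (F.Hw (w : VS))).comap (LinearMap.proj w)
  have hM : ∀ {x : LocW F' R'},
      x ∈ M ↔ ∀ w : ↥R', (w : VS) ∉ R → x w ∈ unr (w : VS) (F.Hw (w : VS)) := by
    intro x
    simp only [M, Submodule.mem_iInf, Submodule.mem_comap, LinearMap.proj_apply]
    exact Iff.rfl
  have houtT : ∀ w : ↥R', (w : VS) ∉ R → ∃ l, OutS S l ∧ (w : VS).LiesOverPrime l := fun w hw => by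
    obtain ⟨l, hl, hV⟩ := hB.places.places.lies w w.2
    refine ⟨l, (inOrbit_iff F hR hl hV).1 fun ⟨U, hU, h⟩ => hw ?_, hV⟩
    exact (hB.places.places.inj U (hB.subR hU) w w.2 h) ▸ hU
  set r' : LocW F' R' := fun w => if h : (w : VS) ∈ R then r ⟨w, h⟩ else 0 with hr'
  have hperp : ∀ x ∈ LinearMap.range (locR F' R') ⊓ M, B x r' = 0 := by
    rintro _ ⟨⟨a, rfl⟩, ha⟩
    have hT := hM.1 ha
    have haS : a.1 ∈ Z1S (omRep p) F.N.subtype S :=
      mem_Z1S_of_unr hB a.2 fun w hw hwR => hT ⟨w, hw⟩ hwR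
    let g : VS → ZMod p := fun w => if h : w ∈ R then
      invL p w (F.Hw w) (cupM (res1 (p := p) (F.incl w) a.1) (r ⟨w, h⟩).1) else 0
    have h0 : ∑ w : ↥R, g w = 0 := by
      refine Eq.trans ?_ (hr ⟨a.1, haS⟩)
      rw [pairR_apply]
      exact Finset.sum_congr rfl fun w _ => dif_pos w.2
    rw [hBdef, pairR_apply]
    refine Eq.trans (Finset.sum_congr rfl fun w _ => ?_) (h0 ▸ ((Finset.sum_coe_sort R' g).trans
      ((Finset.sum_subset hB.subR fun x _ hx => dif_neg hx).symm.trans
        (Finset.sum_coe_sort R g).symm)))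
    by_cases h : (w : VS) ∈ R
    · show invL p w (F.Hw w) (cupM (res1 (p := p) (F.incl w) a.1) (r' w).1) = g w
      simp only [g, hr', dif_pos h]
    · show invL p w (F.Hw w) (cupM (res1 (p := p) (F.incl w) a.1) (r' w).1) = g w
      simp only [g, hr', dif_neg h]
      refine invL_B2 hp2 (hB.places.places.lies w w.2).choose_spec.1
        (hB.places.places.lies w w.2).choose_spec.2 (localSub_Hw F (w : VS)) ?_
      convert Submodule.zero_mem _ using 1
      funext x y
      exact mul_zero _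
  have hY : r' ∈ LinearMap.range (locR F' R') ⊔ B.orthogonal M := by
    have h1 : r' ∈ B.orthogonal (LinearMap.range (locR F' R') ⊓ M) := hperp
    have h2 : LinearMap.range (locR F' R') ⊓ M =
        B.orthogonal (LinearMap.range (locR F' R') ⊔ B.orthogonal M) := by
      conv_lhs => rw [← range_eq_orthogonal hp2 hB hpS,
        ← LinearMap.BilinForm.orthogonal_orthogonal (pairR_nondeg F' hp2 hB.places.places.lies)
          (pairR_isRefl F' hp2 hB.places.places.lies) M]
      ext x
      simp only [Submodule.mem_inf, LinearMap.BilinForm.mem_orthogonal_iff]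
      refine ⟨fun h n hn => ?_, fun h => ⟨fun n hn => h n (Submodule.mem_sup_left hn),
        fun n hn => h n (Submodule.mem_sup_right hn)⟩⟩
      obtain ⟨u, hu, v, hv, rfl⟩ := Submodule.mem_sup.1 hn
      rw [map_add, LinearMap.add_apply, h.1 u hu, h.2 v hv, add_zero]
    rwa [h2, LinearMap.BilinForm.orthogonal_orthogonal (pairR_nondeg F' hp2 hB.places.places.lies)
      (pairR_isRefl F' hp2 hB.places.places.lies)] at h1
  obtain ⟨_, ⟨b, rfl⟩, z, hz, hsum⟩ := Submodule.mem_sup.1 hY
  have hzR : ∀ w : ↥R', (w : VS) ∈ R → z w = 0 := fun w hw => by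
    refine pairV_nondeg hp2 (hB.places.places.lies w w.2).choose_spec.1
      (hB.places.places.lies w w.2).choose_spec.2 (fixH F (w : VS)) (localSub_Hw F (w : VS)) _
      fun c => ?_
    refine (pairR_single F' hp2 hB.places.places.lies z w c).symm.trans ?_
    exact pairR_isRefl F' hp2 _ _ _ (hz _ (hM.2 fun v hv => by
      rw [Pi.single_eq_of_ne (fun e => hv (by rw [e]; exact hw))]
      exact Submodule.zero_mem _))
  have hzT : ∀ w : ↥R', (w : VS) ∉ R → z w ∈ unr (w : VS) (F.Hw (w : VS)) := fun w hw => by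
    obtain ⟨l, hl, hV⟩ := houtT w hw
    refine mem_unr_of_perp hp2 F hl.1 (fun e => hl.2 _ hpS e.symm) hV fun c hc => ?_
    have h := hz (Pi.single w c) (hM.2 fun v hv => by
      rcases eq_or_ne v w with rfl | hne
      · rwa [Pi.single_eq_same]
      · rw [Pi.single_eq_of_ne hne]; exact Submodule.zero_mem _)
    have h' := pairR_isRefl F' hp2 hB.places.places.lies _ _ h
    rw [pairV_swap, neg_eq_zero]
    exact (pairR_single F' hp2 hB.places.places.lies z w c).symm.trans h'
  have hbT : ∀ w : ↥R', (w : VS) ∉ R → locR F' R' b w ∈ unr (w : VS) (F.Hw (w : VS)) := fun w hw => by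
    have h : locR F' R' b w + z w = r' w := congrFun hsum w
    rw [hr'] at h
    simp only [dif_neg hw] at h
    rw [eq_neg_of_add_eq_zero_left h]
    exact Submodule.neg_mem _ (hzT w hw)
  refine ⟨⟨b.1, mem_Z1S_of_unr hB b.2 fun w hw hwR => hbT ⟨w, hw⟩ hwR⟩, funext fun w => ?_⟩
  have h : locR F' R' b ⟨w, hB.subR w.2⟩ + z ⟨w, hB.subR w.2⟩ = r' ⟨w, hB.subR w.2⟩ :=
      congrFun hsum _
  rw [hzR ⟨w, hB.subR w.2⟩ w.2, add_zero, hr'] at h
  simp only [dif_pos w.2] at h
  exact h

end FLTAgent.PoitouTate.Field
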