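import Fermat.Agent.PoitouTate.Field.Pair
import Fermat.Agent.PoitouTate.Field.Ramif

/-!
# Two cocycles which are locally trivial

Their classes are bounded by the cokernel of the ramification of the global characters of a large
system, whose dimension is at most that of the characters vanishing at the places over `S`.
-/

set_option autoImplicit false
set_option linter.style.haveILetI false
set_option linter.unusedSectionVars false
set_option maxHeartbeats 1000000

noncomputable section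

open scoped Pointwise

namespace FLTAgent.PoitouTate.Field

open FLTAgent.Lowering.P1 FLTAgent.Lowering.P1.Brauer
open FLTAgent.Lowering.P1.Hasse (InOrbit Gen)
open Loc (SameOrbit)

local notation "LL" => AlgebraicClosure ℚ
local notation "GG" => (AlgebraicClosure ℚ ≃ₐ[ℚ] AlgebraicClosure ℚ)
local notation "VS" => ValuationSubring (AlgebraicClosure ℚ)
local notation "Dec" => ValuationSubring.decompositionSubgroup ℚ

variable {p : ℕ} [Fact p.Prime] {S : Finset Nat.Primes} (F : SField p S)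

/-! ### Primitives of two cocycles unramified outside `S` -/

/-- The centred primitive, as a function on the Galois group. -/
def centred (u : ↥F.N → ZMod p) : GG → ZMod p := extH fun g => u g - u 1

theorem centred_coe (u : ↥F.N → ZMod p) (g : ↥F.N) : centred F u g = u g - u 1 := extH_coe _ g

theorem d1_eq (u : ↥F.N → ZMod p) (g h : ↥F.N) :
    d1 (omRep p) F.N.subtype u g h = u h - u (g * h) + u g := by
  rw [d1_apply, omRep_apply, F.zeta _ (show F.N.subtype g ∈ galOf F.K from g.2), one_mul]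

theorem d1_char {a : ↥F.N → ZMod p} (ha : a ∈ Z1 (omRep p) F.N.subtype) :
    d1 (omRep p) F.N.subtype a = 0 := funext fun g => funext fun h => by
  rw [d1_eq, ((mem_Z1_iff (fixN F)).1 ha).2, Pi.zero_apply, Pi.zero_apply]
  ring

/-- A normal level below the field at which the primitive is additive. -/
theorem exists_additive {u : ↥F.N → ZMod p} (hu : u ∈ C1 (p := p) (A := ZMod p) F.N.subtype)
    (h : d1 (omRep p) F.N.subtype u ∈ Z2S (omRep p) F.N.subtype S) :
    ∃ U : Subgroup GG, U ≤ F.N ∧ U.Normal ∧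
      (∀ (q : Nat.Primes) (V : VS), q ∉ S → V.LiesOverPrime (q : ℕ) →
        V.inertiaSubgroupIn ℚ ≤ U) ∧
      (∃ M : IntermediateField ℚ LL, FiniteDimensional ℚ M ∧ M.fixingSubgroup ≤ U) ∧
      (∀ g ∈ F.N, ∀ s ∈ U, centred F u (g * s) = centred F u g + centred F u s ∧
        centred F u (s * g) = centred F u g + centred F u s) ∧
      LevOn U (centred F u) := by
  obtain ⟨hcoc, L, hL, hlev⟩ := h
  haveI := F.fd
  obtain ⟨M, hM, hMn, hle⟩ := exists_normal_unram (hL.sup F.unram)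
  haveI := hM.1
  have hUN : M.fixingSubgroup ≤ F.N :=
    IntermediateField.fixingSubgroup_antitone (le_sup_right.trans hle)
  refine ⟨M.fixingSubgroup, hUN, fix_normal M, fun q V hq hV => hM.2 q hq V hV,
    ⟨M, hM.1, le_rfl⟩, fun g hg s hs => ?_, ?_⟩
  · have hs' : s ∈ L.fixingSubgroup :=
      IntermediateField.fixingSubgroup_antitone (le_sup_left.trans hle) hs
    set c := d1 (omRep p) F.N.subtype u with hc
    set G : ↥F.N := ⟨g, hg⟩
    set T : ↥F.N := ⟨s, hUN hs⟩
    have h11 : c 1 1 = u 1 := by rw [hc, d1_eq, one_mul]; ring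
    have hg1 : ∀ x : ↥F.N, c x 1 = u 1 ∧ c 1 x = u 1 := fun x => by
      rw [hc, d1_eq, d1_eq, mul_one, one_mul]; constructor <;> ring
    have h1 : c G T = u 1 := by
      have := hlev G 1 1 T (by simp) hs'
      rwa [mul_one, one_mul, (hg1 G).1] at this
    have h2 : c T G = u 1 := by
      have := hlev 1 G T 1 hs' (by simp)
      rwa [mul_one, one_mul, (hg1 G).2] at this
    rw [hc, d1_eq] at h1 h2
    refine ⟨?_, ?_⟩
    · rw [show g * s = ((G * T : ↥F.N) : GG) from rfl, show g = ((G : ↥F.N) : GG) from rfl,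
        show s = ((T : ↥F.N) : GG) from rfl, centred_coe, centred_coe, centred_coe]
      linear_combination -h1
    · rw [show s * g = ((T * G : ↥F.N) : GG) from rfl, show g = ((G : ↥F.N) : GG) from rfl,
        show s = ((T : ↥F.N) : GG) from rfl, centred_coe, centred_coe, centred_coe]
      linear_combination -h2
  · obtain ⟨E, hE, hl⟩ := hu
    refine ⟨E, hE, fun g hg s hs hsE => ?_⟩
    show extH _ (g * s) = extH _ g
    rw [extH_mem _ (mul_mem (hUN hg) (hUN hs)), extH_mem _ (hUN hg)]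
    exact congrArg (· - u 1) (hl ⟨g, hUN hg⟩ ⟨s, hUN hs⟩ hsE)

theorem centred_conj {u : ↥F.N → ZMod p} {U : Subgroup GG} [U.Normal]
    (hadd : ∀ g ∈ F.N, ∀ s ∈ U, centred F u (g * s) = centred F u g + centred F u s ∧
      centred F u (s * g) = centred F u g + centred F u s)
    {g s : GG} (hg : g ∈ F.N) (hs : s ∈ U) : centred F u (g * s * g⁻¹) = centred F u s := by
  have h1 := (hadd g hg _ (Subgroup.Normal.conj_mem ‹_› s hs g)).2
  rw [inv_mul_cancel_right, (hadd g hg s hs).1] at h1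
  exact (add_left_cancel h1).symm

/-- An unramified primitive is of level unramified outside `S`. -/
theorem mem_B2S_of_unram {u : ↥F.N → ZMod p} (hu : u ∈ C1 (p := p) (A := ZMod p) F.N.subtype)
    (h : d1 (omRep p) F.N.subtype u ∈ Z2S (omRep p) F.N.subtype S)
    (hI : ∀ (q : Nat.Primes) (V : VS), q ∉ S → V.LiesOverPrime (q : ℕ) → ∀ σ : ↥F.N,
      (σ : GG) ∈ V.inertiaSubgroupIn ℚ → u σ = u 1) :
    d1 (omRep p) F.N.subtype u ∈ B2S (omRep p) F.N.subtype S := by
  obtain ⟨U, hUN, hUn, hIU, ⟨M, hM, hMU⟩, hadd, hlev⟩ := exists_additive F hu h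
  let A : Subgroup GG :=
    { carrier := {s | s ∈ U ∧ ∀ g : GG, centred F u (g * s * g⁻¹) = 0}
      one_mem' := ⟨one_mem U, fun g => by
        rw [mul_one, mul_inv_cancel, show (1 : GG) = ((1 : ↥F.N) : GG) from rfl, centred_coe,
          sub_self]⟩
      mul_mem' := fun {x y} hx hy => ⟨mul_mem hx.1 hy.1, fun g => by
        have h := (hadd (g * x * g⁻¹) (hUN (hUn.conj_mem x hx.1 g)) (g * y * g⁻¹)
          (hUn.conj_mem y hy.1 g)).1
        rw [hx.2 g, hy.2 g, add_zero] at h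
        rwa [show g * (x * y) * g⁻¹ = g * x * g⁻¹ * (g * y * g⁻¹) by group]⟩
      inv_mem' := fun {x} hx => ⟨inv_mem hx.1, fun g => by
        have h := (hadd (g * x * g⁻¹) (hUN (hUn.conj_mem x hx.1 g)) (g * x⁻¹ * g⁻¹)
          (hUn.conj_mem _ (inv_mem hx.1) g)).1
        rw [hx.2 g, zero_add, show g * x * g⁻¹ * (g * x⁻¹ * g⁻¹) = ((1 : ↥F.N) : GG) by
          simp, centred_coe, sub_self] at h
        exact h.symm⟩ }
  obtain ⟨E₀, hE₀, hl⟩ := hu
  obtain ⟨E, hEf, hEn, hle⟩ := exists_normal_le (E₀ ⊔ M)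
  have hA : OpenIn A ⊤ := ⟨E, hEf, fun s hs => by
    have h1 := (Subgroup.mem_inf.1 hs).2
    refine ⟨hMU (IntermediateField.fixingSubgroup_antitone (le_sup_right.trans hle) h1),
      fun g => ?_⟩
    have h2 : g * s * g⁻¹ ∈ E.fixingSubgroup := (fix_normal E).conj_mem s h1 g
    have h3 : g * s * g⁻¹ ∈ F.N :=
      hUN (hMU (IntermediateField.fixingSubgroup_antitone (le_sup_right.trans hle) h2))
    have h4 := hl 1 ⟨_, h3⟩ (IntermediateField.fixingSubgroup_antitone (le_sup_left.trans hle) h2)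
    rw [one_mul] at h4
    rw [show g * s * g⁻¹ = ((⟨_, h3⟩ : ↥F.N) : GG) from rfl, centred_coe, h4, sub_self]⟩
  obtain ⟨L', hL', hLA⟩ := exists_field_of_open hA
  refine ⟨u, ⟨L', ⟨hL', fun q hq V hV σ hσ => ?_⟩, fun g s hs => ?_⟩, rfl⟩
  · show σ ∈ galOf L'
    rw [hLA]
    refine ⟨hIU q V hq hV hσ, fun g => ?_⟩
    have h3 := Places.conj_mem_inertia V hσ g
    have h4 := hIU q (g • V) hq (Places.liesOverPrime_smul V g hV) h3
    rw [show g * σ * g⁻¹ = ((⟨_, hUN h4⟩ : ↥F.N) : GG) from rfl, centred_coe,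
      hI q (g • V) hq (Places.liesOverPrime_smul V g hV) _ h3, sub_self]
  · have hs' : (s : GG) ∈ A := hLA ▸ hs
    have h1 := (hadd g g.2 s hs'.1).1
    have h2 := hs'.2 1
    rw [one_mul, inv_one, mul_one] at h2
    rw [h2, add_zero, ← Subgroup.coe_mul, centred_coe, centred_coe] at h1
    exact sub_left_inj.1 h1

/-- A cocycle trivial at one place is trivial at its conjugates. -/
theorem res2_B2_smul {f : ↥F.N → ↥F.N → ZMod p} (hf : f ∈ Z2 (omRep p) F.N.subtype) {γ : GG}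
    (hγ : γ ∈ F.N) {W : VS}
    (h : res2 (p := p) (F.incl W) f ∈ B2 (omRep p) (F.Hw W).subtype) :
    res2 (p := p) (F.incl (γ • W)) f ∈ B2 (omRep p) (F.Hw (γ • W)).subtype := by
  obtain ⟨⟨E₁, hE₁, hl₁⟩, hh⟩ := hf
  obtain ⟨u, ⟨E₂, hE₂, hl₂⟩, hu⟩ := h
  obtain ⟨E, hE, hEn, hle⟩ := exists_normal_le (E₁ ⊔ E₂)
  have hcoc : ∀ a b c : ↥F.N, f b c - f (a * b) c + f a (b * c) - f a b = 0 := fun a b c => by
    have h1 := hh a b c
    rwa [omRep_apply, F.zeta _ (show F.N.subtype a ∈ galOf F.K from a.2), one_mul] at h1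
  have hconj : ∀ x : ↥(F.Hw (γ • W)), γ⁻¹ * (x : GG) * γ ∈ F.Hw W := fun x =>
    Subgroup.mem_inf.2 ⟨mul_mem (mul_mem (inv_mem hγ) (Subgroup.mem_inf.1 x.2).1) hγ,
      mem_dec_smul.1 (Subgroup.mem_inf.1 x.2).2⟩
  set G : ↥F.N := ⟨γ, hγ⟩
  let c : ↥(F.Hw (γ • W)) → ↥(F.Hw W) := fun x => ⟨_, hconj x⟩
  refine ⟨fun x => u (c x) - f G (F.incl W (c x)) + f (F.incl (γ • W) x) G, ⟨E, hE, fun g s hs => ?_⟩,
    funext fun x => funext fun y => ?_⟩
  · have hs₁ := IntermediateField.fixingSubgroup_antitone (le_sup_left.trans hle) hs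
    have hs' : γ⁻¹ * (s : GG) * γ ∈ E.fixingSubgroup := fix_conj hs γ
    have hs₁' := IntermediateField.fixingSubgroup_antitone (le_sup_left.trans hle) hs'
    have e : c (g * s) = c g * c s :=
      Subtype.ext (show γ⁻¹ * ((g : GG) * s) * γ = γ⁻¹ * g * γ * (γ⁻¹ * s * γ) by group)
    have h1 := hl₂ (c g) (c s)
      (IntermediateField.fixingSubgroup_antitone (le_sup_right.trans hle) hs')
    have h2 := hl₁ G (F.incl W (c g)) 1 (F.incl W (c s)) (by simp) hs₁'
    have h3 := hl₁ (F.incl (γ • W) g) G (F.incl (γ • W) s) 1 hs₁ (by simp)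
    rw [mul_one] at h2 h3
    show u (c (g * s)) - f G (F.incl W (c (g * s))) + f (F.incl (γ • W) (g * s)) G = _
    rw [e, map_mul, map_mul, h1, h2, h3]
  · have e : c (x * y) = c x * c y :=
      Subtype.ext (show γ⁻¹ * ((x : GG) * y) * γ = γ⁻¹ * x * γ * (γ⁻¹ * y * γ) by group)
    have hom : ∀ {H : Subgroup GG}, H ≤ F.N → ∀ (w : ↥H → ZMod p) (a b : ↥H),
        d1 (omRep p) H.subtype w a b = w b - w (a * b) + w a := fun {H} hH w a b => by
      rw [d1_apply, omRep_apply, F.zeta _ (show H.subtype a ∈ galOf F.K from hH a.2), one_mul]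
    have hu' := congrFun (congrFun hu (c x)) (c y)
    rw [hom inf_le_left, res2_apply] at hu'
    rw [hom inf_le_left, res2_apply]
    rw [e, map_mul, map_mul]
    set a := F.incl (γ • W) x
    set b := F.incl (γ • W) y
    set a' := F.incl W (c x)
    set b' := F.incl W (c y)
    have ea : G * a' = a * G := Subtype.ext (show γ * (γ⁻¹ * x * γ) = (x : GG) * γ by group)
    have eb : G * b' = b * G := Subtype.ext (show γ * (γ⁻¹ * y * γ) = (y : GG) * γ by group)
    have i1 := hcoc G a' b'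
    have i2 := hcoc a b G
    have i3 := hcoc a G b'
    rw [ea] at i1
    rw [eb] at i3
    linear_combination hu' + i1 + i2 - i3

/-! ### The ramification at the new places -/

variable {R : Finset VS} {hR : SPlaces F R} {S' : Finset Nat.Primes} {R' : Finset VS}

open scoped Classical in
/-- The new places. -/
def newT (R R' : Finset VS) : Finset VS := R'.filter fun V => V ∉ R

theorem mem_newT {R R' : Finset VS} {V : VS} : V ∈ newT R R' ↔ V ∈ R' ∧ V ∉ R := by
  classical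
  simp [newT]

open scoped Classical in
/-- A function on the new places, on all places. -/
def cext (T : Finset VS) (C : ↥T → ZMod p) (V : VS) : ZMod p :=
  ∑ W : ↥T, if SameOrbit F.N (W : VS) V then C W else 0

variable (hB : Big F hR S' R')

include hB in
theorem newT_spec {W : VS} (hW : W ∈ newT R R') :
    ∃ q : Nat.Primes, q ∉ S ∧ q ∈ S' ∧ W.LiesOverPrime (q : ℕ) := by
  obtain ⟨hW', hWR⟩ := mem_newT.1 hW
  obtain ⟨l, hl, hV⟩ := hB.places.places.lies W hW'
  obtain ⟨q, hq, e⟩ := (hB.places.iff l W hl hV).1 (Hasse.inOrbit_of_mem hW')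
  subst e
  refine ⟨q, fun hqS => ?_, hq, hV⟩
  obtain ⟨U, hU, h⟩ := (hR.iff _ W hl hV).2 ⟨q, hqS, rfl⟩
  exact hWR ((hB.places.places.inj U (hB.subR hU) W hW' h) ▸ hU)

include hB in
theorem newT_cover {q : Nat.Primes} (hq : q ∉ S) (hq' : q ∈ S') {V : VS}
    (hV : V.LiesOverPrime (q : ℕ)) : ∃ W ∈ newT R R', SameOrbit F.N W V := by
  obtain ⟨W, hW, h⟩ := (hB.places.iff _ V q.2 hV).2 ⟨q, hq', rfl⟩
  refine ⟨W, mem_newT.2 ⟨hW, fun hWR => hq ?_⟩, h⟩
  obtain ⟨q', hq'', e⟩ := (hR.iff _ V q.2 hV).1 ⟨W, hWR, h⟩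
  rwa [← Subtype.ext e]

include hB in
theorem cext_eq (C : ↥(newT R R') → ZMod p) {W : VS} (hW : W ∈ newT R R') {V : VS}
    (h : SameOrbit F.N W V) : cext F (newT R R') C V = C ⟨W, hW⟩ := by
  classical
  rw [cext, Finset.sum_eq_single (⟨W, hW⟩ : ↥(newT R R')) (fun U _ hU => if_neg fun hUV => hU ?_)
    (fun h => absurd (Finset.mem_univ _) h), if_pos h]
  exact Subtype.ext (hB.places.places.inj U (mem_newT.1 U.2).1 W (mem_newT.1 hW).1
    (Hasse.sameOrbit_trans hUV (Hasse.sameOrbit_symm h)))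

include hB in
theorem cext_out (C : ↥(newT R R') → ZMod p) {q : Nat.Primes} (hq : q ∉ S') {V : VS}
    (hV : V.LiesOverPrime (q : ℕ)) : cext F (newT R R') C V = 0 := by
  classical
  refine Finset.sum_eq_zero fun W _ => if_neg fun h => hq ?_
  obtain ⟨q', hq', e⟩ := (hB.places.iff _ V q.2 hV).1 ⟨W, (mem_newT.1 W.2).1, h⟩
  rwa [← Subtype.ext e]

/-- The ramification of a primitive is given by a function on the new places. -/
def RamBy (u : ↥F.N → ZMod p) (C : ↥(newT R R') → ZMod p) : Prop :=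
  ∀ (q : Nat.Primes) (V : VS), q ∉ S → V.LiesOverPrime (q : ℕ) → ∀ σ : ↥F.N,
    (σ : GG) ∈ V.inertiaSubgroupIn ℚ → u σ - u 1 = cext F (newT R R') C V * kap F q σ

variable (hpS : ExtCitation.pPrime p ∈ S)

include hB hpS

/-- A test element of inertia at each new place. -/
theorem exists_test (W : ↥(newT R R')) : ∃ (q : Nat.Primes) (σ : ↥F.N), q ∉ S ∧ q ∈ S' ∧
    (W : VS).LiesOverPrime (q : ℕ) ∧ (σ : GG) ∈ (W : VS).inertiaSubgroupIn ℚ ∧ kap F q σ = 1 := by
  obtain ⟨q, hq, hq', hW⟩ := newT_spec F hB W.2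
  obtain ⟨σ, hσ, h1⟩ := exists_kap_one F hpS hq hW
  exact ⟨q, σ, hq, hq', hW, hσ, h1⟩

/-- An additive function on a normal level is ramified as given by its values at test elements. -/
theorem ramBy_of_additive {u : ↥F.N → ZMod p} {U : Subgroup GG} [U.Normal] (hUN : U ≤ F.N)
    (hIU : ∀ (q : Nat.Primes) (V : VS), q ∉ S → V.LiesOverPrime (q : ℕ) →
      V.inertiaSubgroupIn ℚ ≤ U)
    (hadd : ∀ g ∈ F.N, ∀ s ∈ U, centred F u (g * s) = centred F u g + centred F u s ∧
      centred F u (s * g) = centred F u g + centred F u s)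
    (hlev : LevOn U (centred F u))
    (hout : ∀ (q : Nat.Primes) (V : VS), q ∉ S' → V.LiesOverPrime (q : ℕ) → ∀ σ : ↥F.N,
      (σ : GG) ∈ V.inertiaSubgroupIn ℚ → u σ = u 1) :
    RamBy F u fun W => u (exists_test F hB hpS W).choose_spec.choose - u 1 := by
  intro q V hq hV σ hσ
  by_cases hq' : q ∈ S'
  swap
  · rw [cext_out F hB _ hq' hV, zero_mul, sub_eq_zero]
    exact hout q V hq' hV σ hσ
  obtain ⟨W, hW, hWV⟩ := newT_cover F hB hq hq' hV
  rw [cext_eq F hB _ hW hWV]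
  obtain ⟨g, hg, rfl⟩ := hWV
  obtain ⟨hq₀, -, hW₀, hσ₀, h1⟩ := (exists_test F hB hpS ⟨W, hW⟩).choose_spec.choose_spec
  have hWq : W.LiesOverPrime (q : ℕ) := by
    have h := Places.liesOverPrime_smul (g • W) g⁻¹ hV
    rwa [inv_smul_smul] at h
  suffices key : ∀ (q₀ : Nat.Primes) (σ₀ : ↥F.N), W.LiesOverPrime (q₀ : ℕ) →
      (σ₀ : GG) ∈ W.inertiaSubgroupIn ℚ → kap F q₀ σ₀ = 1 →
      u σ - u 1 = (u σ₀ - u 1) * kap F q σ from key _ _ hW₀ hσ₀ h1
  intro q₀ σ₀ hW₀ hσ₀ h1
  have e : q₀ = q := Subtype.ext (Hasse.prime_unique q₀.2 q.2 hW₀ hWq)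
  rw [e] at h1
  obtain ⟨k, hk⟩ := exists_coeff F hpS hq hWq hUN (fun s hs t ht => (hadd s (hUN hs) t ht).1) hlev
    (hIU q W hq hWq)
  have hk0 := hk _ hσ₀
  rw [centred_coe, h1, mul_one] at hk0
  have h2 := coeff_smul F hpS hq hWq hg hk
    (fun τ hτ => centred_conj F hadd hg (hIU q W hq hWq hτ)) σ hσ
  rw [centred_coe] at h2
  rw [h2, hk0]

/-- The values of the characters at the test elements. -/
def omega : ↥(Z1S (omRep p) F.N.subtype S') →ₗ[ZMod p] ↥(newT R R') → ZMod p :=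
  LinearMap.pi fun W => (LinearMap.proj (exists_test F hB hpS W).choose_spec.choose).comp
    (Z1S (omRep p) F.N.subtype S').subtype

theorem ramBy_char (b : ↥(Z1S (omRep p) F.N.subtype S')) :
    RamBy F b.1 (omega F hB hpS b) := by
  have hb1 : b.1 1 = 0 := Z1_one (fixN F) b.2.1
  have hc : ∀ σ : ↥F.N, centred F b.1 σ = b.1 σ := fun σ => by rw [centred_coe, hb1, sub_zero]
  have h := ramBy_of_additive F hB hpS (U := F.N) le_rfl
    (fun q V hq hV => inertia_le_N F (out_of_notMem hq) hV)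
    (fun g hg s hs => by
      have e1 := ((mem_Z1_iff (fixN F)).1 b.2.1).2 ⟨g, hg⟩ ⟨s, hs⟩
      have e2 := ((mem_Z1_iff (fixN F)).1 b.2.1).2 ⟨s, hs⟩ ⟨g, hg⟩
      exact ⟨(hc (⟨g, hg⟩ * ⟨s, hs⟩)).trans (e1.trans
          (congrArg₂ (· + ·) (hc ⟨g, hg⟩).symm (hc ⟨s, hs⟩).symm)),
        (hc (⟨s, hs⟩ * ⟨g, hg⟩)).trans ((e2.trans (add_comm _ _)).trans
          (congrArg₂ (· + ·) (hc ⟨g, hg⟩).symm (hc ⟨s, hs⟩).symm))⟩)
    (by
      obtain ⟨E, hE, hl⟩ := b.2.1.1
      refine ⟨E, hE, fun g hg s hs hsE => ?_⟩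
      exact (hc (⟨g, hg⟩ * ⟨s, hs⟩)).trans ((hl ⟨g, hg⟩ ⟨s, hs⟩ hsE).trans (hc ⟨g, hg⟩).symm))
    (fun q V hq hV σ hσ => (((mem_Z1S_iff (mono F hB.sub)).1 b.2).2 q V (out_of_notMem hq) hV σ
      hσ).trans hb1.symm)
  simp only [hb1, sub_zero] at h
  exact h

/-- A locally trivial cocycle has a primitive ramified as given on the new places. -/
theorem exists_ramBy (hp2 : p ≠ 2) {f : ↥F.N → ↥F.N → ZMod p} (hf : f ∈ Sha2N F R) :
    ∃ u ∈ C1 (p := p) (A := ZMod p) F.N.subtype, d1 (omRep p) F.N.subtype u = f ∧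
      ∃ C : ↥(newT R R') → ZMod p, RamBy F u C := by
  classical
  haveI := F.fd
  obtain ⟨hf, hloc⟩ := hf
  simp only [SetLike.mem_coe, Submodule.mem_iInf, Submodule.mem_comap] at hloc
  obtain ⟨L₂, hL₂, hlev₂⟩ := hf.2
  have hlt : LocallyTrivial F.N (expCochain (zeta p) F.N f) := fun l V hl hV => by
    have hres : ∀ W : VS, expCochain (zeta p) (F.Hw W) (res2 (p := p) (F.incl W) f) =
        fun g h => if g ∈ F.Hw W ∧ h ∈ F.Hw W then expCochain (zeta p) F.N f g h else 1 := by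
      intro W
      funext g h
      by_cases hg : g ∈ F.Hw W
      · by_cases hh : h ∈ F.Hw W
        · rw [if_pos ⟨hg, hh⟩, expC_of_mem _ hg hh, expC_of_mem _ (Subgroup.mem_inf.1 hg).1
            (Subgroup.mem_inf.1 hh).1]
          rfl
        · rw [if_neg fun e => hh e.2, expCochain, dif_pos hg, dif_neg hh]
      · rw [if_neg fun e => hg e.1, expCochain, dif_neg hg]
    by_cases hin : InOrbit F.N R V
    · obtain ⟨W, hW, g, hg, rfl⟩ := hin
      have h1 := cob_expC (res2_B2_smul F hf.1 hg (hloc W hW))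
      rw [hres] at h1
      exact h1.congr fun σ hσ τ hτ => (if_pos ⟨hσ, hτ⟩).symm
    · have hout := (inOrbit_iff F hR hl hV).1 hin
      refine cob_of_unramified (p := p) targetLocal hl hV (localSub_Hw F V)
        ((coc_expC hf.1).mono inf_le_left) (fun σ hσ τ hτ => ?_) (fun σ hσ => ?_)
        fun g hg h hh σ hσ => ?_
      · rw [expC_of_mem _ (Subgroup.mem_inf.1 hσ).1 (Subgroup.mem_inf.1 hτ).1, ← pow_mul, mul_comm,
          pow_mul, (zeta_spec p).pow_eq_one, one_pow]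
      · rw [expC_of_mem _ (one_mem F.N) (one_mem F.N), map_pow,
          fixN F σ (Subgroup.mem_inf.1 (Subgroup.mem_inf.1 hσ).1).1]
      · obtain ⟨hσH, hσI⟩ := Subgroup.mem_inf.1 hσ
        have hgN := (Subgroup.mem_inf.1 hg).1
        have hhN := (Subgroup.mem_inf.1 hh).1
        have hσN := (Subgroup.mem_inf.1 hσH).1
        have hσL := hL₂.2 ⟨l, hl⟩ hout.notMem V hV hσI
        rw [expC_of_mem _ (mul_mem hgN hσN) hhN, expC_of_mem _ hgN hhN,
          expC_of_mem _ hgN (mul_mem hhN hσN)]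
        refine ⟨congrArg (fun x : ZMod p => zeta p ^ x.val) ?_,
          congrArg (fun x : ZMod p => zeta p ^ x.val) ?_⟩
        · have := hlev₂ ⟨g, hgN⟩ ⟨h, hhN⟩ ⟨σ, hσN⟩ 1 hσL (by simp)
          rwa [mul_one] at this
        · have := hlev₂ ⟨g, hgN⟩ ⟨h, hhN⟩ 1 ⟨σ, hσN⟩ (by simp) hσL
          rwa [mul_one] at this
  have hcob := cob_of_locally Hasse.targetNormTheorem targetLocal (three_lt hp2)
    (open_top_of_field F.K) (coc_expC hf.1) (expC_pow f) hlt
  obtain ⟨u₀, hu₀, hd₀⟩ := mem_B2_of_cob (H := F.N) hcob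
  obtain ⟨U, hUN, hUn, hIU, -, hadd, hlev⟩ := exists_additive F hu₀ (hd₀ ▸ hf)
  -- finitely many places where the primitive is ramified
  obtain ⟨E, hE, hlE⟩ := hu₀
  haveI := hE
  obtain ⟨S₀, hS₀⟩ := exists_finset_unramified E
  obtain ⟨RE, hRE, hREl, hiff⟩ := Hasse.exists_places F.K
    (S₀.filter fun l => OutS S' l) fun l hl => (Finset.mem_filter.1 hl).2.1
  choose lW hlW hWl using hREl
  have houtW : ∀ (W : VS) (h : W ∈ RE), OutS S' (lW W h) := fun W h =>
    (Finset.mem_filter.1 (hlW W h)).2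
  have hkW : ∀ W : ↥RE, ∃ k : ZMod p, ∀ σ : ↥F.N, (σ : GG) ∈ (W : VS).inertiaSubgroupIn ℚ →
      centred F u₀ σ = k * kap F ⟨lW W W.2, (houtW W W.2).1⟩ σ := fun W => by
    have hn : (⟨lW W W.2, (houtW W W.2).1⟩ : Nat.Primes) ∉ S :=
      ((houtW W W.2).mono hB.sub).notMem
    exact exists_coeff F hpS hn (hWl W W.2) hUN (fun s hs t ht => (hadd s (hUN hs) t ht).1) hlev
      (hIU _ _ hn (hWl W W.2))
  choose k hk using hkW
  choose gW hgK hg0 hg1 hgone using fun W : ↥RE =>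
    exists_gen_one (mono F hB.sub) hB.places hB.gen (houtW W W.2) (hWl W W.2)
  let gU : ↥RE → ↥(fixU F.N) := fun W =>
    ⟨Units.mk0 (gW W) (hg0 W), fun σ hσ => fixed_of_mem F (hgK W) σ hσ⟩
  set ψ : ↥F.N → ZMod p := ∑ W, k W • kumC (fixN F) (gU W) with hψ
  have hψmem : ψ ∈ Z1 (omRep p) F.N.subtype :=
    Submodule.sum_mem _ fun W _ => Submodule.smul_mem _ _ (kumC_mem _ _)
  have hψ1 : ψ 1 = 0 := Z1_one (fixN F) hψmem
  have hd : d1 (omRep p) F.N.subtype (u₀ - ψ) = f := by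
    rw [map_sub, d1_char F hψmem, sub_zero, hd₀]
  have hu : u₀ - ψ ∈ C1 (p := p) (A := ZMod p) F.N.subtype := Submodule.sub_mem _ ⟨E, hE, hlE⟩ hψmem.1
  obtain ⟨U', hUN', hUn', hIU', -, hadd', hlev'⟩ := exists_additive F hu (hd ▸ hf)
  refine ⟨u₀ - ψ, hu, hd, _, ramBy_of_additive F hB hpS hUN' hIU' hadd' hlev'
    fun q V hq hV σ hσ => ?_⟩
  have hqS : q ∉ S := fun h => hq (hB.sub h)
  have hout' : OutS S' q := out_of_notMem hq
  have hψσ : ψ σ = (∑ W, k W * (ordV q V (gW W) : ZMod p)) * kap F q σ := by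
    rw [hψ, Finset.sum_apply, Finset.sum_mul]
    refine Finset.sum_congr rfl fun W _ => ?_
    rw [Pi.smul_apply, smul_eq_mul, kumC_inertia F hpS hqS hV (gU W) hσ, mul_assoc]
    rfl
  suffices h : centred F u₀ σ = ψ σ by
    rw [centred_coe] at h
    show u₀ σ - ψ σ = u₀ 1 - ψ 1
    rw [hψ1, sub_zero, ← h, sub_sub_cancel]
  by_cases hin : InOrbit F.N RE V
  · obtain ⟨W, hW, g, hg, rfl⟩ := hin
    have hWq : W.LiesOverPrime (q : ℕ) := by
      have h := Places.liesOverPrime_smul (g • W) g⁻¹ hV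
      rwa [inv_smul_smul] at h
    have e : (⟨lW W hW, (houtW W hW).1⟩ : Nat.Primes) = q :=
      Subtype.ext (Hasse.prime_unique (houtW W hW).1 q.2 (hWl W hW) hWq)
    have hk' := hk ⟨W, hW⟩
    rw [e] at hk'
    have h1 := coeff_smul F hpS hqS hWq hg hk'
      (fun τ hτ => centred_conj F hadd hg (hIU q W hqS hWq hτ)) σ hσ
    rw [h1, hψσ, Finset.sum_eq_single (⟨W, hW⟩ : ↥RE) (fun X _ hX => ?_) (by simp)]
    · have hs : ordV q (g • W) (gW ⟨W, hW⟩) = ordV q W (gW ⟨W, hW⟩) := by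
        conv_lhs => rw [← fixed_of_mem F (hgK ⟨W, hW⟩) g hg]
        exact ordV_smul q.2 hWq (hg0 _) (inFix_of_mem (mono F hB.sub) (hgK _) hout' hWq)
      have h3 : ordV q W (gW ⟨W, hW⟩) = 1 := by
        rw [← e]; exact hg1 ⟨W, hW⟩
      rw [hs, h3, Int.cast_one, mul_one]
    · rw [hgone X q (g • W) hout' hV fun hsame => hX (Subtype.ext (hRE.inj _ X.2 W hW
        (Hasse.sameOrbit_trans hsame (Hasse.sameOrbit_symm ⟨g, hg, rfl⟩)))), Int.cast_zero,
        mul_zero]
  · rw [hψσ, Finset.sum_eq_zero fun W _ => by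
      rw [hgone W q V hout' hV fun h => hin ⟨W, W.2, h⟩, Int.cast_zero, mul_zero], zero_mul]
    have hq0 : (q : ℕ) ∉ S₀ := fun h => hin ((hiff q V q.2 hV).2 (Finset.mem_filter.2 ⟨h, hout'⟩))
    have h5 := hlE 1 σ (hS₀ q V q.2 hV hq0 hσ)
    rw [one_mul] at h5
    rw [centred_coe, h5, sub_self]

/-- The pairs of a locally trivial cocycle and the ramification of a primitive. -/
def shaRel : Submodule (ZMod p) (↥(Sha2N F R) × (↥(newT R R') → ZMod p)) where
  carrier := {x | ∃ u ∈ C1 (p := p) (A := ZMod p) F.N.subtype,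
    d1 (omRep p) F.N.subtype u = x.1.1 ∧ RamBy F u x.2}
  zero_mem' := ⟨0, Submodule.zero_mem _, map_zero _, fun q V _ _ σ _ => by simp [cext]⟩
  add_mem' := by
    rintro x y ⟨u, hu, hd, hr⟩ ⟨v, hv, hd', hr'⟩
    refine ⟨u + v, Submodule.add_mem _ hu hv, by rw [map_add, hd, hd']; rfl,
      fun q V hq hV σ hσ => ?_⟩
    have e : cext F (newT R R') (x + y).2 V =
        cext F (newT R R') x.2 V + cext F (newT R R') y.2 V := by
      simp only [cext, ← Finset.sum_add_distrib, Prod.snd_add, Pi.add_apply]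
      exact Finset.sum_congr rfl fun W _ => by split_ifs <;> simp
    rw [Pi.add_apply, Pi.add_apply, e, add_mul, ← hr q V hq hV σ hσ, ← hr' q V hq hV σ hσ]
    ring
  smul_mem' := by
    rintro c x ⟨u, hu, hd, hr⟩
    refine ⟨c • u, Submodule.smul_mem _ _ hu, by rw [map_smul, hd]; rfl, fun q V hq hV σ hσ => ?_⟩
    have e : cext F (newT R R') (c • x).2 V = c * cext F (newT R R') x.2 V := by
      simp only [cext, Finset.mul_sum, Prod.smul_snd, Pi.smul_apply, smul_eq_mul, mul_ite, mul_zero]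
    rw [Pi.smul_apply, Pi.smul_apply, e, mul_assoc, ← hr q V hq hV σ hσ, smul_eq_mul, smul_eq_mul]
    ring

theorem sha_le_coker (hp2 : p ≠ 2) :
    FiniteDimensional (ZMod p) (SH (Sha2N F R) (B2S (omRep p) F.N.subtype S)) ∧
      Module.finrank (ZMod p) (SH (Sha2N F R) (B2S (omRep p) F.N.subtype S)) +
        Module.finrank (ZMod p) ↥(LinearMap.range (omega F hB hpS)) ≤ (newT R R').card := by
  let φ : ↥(shaRel (R := R) (R' := R') F) →ₗ[ZMod p] SH (Sha2N F R) (B2S (omRep p) F.N.subtype S) :=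
    (Submodule.mkQ _).comp ((LinearMap.fst _ _ _).comp (shaRel (R := R) (R' := R') F).subtype)
  let π : ↥(shaRel (R := R) (R' := R') F) →ₗ[ZMod p]
      (↥(newT R R') → ZMod p) ⧸ LinearMap.range (omega F hB hpS) :=
    (Submodule.mkQ _).comp ((LinearMap.snd _ _ _).comp (shaRel (R := R) (R' := R') F).subtype)
  have hle : LinearMap.ker π ≤ LinearMap.ker φ := by
    rintro ⟨⟨f, C⟩, u, hu, hd, hr⟩ h
    obtain ⟨b, hb⟩ := (Submodule.Quotient.mk_eq_zero _).1 h
    refine (Submodule.Quotient.mk_eq_zero _).2 ?_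
    show f.1 ∈ B2S (omRep p) F.N.subtype S
    have hd' : d1 (omRep p) F.N.subtype (u - b.1) = f.1 := by
      rw [map_sub, d1_char F b.2.1, sub_zero]; exact hd
    rw [← hd']
    refine mem_B2S_of_unram F (Submodule.sub_mem _ hu b.2.1.1) (hd'.symm ▸ f.2.1)
      fun q V hq hV σ hσ => ?_
    have h1 := hr q V hq hV σ hσ
    have h2 := ramBy_char F hB hpS b q V hq hV σ hσ
    rw [show omega F hB hpS b = C from hb, ← h1] at h2
    simp only [Pi.sub_apply]
    linear_combination -h2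
  have hsurj : Function.Surjective φ := fun x => by
    obtain ⟨f, rfl⟩ := Submodule.Quotient.mk_surjective _ x
    obtain ⟨u, hu, hd, C, hC⟩ := exists_ramBy F hB hpS hp2 f.2
    exact ⟨⟨(f, C), u, hu, hd, hC⟩, rfl⟩
  let ψ : ↥(LinearMap.range π) →ₗ[ZMod p] SH (Sha2N F R) (B2S (omRep p) F.N.subtype S) :=
    ((LinearMap.ker π).liftQ φ hle).comp π.quotKerEquivRange.symm.toLinearMap
  have hψ : Function.Surjective ψ :=
    ((LinearMap.ker π).liftQ φ hle).range_eq_top.1 (by
      rw [Submodule.range_liftQ]; exact LinearMap.range_eq_top.2 hsurj) |>.comp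
        π.quotKerEquivRange.symm.surjective
  refine ⟨Module.Finite.of_surjective ψ hψ, ?_⟩
  have h1 := LinearMap.finrank_le_finrank_of_surjective (f := ψ) hψ
  have h2 := Submodule.finrank_le (LinearMap.range π)
  have h3 := Submodule.finrank_quotient_add_finrank (LinearMap.range (omega F hB hpS))
  rw [Module.finrank_pi, Fintype.card_coe] at h3
  omega

omit hB in
/-- The bound by the characters vanishing at the places over `S`. -/
theorem sha_bound (hR : SPlaces F R) (hp2 : p ≠ 2) :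
    FiniteDimensional (ZMod p) (SH (Sha2N F R) (B2S (omRep p) F.N.subtype S)) ∧
      Module.finrank (ZMod p) (SH (Sha2N F R) (B2S (omRep p) F.N.subtype S)) ≤
        Module.finrank (ZMod p) ↥(Sha1N F R) := by
  classical
  have hp3 := three_lt (p := p) hp2
  obtain ⟨S', R', -, hB⟩ := exists_big F hR hpS hp3 ∅
  obtain ⟨hfin, hle⟩ := sha_le_coker F hB hpS hp2
  refine ⟨hfin, ?_⟩
  haveI := finite_global F hR hpS hp3
  haveI := hB.finite F hpS hp3
  have hcard : (newT R R').card + R.card = R'.card := by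
    rw [newT, show (R'.filter fun V => V ∉ R) = R' \ R from Finset.sdiff_eq_filter _ _ |>.symm,
      Finset.card_sdiff_of_subset hB.subR, Nat.sub_add_cancel (Finset.card_le_card hB.subR)]
  have hL' := finrank_Z1S (mono F hB.sub) hB.places (hB.sub hpS) hB.gen hp3
  have hL'' : Module.finrank (ZMod p) ↥(Z1S (omRep p) F.N.subtype S') =
      Module.finrank ℚ F.K / 2 + R'.card := hL'
  have h1 := LinearMap.finrank_range_add_finrank_ker (omega F hB hpS)
  have hkmem : ∀ b : ↥(LinearMap.ker (omega F hB hpS)), b.1.1 ∈ Z1S (omRep p) F.N.subtype S :=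
    fun b => (mem_Z1S_iff F).2 ⟨b.1.2.1, fun l V hl hV σ hσ => by
      have h := ramBy_char F hB hpS b.1 ⟨l, hl.1⟩ V hl.notMem hV σ hσ
      rw [show omega F hB hpS b.1 = 0 from b.2, Z1_one (fixN F) b.1.2.1, sub_zero] at h
      simpa [cext] using h⟩
  let j : ↥(LinearMap.ker (omega F hB hpS)) →ₗ[ZMod p] ↥(Z1S (omRep p) F.N.subtype S) :=
    ((Z1S (omRep p) F.N.subtype S').subtype.comp
      (LinearMap.ker (omega F hB hpS)).subtype).codRestrict _ hkmem
  have h2 := LinearMap.finrank_le_finrank_of_injective (f := j) fun a b h =>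
    Subtype.ext (Subtype.ext (congrArg (fun x : ↥(Z1S (omRep p) F.N.subtype S) => x.1) h))
  have h3 := LinearMap.finrank_range_add_finrank_ker (locR F R)
  have h4 := finrank_range_le hp2 hR hpS
  haveI : FiniteDimensional (ZMod p) ↥(Sha1N F R) :=
    Module.Finite.of_injective (Submodule.inclusion (show Sha1N F R ≤ Z1S (omRep p) F.N.subtype S
      from inf_le_left)) (Submodule.inclusion_injective _)
  have hsha : ∀ a : ↥(LinearMap.ker (locR F R)), a.1.1 ∈ Sha1N F R := fun a => by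
    refine ⟨a.1.2, ?_⟩
    simp only [SetLike.mem_coe, Submodule.mem_iInf, Submodule.mem_comap]
    intro w hw
    rw [show res1 (p := p) (F.incl w) a.1.1 = 0 from
      congrArg Subtype.val (congrFun a.2 ⟨w, hw⟩)]
    exact Submodule.zero_mem _
  let i : ↥(LinearMap.ker (locR F R)) →ₗ[ZMod p] ↥(Sha1N F R) :=
    ((Z1S (omRep p) F.N.subtype S).subtype.comp
      (LinearMap.ker (locR F R)).subtype).codRestrict _ hsha
  have h5 := LinearMap.finrank_le_finrank_of_injective (f := i) fun a b h =>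
    Subtype.ext (Subtype.ext (congrArg (fun x : ↥(Sha1N F R) => x.1) h))
  omega

end FLTAgent.PoitouTate.Field
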